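/-
S28 (fibres of the Igusa scheme over F_l are integral) -- the differential equation of `j`.

For the `q`-expansion `j = jqModC ℂ` and `θ = q d/dq`:
`(θ j)^6 = j^4 (j - 1728)^3 Δ`, where `Δ = q ∏ (1 - q^n)^24`.

Proof: Ramanujan's identities `θ E₄ = (E₂ E₄ - E₆)/3`, `θ Δ = E₂ Δ` (package X0L1) give, after
eliminating `E₂`, the identity `θ j · Δ = -E₄² E₆` of `q`-expansions; together with
`j Δ = E₄³` and `(j - 1728) Δ = E₆²` the sixth power is the claim.
-/
import Mathlib
import Fermat.Agent.S28L.Defs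
import Fermat.Agent.X0L1.Ramanujan
import Fermat.Agent.X0S24.EtaBridge

set_option autoImplicit false

namespace Fermat.Agent.S28L

open UpperHalfPlane ModularForm MatrixGroups ModularCurve HahnSeries

section algebra

variable {R : Type*} [CommRing R]

theorem anTheta_support_theta (f : LaurentSeries R) : (theta f).support ⊆ f.support := by
  intro n hn
  rw [HahnSeries.mem_support, theta_coeff] at hn
  rw [HahnSeries.mem_support]
  exact right_ne_zero_of_mul hn

/-- Leibniz rule for `θ = q d/dq` on Laurent series. -/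
theorem anTheta_theta_mul (f g : LaurentSeries R) :
    theta (f * g) = theta f * g + f * theta g := by
  ext n
  rw [HahnSeries.coeff_add, theta_coeff,
    HahnSeries.coeff_mul_left' f.isPWO_support (anTheta_support_theta f),
    HahnSeries.coeff_mul_right' g.isPWO_support (anTheta_support_theta g),
    HahnSeries.coeff_mul, Finset.mul_sum, ← Finset.sum_add_distrib]
  refine Finset.sum_congr rfl ?_
  rintro ⟨i, j⟩ h
  rw [Finset.mem_antidiagonal] at h
  have h3 : i + j = n := h.2.2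
  have h3' : (n : R) = (i : R) + (j : R) := by
    rw [← h3]
    push_cast
    rfl
  show (n : R) * (f.coeff i * g.coeff j) =
    ((i : R) * f.coeff i) * g.coeff j + f.coeff i * ((j : R) * g.coeff j)
  rw [h3']
  ring

/-- `θ` on power series is `X d/dX`. -/
theorem anTheta_theta_ofPowerSeries (p : PowerSeries R) :
    theta (HahnSeries.ofPowerSeries ℤ R p)
      = HahnSeries.ofPowerSeries ℤ R (PowerSeries.X * PowerSeries.derivative R p) := by
  ext n
  rw [theta_coeff]
  rcases lt_or_ge n 0 with hn | hn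
  · rw [ofPowerSeries_coeff_of_neg _ hn, ofPowerSeries_coeff_of_neg _ hn, mul_zero]
  · obtain ⟨m, rfl⟩ := Int.eq_ofNat_of_zero_le hn
    rw [HahnSeries.ofPowerSeries_apply_coeff, HahnSeries.ofPowerSeries_apply_coeff]
    cases m with
    | zero => simp
    | succ k =>
      rw [PowerSeries.coeff_succ_X_mul, PowerSeries.coeff_derivative]
      push_cast
      ring

end algebra

section analytic

open Fermat.Agent.X0S24.EtaBridge Fermat.Agent.X0L1 Filter Topology

/-- the Taylor series of a constant function -/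
theorem anTheta_tay_const (c : ℂ) : tay (fun _ : ℂ => c) = PowerSeries.C c := by
  ext m
  have h2 : iteratedDeriv m (fun _ : ℂ => c) 0 = if m = 0 then c else 0 := by
    simpa [ite_apply] using! iteratedDeriv_const
  rw [coeff_tay, h2, PowerSeries.coeff_C]
  split_ifs with h
  · subst h; simp
  · simp

/-- the Taylor series of the derivative is the formal derivative of the Taylor series -/
theorem anTheta_tay_deriv (c : ℂ → ℂ) : tay (deriv c) = PowerSeries.derivative ℂ (tay c) := by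
  ext m
  rw [coeff_tay, PowerSeries.coeff_derivative, coeff_tay, iteratedDeriv_succ',
    Nat.factorial_succ]
  have h1 : ((m.factorial : ℕ) : ℂ) ≠ 0 := by exact_mod_cast Nat.factorial_ne_zero m
  have h2 : ((m : ℂ) + 1) ≠ 0 := by exact_mod_cast Nat.succ_ne_zero m
  push_cast
  field_simp

theorem anTheta_tay_id_mul_deriv {c : ℂ → ℂ} (hc : AnalyticAt ℂ c 0) :
    tay ((fun w : ℂ => w) * deriv c) = PowerSeries.X * PowerSeries.derivative ℂ (tay c) := by
  have hid : AnalyticAt ℂ (fun q : ℂ => q) 0 := analyticAt_id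
  rw [tay_mul hid hc.deriv, tay_id, anTheta_tay_deriv]

theorem anTheta_qExpansion_eq_tay (F : ℍ → ℂ) : qExpansion 1 F = tay (cuspFunction 1 F) := by
  ext m
  rw [qExpansion_coeff, coeff_tay]

/-- every point of the punctured unit disc is `q(z)` for some `z` in the upper half plane -/
theorem anTheta_exists_qParam {w : ℂ} (hw : ‖w‖ < 1) (hw0 : w ≠ 0) :
    ∃ z : ℍ, Function.Periodic.qParam 1 (z : ℂ) = w :=
  ⟨⟨Function.Periodic.invQParam 1 w,
    Function.Periodic.im_invQParam_pos_of_norm_lt_one one_pos hw hw0⟩,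
    Function.Periodic.qParam_right_inv one_ne_zero hw0⟩

/-- two functions analytic at `0` that agree at all `q(z)`, `z` in the upper half plane (that is,
on the punctured unit disc), have the same Taylor series at `0` -/
theorem anTheta_tay_eq_of_punctured {f g : ℂ → ℂ} (hf : AnalyticAt ℂ f 0)
    (hg : AnalyticAt ℂ g 0)
    (h : ∀ z : ℍ, f (Function.Periodic.qParam 1 (z : ℂ))
      = g (Function.Periodic.qParam 1 (z : ℂ))) :
    tay f = tay g := by
  apply tay_congr
  apply (hf.frequently_eq_iff_eventually_eq hg).mp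
  apply Eventually.frequently
  rw [eventually_nhdsWithin_iff]
  filter_upwards [Metric.ball_mem_nhds (0 : ℂ) one_pos] with w hw hw0
  obtain ⟨z, rfl⟩ := anTheta_exists_qParam (by simpa using hw) hw0
  exact h z

theorem anTheta_analyticAt_E₄ : AnalyticAt ℂ (cuspFunction 1 ⇑E₄) 0 :=
  ModularFormClass.analyticAt_cuspFunction_zero E₄ one_pos one_mem_strictPeriods_SL

theorem anTheta_analyticAt_E₆ : AnalyticAt ℂ (cuspFunction 1 ⇑E₆) 0 :=
  ModularFormClass.analyticAt_cuspFunction_zero E₆ one_pos one_mem_strictPeriods_SL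

theorem anTheta_analyticAt_disc : AnalyticAt ℂ (cuspFunction 1 ModularForm.discriminant) 0 :=
  ModularFormClass.analyticAt_cuspFunction_zero CuspForm.discriminant one_pos
    one_mem_strictPeriods_SL

theorem anTheta_cusp_E₄ (z : ℍ) :
    cuspFunction 1 ⇑E₄ (Function.Periodic.qParam 1 (z : ℂ)) = E₄ z :=
  SlashInvariantFormClass.eq_cuspFunction E₄ z one_mem_strictPeriods_SL one_ne_zero

theorem anTheta_cusp_E₆ (z : ℍ) :
    cuspFunction 1 ⇑E₆ (Function.Periodic.qParam 1 (z : ℂ)) = E₆ z :=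
  SlashInvariantFormClass.eq_cuspFunction E₆ z one_mem_strictPeriods_SL one_ne_zero

theorem anTheta_cusp_disc (z : ℍ) :
    cuspFunction 1 ModularForm.discriminant (Function.Periodic.qParam 1 (z : ℂ))
      = ModularForm.discriminant z :=
  SlashInvariantFormClass.eq_cuspFunction CuspForm.discriminant z one_mem_strictPeriods_SL
    one_ne_zero

/-- (P1): `E₄³ - E₆² = 1728 Δ` for `q`-expansions. -/
theorem anTheta_P1 :
    qExpansion 1 ⇑E₄ ^ 3 - qExpansion 1 ⇑E₆ ^ 2
      = PowerSeries.C (1728 : ℂ) * qExpansion 1 ModularForm.discriminant := by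
  have h4 := anTheta_analyticAt_E₄
  have h6 := anTheta_analyticAt_E₆
  have hd := anTheta_analyticAt_disc
  have hc : AnalyticAt ℂ (fun _ : ℂ => (1728 : ℂ)) 0 := analyticAt_const
  have key : tay (cuspFunction 1 ⇑E₄ ^ 3 - cuspFunction 1 ⇑E₆ ^ 2)
      = tay ((fun _ : ℂ => (1728 : ℂ)) * cuspFunction 1 ModularForm.discriminant) := by
    apply anTheta_tay_eq_of_punctured ((h4.pow 3).sub (h6.pow 2)) (hc.mul hd)
    intro z
    simp only [Pi.sub_apply, Pi.pow_apply, Pi.mul_apply]
    rw [anTheta_cusp_E₄, anTheta_cusp_E₆, anTheta_cusp_disc,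
      ModularForm.discriminant_eq_E₄_cube_sub_E₆_sq]
    ring
  rw [tay_sub (h4.pow 3) (h6.pow 2), tay_pow h4, tay_pow h6, tay_mul hc hd, anTheta_tay_const]
    at key
  rw [anTheta_qExpansion_eq_tay, anTheta_qExpansion_eq_tay, anTheta_qExpansion_eq_tay]
  exact key

/-- (P2): the Ramanujan identities for `θ E₄` and `θ Δ`, for `q`-expansions, with `E₂`
eliminated: `E₄³ θΔ - 3 E₄² θE₄ Δ = E₄² E₆ Δ`. -/
theorem anTheta_P2 :
    qExpansion 1 ⇑E₄ ^ 3
        * (PowerSeries.X * PowerSeries.derivative ℂ (qExpansion 1 ModularForm.discriminant))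
      - PowerSeries.C (3 : ℂ) * qExpansion 1 ⇑E₄ ^ 2
        * (PowerSeries.X * PowerSeries.derivative ℂ (qExpansion 1 ⇑E₄))
        * qExpansion 1 ModularForm.discriminant
      = qExpansion 1 ⇑E₄ ^ 2 * qExpansion 1 ⇑E₆ * qExpansion 1 ModularForm.discriminant := by
  have h4 := anTheta_analyticAt_E₄
  have h6 := anTheta_analyticAt_E₆
  have hd := anTheta_analyticAt_disc
  have hc : AnalyticAt ℂ (fun _ : ℂ => (3 : ℂ)) 0 := analyticAt_const
  have hid : AnalyticAt ℂ (fun q : ℂ => q) 0 := analyticAt_id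
  have h4' : AnalyticAt ℂ ((fun w : ℂ => w) * deriv (cuspFunction 1 ⇑E₄)) 0 := hid.mul h4.deriv
  have hd' : AnalyticAt ℂ
      ((fun w : ℂ => w) * deriv (cuspFunction 1 ModularForm.discriminant)) 0 :=
    hid.mul hd.deriv
  have key : tay (cuspFunction 1 ⇑E₄ ^ 3
        * ((fun w : ℂ => w) * deriv (cuspFunction 1 ModularForm.discriminant))
      - (fun _ : ℂ => (3 : ℂ)) * cuspFunction 1 ⇑E₄ ^ 2
        * ((fun w : ℂ => w) * deriv (cuspFunction 1 ⇑E₄))
        * cuspFunction 1 ModularForm.discriminant)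
      = tay (cuspFunction 1 ⇑E₄ ^ 2 * cuspFunction 1 ⇑E₆
        * cuspFunction 1 ModularForm.discriminant) := by
    apply anTheta_tay_eq_of_punctured
      (((h4.pow 3).mul hd').sub (((hc.mul (h4.pow 2)).mul h4').mul hd))
      (((h4.pow 2).mul h6).mul hd)
    intro z
    simp only [Pi.sub_apply, Pi.pow_apply, Pi.mul_apply]
    have e4 := Ramanujan.D_eq_qParam_mul_deriv_cuspFunction E₄ z
    have ed : Derivative.normalizedDerivOfComplex ModularForm.discriminant z
        = Function.Periodic.qParam 1 (z : ℂ)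
          * deriv (cuspFunction 1 ModularForm.discriminant)
            (Function.Periodic.qParam 1 (z : ℂ)) :=
      Ramanujan.D_eq_qParam_mul_deriv_cuspFunction (CuspForm.discriminant : ModularForm 𝒮ℒ 12) z
    have r4 := D_E₄ z
    have rd := D_discriminant z
    rw [anTheta_cusp_E₄, anTheta_cusp_E₆, anTheta_cusp_disc, ← ed, ← e4, rd, r4]
    ring
  rw [tay_sub ((h4.pow 3).mul hd') (((hc.mul (h4.pow 2)).mul h4').mul hd),
    tay_mul (h4.pow 3) hd', tay_pow h4, anTheta_tay_id_mul_deriv hd,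
    tay_mul ((hc.mul (h4.pow 2)).mul h4') hd, tay_mul (hc.mul (h4.pow 2)) h4',
    tay_mul hc (h4.pow 2), anTheta_tay_const, tay_pow h4, anTheta_tay_id_mul_deriv h4,
    tay_mul ((h4.pow 2).mul h6) hd, tay_mul (h4.pow 2) h6, tay_pow h4] at key
  rw [anTheta_qExpansion_eq_tay, anTheta_qExpansion_eq_tay, anTheta_qExpansion_eq_tay]
  exact key

end analytic

section main

open Fermat.Agent.X0S24.EtaBridge

/-- `DeltaR ℂ` is the `q`-expansion of the discriminant. -/
theorem anTheta_DeltaR_eq :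
    DeltaR ℂ = HahnSeries.ofPowerSeries ℤ ℂ (qExpansion 1 ModularForm.discriminant) := by
  rw [DeltaR, qExpansion_discriminant, map_mul, HahnSeries.ofPowerSeries_X]

/-- `j Δ = E₄³` for `q`-expansions. -/
theorem anTheta_jq_mul_Delta :
    jqModC ℂ * DeltaR ℂ = HahnSeries.ofPowerSeries ℤ ℂ (qExpansion 1 ⇑E₄) ^ 3 := by
  rw [anTheta_DeltaR_eq, ← jq_mul_discriminant, ← jqModC_rat, coeffMap_jqModC]

theorem anTheta_DeltaR_ne_zero : DeltaR ℂ ≠ 0 := by
  rw [anTheta_DeltaR_eq]
  intro h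
  have h1 : qExpansion 1 ModularForm.discriminant = 0 :=
    HahnSeries.ofPowerSeries_injective (by rw [h, map_zero])
  have h2 := ModularForm.discriminant_qExpansion_coeff_one
  rw [h1] at h2
  simp at h2

/-- `θ j · Δ = -E₄² E₆` for `q`-expansions. -/
theorem anTheta_theta_jq_mul_Delta :
    theta (jqModC ℂ) * DeltaR ℂ
      = -(HahnSeries.ofPowerSeries ℤ ℂ (qExpansion 1 ⇑E₄) ^ 2
        * HahnSeries.ofPowerSeries ℤ ℂ (qExpansion 1 ⇑E₆)) := by
  have hD : DeltaR ℂ = HahnSeries.ofPowerSeries ℤ ℂ (qExpansion 1 ModularForm.discriminant) :=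
    anTheta_DeltaR_eq
  have hJ := anTheta_jq_mul_Delta
  have hD0 := anTheta_DeltaR_ne_zero
  have h3 : PowerSeries.derivative ℂ (qExpansion 1 ⇑E₄ ^ 3)
      = PowerSeries.C (3 : ℂ) * qExpansion 1 ⇑E₄ ^ 2
        * PowerSeries.derivative ℂ (qExpansion 1 ⇑E₄) := by
    rw [Derivation.leibniz_pow, nsmul_eq_mul, smul_eq_mul, map_ofNat]
    norm_num
    ring
  have h1 := anTheta_theta_mul (jqModC ℂ) (DeltaR ℂ)
  rw [hJ, ← map_pow, anTheta_theta_ofPowerSeries, h3] at h1
  have h2 : theta (DeltaR ℂ) = HahnSeries.ofPowerSeries ℤ ℂ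
      (PowerSeries.X * PowerSeries.derivative ℂ (qExpansion 1 ModularForm.discriminant)) := by
    rw [hD, anTheta_theta_ofPowerSeries]
  have hP2 := congrArg (HahnSeries.ofPowerSeries ℤ ℂ) anTheta_P2
  have hc3 : HahnSeries.ofPowerSeries ℤ ℂ (PowerSeries.C (3 : ℂ)) = 3 := by
    rw [map_ofNat, map_ofNat]
  simp only [map_mul, map_sub, map_pow, hc3] at h1 h2 hP2
  rw [← hD] at hP2
  apply mul_right_cancel₀ hD0
  linear_combination -DeltaR ℂ * h1 - theta (DeltaR ℂ) * hJ
    - HahnSeries.ofPowerSeries ℤ ℂ (qExpansion 1 ⇑E₄) ^ 3 * h2 - hP2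

/-- `(j - 1728) Δ = E₆²` for `q`-expansions. -/
theorem anTheta_jq_sub_mul_Delta :
    (jqModC ℂ - 1728) * DeltaR ℂ = HahnSeries.ofPowerSeries ℤ ℂ (qExpansion 1 ⇑E₆) ^ 2 := by
  have hD : DeltaR ℂ = HahnSeries.ofPowerSeries ℤ ℂ (qExpansion 1 ModularForm.discriminant) :=
    anTheta_DeltaR_eq
  have hJ := anTheta_jq_mul_Delta
  have hP1 := congrArg (HahnSeries.ofPowerSeries ℤ ℂ) anTheta_P1
  have hc1728 : HahnSeries.ofPowerSeries ℤ ℂ (PowerSeries.C (1728 : ℂ)) = 1728 := by
    rw [map_ofNat, map_ofNat]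
  simp only [map_mul, map_sub, map_pow, hc1728] at hP1
  rw [← hD] at hP1
  linear_combination hJ + hP1

/-- **The differential equation of `j`**: `(θ j)^6 = j^4 (j - 1728)^3 Δ` for the `q`-expansion
of `j` with complex coefficients, `θ = q d/dq`. -/
theorem anTheta_main :
    theta (jqModC ℂ) ^ 6 = jqModC ℂ ^ 4 * (jqModC ℂ - 1728) ^ 3 * DeltaR ℂ := by
  have hJ := anTheta_jq_mul_Delta
  have hB := anTheta_jq_sub_mul_Delta
  have key := anTheta_theta_jq_mul_Delta
  apply mul_right_cancel₀ (pow_ne_zero 6 anTheta_DeltaR_ne_zero)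
  calc theta (jqModC ℂ) ^ 6 * DeltaR ℂ ^ 6
      = (theta (jqModC ℂ) * DeltaR ℂ) ^ 6 := by ring
    _ = (HahnSeries.ofPowerSeries ℤ ℂ (qExpansion 1 ⇑E₄) ^ 3) ^ 4
        * (HahnSeries.ofPowerSeries ℤ ℂ (qExpansion 1 ⇑E₆) ^ 2) ^ 3 := by rw [key]; ring
    _ = (jqModC ℂ * DeltaR ℂ) ^ 4 * ((jqModC ℂ - 1728) * DeltaR ℂ) ^ 3 := by rw [hJ, hB]
    _ = jqModC ℂ ^ 4 * (jqModC ℂ - 1728) ^ 3 * DeltaR ℂ * DeltaR ℂ ^ 6 := by ring

end main

end Fermat.Agent.S28L
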