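import Mathlib
import Fermat.Agent.X0S24.Final
import Fermat.Agent.X0Count.Main

/-!
# S28 library (P5): the degree of the function field of `X₀(N)` over `ℚ(j)` is at most `ψ(N)`

* `finrank_bar`: over `ℚ̄`, `[F̄ : ℚ̄(j)] = ψ(N)` exactly, where `F̄ = modularFunctionFieldBar N`
  (number of zeros of `j` on the curve over `ℚ̄` of `X0S24.Final.exists_curve`, counted by the
  cover datum, and `X0Count.index_Gamma0`);
* `relrank_full_le`: over `ℚ`, `[F : ℚ(j)] ≤ ψ(N)` for `F = modularFunctionFieldFull N`, by base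
  change: a family of `F` which is linearly independent over `ℚ(j)` stays linearly independent
  over `ℚ̄(j)` after the coefficient embedding (`X0S24.Descent.linearIndependent_kappa`).
-/

set_option autoImplicit false

open ModularCurve
open scoped IntermediateField MatrixGroups
open scoped IntermediateField.algebraAdjoinAdjoin

namespace Fermat.Agent.S28L.DegBar

open Fermat.Agent.X0Fld Fermat.Agent.CoverL Fermat.Agent.RRL Fermat.Agent.X0S24.Base
open Fermat.Agent.X0S24

section Generic

variable {k L : Type*} [Field k] [Field L] [Algebra k L]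

/-- if the monomials `a ^ n * v i` are `k`-linearly independent, then the `v i` are linearly
independent over the subalgebra `k[a]` -/
theorem linearIndependent_algAdjoin_of_monomials {ι : Type*} (a : L) (v : ι → L)
    (h : LinearIndependent k (fun p : ι × ℕ => a ^ p.2 * v p.1)) :
    LinearIndependent ↥(Algebra.adjoin k {a}) v := by
  classical
  rw [linearIndependent_iff'] at h ⊢
  intro s g hg i hi
  have hP : ∀ j : ι, ∃ P : Polynomial k, Polynomial.aeval a P = (g j : L) := by
    intro j
    have hj : (g j : L) ∈ (Polynomial.aeval a : Polynomial k →ₐ[k] L).range := by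
      rw [← Algebra.adjoin_singleton_eq_range_aeval]
      exact (g j).2
    exact hj
  choose P hP using hP
  set M : ℕ := s.sup (fun j => (P j).natDegree) + 1 with hM
  have hdeg : ∀ j ∈ s, (P j).natDegree < M := fun j hj =>
    Nat.lt_succ_of_le (Finset.le_sup (f := fun j => (P j).natDegree) hj)
  have hsum : ∑ p ∈ s ×ˢ Finset.range M, (P p.1).coeff p.2 • (a ^ p.2 * v p.1) = 0 := by
    rw [Finset.sum_product]
    rw [← hg]
    refine Finset.sum_congr rfl fun j hj => ?_
    rw [Subalgebra.smul_def, ← hP j, Polynomial.aeval_eq_sum_range' (hdeg j hj), Finset.sum_smul]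
    refine Finset.sum_congr rfl fun n _ => ?_
    rw [smul_eq_mul, smul_mul_assoc]
  have hz : ∀ n ∈ Finset.range M, (P i).coeff n = 0 := fun n hn =>
    h _ _ hsum (i, n) (Finset.mem_product.mpr ⟨hi, hn⟩)
  have hPi : P i = 0 := by
    ext n
    by_cases hn : n < M
    · rw [hz n (Finset.mem_range.mpr hn), Polynomial.coeff_zero]
    · rw [Polynomial.coeff_eq_zero_of_natDegree_lt (lt_of_lt_of_le (hdeg i hi) (not_lt.mp hn)), Polynomial.coeff_zero]
  apply Subtype.ext
  rw [← hP i, hPi, map_zero]
  rfl

/-- if the monomials `a ^ n * v i` are `k`-linearly independent, then the `v i` are linearly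
independent over `k(a)` -/
theorem linearIndependent_adjoin_of_monomials {ι : Type*} (a : L) (v : ι → L)
    (h : LinearIndependent k (fun p : ι × ℕ => a ^ p.2 * v p.1)) :
    LinearIndependent ↥(k⟮a⟯) v :=
  (LinearIndependent.iff_fractionRing (Algebra.adjoin k {a}) ↥(k⟮a⟯)).mp
    (linearIndependent_algAdjoin_of_monomials a v h)

/-- conversely, for transcendental `a` -/
theorem linearIndependent_monomials_of_adjoin {ι : Type*} (a : L) (ha : Transcendental k a)
    (v : ι → L) (h : LinearIndependent ↥(k⟮a⟯) v) :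
    LinearIndependent k (fun p : ι × ℕ => a ^ p.2 * v p.1) := by
  classical
  have h' : LinearIndependent ↥(Algebra.adjoin k {a}) v :=
    (LinearIndependent.iff_fractionRing (Algebra.adjoin k {a}) ↥(k⟮a⟯)).mpr h
  rw [linearIndependent_iff'] at h' ⊢
  intro T c hc p hp
  -- the polynomial attached to the index `i`
  let Q : ι → Polynomial k := fun i => ∑ q ∈ T.filter (fun q => q.1 = i), Polynomial.monomial q.2 (c q)
  have hmem : ∀ i, Polynomial.aeval a (Q i) ∈ Algebra.adjoin k {a} := by
    intro i
    rw [Algebra.adjoin_singleton_eq_range_aeval]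
    exact ⟨Q i, rfl⟩
  have hsum : ∑ i ∈ T.image Prod.fst, (⟨Polynomial.aeval a (Q i), hmem i⟩ : Algebra.adjoin k {a}) • v i = 0 := by
    rw [← hc, ← Finset.sum_fiberwise_of_maps_to (g := Prod.fst) (t := T.image Prod.fst)
      (fun q hq => Finset.mem_image_of_mem _ hq)]
    refine Finset.sum_congr rfl fun i _ => ?_
    rw [Subalgebra.smul_def, smul_eq_mul]
    show Polynomial.aeval a (∑ q ∈ T.filter (fun q => q.1 = i), Polynomial.monomial q.2 (c q)) * v i = _
    rw [map_sum, Finset.sum_mul]
    refine Finset.sum_congr rfl fun q hq => ?_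
    rw [Polynomial.aeval_monomial, (Finset.mem_filter.mp hq).2.symm, Algebra.smul_def, mul_assoc]
  have h0 := h' _ _ hsum p.1 (Finset.mem_image_of_mem _ hp)
  have h1 : Polynomial.aeval a (Q p.1) = 0 := congrArg Subtype.val h0
  have h2 : Q p.1 = 0 := by
    by_contra hne
    exact ha ⟨Q p.1, hne, h1⟩
  have h3 := congrArg (fun R : Polynomial k => R.coeff p.2) h2
  simp only [Q, Polynomial.finsetSum_coeff, Polynomial.coeff_monomial, Polynomial.coeff_zero] at h3
  rw [Finset.sum_eq_single p] at h3
  · simpa using h3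
  · intro q hq hqp
    rw [if_neg]
    intro h4
    exact hqp (Prod.ext (Finset.mem_filter.mp hq).2 h4)
  · intro hnp
    exact absurd (Finset.mem_filter.mpr ⟨hp, (rfl : p.1 = p.1)⟩) hnp

end Generic

variable (N : ℕ) [NeZero N]

/-- `F̄` is finite over `ℚ̄(j)` -/
theorem finite_bar :
    Module.Finite ↥((AlgebraicClosure ℚ)⟮Embed.jbar N⟯) ↥(modularFunctionFieldBar N) := by
  obtain ⟨C₀, -⟩ := Final.exists_curve N
  exact C₀.finite_adjoin_of_nonconst (Embed.jbar_ne_algebraMap N)

/-- the number of zeros of `j` on the curve over `ℚ̄` -/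
theorem finsum_zeros_jbar (C₀ : Curve (AlgebraicClosure ℚ) ↥(modularFunctionFieldBar N)
      (Final.setup N).Pt) (hC₀ : C₀.toPreCurve = (Final.setup N).preCurve) :
    ∑ᶠ p : (Final.setup N).Pt, max (C₀.ord p (Embed.jbar N)) 0 = ((datum N).H.index : ℤ) := by
  have h := (datum N).finsum_max_ordAt_jF_sub 0
  rw [map_zero, sub_zero] at h
  rw [← h]
  have hord : ∀ p : (Final.setup N).Pt,
      C₀.ord p (Embed.jbar N) = (datum N).ordAt p.1 (datum N).jF := by
    intro p
    show C₀.toPreCurve.ord p (Embed.jbar N) = _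
    rw [hC₀, Final.setup_ord, Embed.iota_jbar]
  simp only [hord]
  -- restrict the sum to the subtype
  have hsub : ∀ p : (datum N).Pt, max ((datum N).ordAt p (datum N).jF) 0 ≠ 0 →
      ((Final.setup N).C.ord p ((Final.setup N).ι (Final.setup N).j) < 0 ∨
        ∃ c : AlgebraicClosure ℚ, 0 < (Final.setup N).C.ord p ((Final.setup N).ι
          ((Final.setup N).j - algebraMap (AlgebraicClosure ℚ) ↥(modularFunctionFieldBar N) c))) := by
    intro p hp
    rw [Final.mem_Pt_iff]
    right
    refine ⟨0, ?_⟩
    rw [map_zero, map_zero, sub_zero]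
    by_contra hcon
    exact hp (max_eq_right (not_lt.mp hcon))
  show ∑ᶠ p : {p : (datum N).Pt // _}, max ((datum N).ordAt p.1 (datum N).jF) 0 = _
  rw [finsum_subtype_eq_finsum_cond (f := fun p : (datum N).Pt =>
    max ((datum N).ordAt p (datum N).jF) 0)]
  rw [← finsum_mem_univ (fun p : (datum N).Pt => max ((datum N).ordAt p (datum N).jF) 0)]
  refine finsum_mem_inter_support_eq _ _ _ ?_
  ext p
  constructor
  · intro hp
    exact ⟨Set.mem_univ _, hp.2⟩
  · intro hp
    exact ⟨hsub p hp.2, hp.2⟩

/-- the degree of `F̄` over `ℚ̄(j)` is the index of `Γ₀(N)` -/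
theorem finrank_bar :
    Module.finrank ↥((AlgebraicClosure ℚ)⟮Embed.jbar N⟯) ↥(modularFunctionFieldBar N)
      = dedekindPsi N := by
  obtain ⟨C₀, hC₀⟩ := Final.exists_curve N
  have h := C₀.finsum_max_ord_eq_finrank (Embed.jbar_ne_algebraMap N)
  rw [finsum_zeros_jbar N C₀ hC₀] at h
  have h2 : (datum N).H.index = dedekindPsi N := by
    rw [datum_H]
    exact X0Count.index_Gamma0 N
  rw [h2] at h
  exact_mod_cast h.symm

/-- `κ_1` is the coefficient embedding -/
theorem kappa_one_eq (f : LaurentSeries ℚ) :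
    Descent.kappa (K₀ := ℚ) (K := AlgebraicClosure ℚ) 1 f = coeffEmb (AlgebraicClosure ℚ) f := by
  ext k
  have h := Descent.kappa_coeff_mul (K₀ := ℚ) (K := AlgebraicClosure ℚ) 1 f k
  rw [Nat.cast_one, one_mul] at h
  rw [h, coeffEmb_coeff, eq_ratCast]

/-- `jq` is transcendental over `ℚ` -/
theorem transcendental_jq : Transcendental ℚ jq := by
  rintro ⟨p, hp0, hp⟩
  apply Alg.transcendental_coeffEmb_jq
  refine ⟨p.map (algebraMap ℚ (AlgebraicClosure ℚ)), ?_, ?_⟩
  · exact (Polynomial.map_ne_zero_iff (algebraMap ℚ (AlgebraicClosure ℚ)).injective).mpr hp0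
  · have h1 := congrArg (coeffEmb (AlgebraicClosure ℚ)) hp
    rw [map_zero, Polynomial.aeval_def, Polynomial.hom_eval₂] at h1
    rw [Polynomial.aeval_def, Polynomial.eval₂_map]
    rw [← h1]
    congr 1
    exact Subsingleton.elim _ _

/-- linearly independent families of `F` over `ℚ(j)` have at most `ψ(N)` elements -/
theorem card_le_of_linearIndependent {ι : Type*} [Fintype ι] (v : ι → LaurentSeries ℚ)
    (hmem : ∀ i, v i ∈ modularFunctionFieldFull N)
    (hv : LinearIndependent ↥(ℚ⟮jq⟯) v) : Fintype.card ι ≤ dedekindPsi N := by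
  have h1 := linearIndependent_monomials_of_adjoin jq transcendental_jq v hv
  rw [Descent.algebra_toModule_eq ℚ] at h1
  have h3 := Descent.linearIndependent_kappa (K₀ := ℚ) (K := AlgebraicClosure ℚ) 1 _ h1
  have hfam : (fun p : ι × ℕ => Descent.kappa (K₀ := ℚ) (K := AlgebraicClosure ℚ) 1
        (jq ^ p.2 * v p.1))
      = fun p : ι × ℕ => coeffEmb (AlgebraicClosure ℚ) jq ^ p.2
          * coeffEmb (AlgebraicClosure ℚ) (v p.1) := by
    funext p
    rw [kappa_one_eq, map_mul, map_pow]
  rw [hfam, ← Descent.algebra_toModule_eq (AlgebraicClosure ℚ)] at h3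
  let w : ι → ↥(modularFunctionFieldBar N) := fun i =>
    ⟨coeffEmb (AlgebraicClosure ℚ) (v i),
      coeffEmb_mem_laurentBaseChange (AlgebraicClosure ℚ) (hmem i)⟩
  have h4 : LinearIndependent (AlgebraicClosure ℚ)
      (fun p : ι × ℕ => Embed.jbar N ^ p.2 * w p.1) := by
    let _ : Module (AlgebraicClosure ℚ) (LaurentSeries (AlgebraicClosure ℚ)) := Algebra.toModule
    exact LinearIndependent.of_comp ((modularFunctionFieldBar N).val.toLinearMap) h3
  have h5 := linearIndependent_adjoin_of_monomials (Embed.jbar N) w h4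
  have := finite_bar N
  exact h5.fintype_card_le_finrank.trans_eq (finrank_bar N)

/-- **Degree bound over `ℚ`**: `[F : ℚ(j)] ≤ ψ(N)` for `F = modularFunctionFieldFull N`. -/
theorem relrank_full_le :
    IntermediateField.relrank (IntermediateField.adjoin ℚ {jq}) (modularFunctionFieldFull N)
      ≤ (ModularCurve.dedekindPsi N : Cardinal) := by
  have hle : ℚ⟮jq⟯ ≤ modularFunctionFieldFull N :=
    (adjoin_jq_le N).trans (modularFunctionField_le_full N)
  rw [IntermediateField.relrank_eq_rank_of_le hle]
  refine rank_le fun s hs => ?_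
  have hv : LinearIndependent ↥(ℚ⟮jq⟯)
      (fun i : s => (((i : ↥(IntermediateField.extendScalars hle)) : LaurentSeries ℚ))) :=
    hs.map' (IntermediateField.extendScalars hle).val.toLinearMap
      (LinearMap.ker_eq_bot.mpr Subtype.val_injective)
  have h := card_le_of_linearIndependent N
    (fun i : s => (((i : ↥(IntermediateField.extendScalars hle)) : LaurentSeries ℚ)))
    (fun i => (i : ↥(IntermediateField.extendScalars hle)).2) hv
  simpa using h

end Fermat.Agent.S28L.DegBar
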