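/-
S28 (fibres of the Igusa scheme over F_l are integral) -- shared definitions.
FROZEN interface file: the four definitions below are final.
-/
import Mathlib
import Fermat.Prelude.Def_ModularCurve_X0ModL

set_option autoImplicit false
noncomputable section

namespace Fermat.Agent.S28L

open HahnSeries ModularCurve

variable {R : Type*} [CommRing R]

/-- The twist `f(q) ↦ f(u q)` of a Laurent series by a unit `u` (coefficient of `q^n` is multiplied
by `u^n`, `n : ℤ`). -/
def tw (u : Rˣ) (f : LaurentSeries R) : LaurentSeries R where
  coeff n := ((u ^ n : Rˣ) : R) * f.coeff n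
  isPWO_support' := f.isPWO_support.mono (fun n hn => by
    simp only [Function.mem_support, ne_eq] at hn ⊢
    intro h
    exact hn (by rw [h, mul_zero]))

@[simp] theorem tw_coeff (u : Rˣ) (f : LaurentSeries R) (n : ℤ) :
    (tw u f).coeff n = ((u ^ n : Rˣ) : R) * f.coeff n := rfl

/-- `θ = q d/dq` on Laurent series (coefficient of `q^n` is multiplied by `n`). -/
def theta (f : LaurentSeries R) : LaurentSeries R where
  coeff n := (n : R) * f.coeff n
  isPWO_support' := f.isPWO_support.mono (fun n hn => by
    simp only [Function.mem_support, ne_eq] at hn ⊢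
    intro h
    exact hn (by rw [h, mul_zero]))

@[simp] theorem theta_coeff (f : LaurentSeries R) (n : ℤ) :
    (theta f).coeff n = (n : R) * f.coeff n := rfl

variable (R) in
/-- The discriminant series `Δ = q ∏ (1 - q^n)^24` over an arbitrary commutative ring. -/
def DeltaR : LaurentSeries R :=
  HahnSeries.single (1 : ℤ) (1 : R) *
    HahnSeries.ofPowerSeries ℤ R (dedekindEtaUnit.map (Int.castRingHom R))

/-- For `Φ ∈ ℤ[Y][X]` and `y` in a commutative ring `A`: the polynomial `Φ(X, y) ∈ A[X]`. -/
def ev2 {A : Type*} [CommRing A] (Φ : Polynomial (Polynomial ℤ)) (y : A) : Polynomial A :=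
  Φ.map (Polynomial.eval₂RingHom (Int.castRingHom A) y)

end Fermat.Agent.S28L
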