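/-
S28, package P1 (helper5): closure properties of the set of `q`-expansions of level-one
modular forms, the Eisenstein series `E₄` and the discriminant.
-/
import Mathlib
import Fermat.Agent.S28L.Defs
import Fermat.Agent.X0S24.EtaBridge

set_option autoImplicit false
noncomputable section

namespace Fermat.Agent.S28L

open UpperHalfPlane ModularForm MatrixGroups ModularCurve HahnSeries

/-- auxiliary form of `Mq`: `q`-expansions of level-one modular forms of weight `k` -/
def anMq (k : ℕ) : Set (PowerSeries ℂ) :=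
  {f | ∃ F : ModularForm 𝒮ℒ (k : ℤ), qExpansion 1 ⇑F = f}

theorem anMq_zero_mem (k : ℕ) : (0 : PowerSeries ℂ) ∈ anMq k :=
  ⟨0, by rw [FunLike.coe_zero]; exact qExpansion_zero 1⟩

theorem anMq_add {k : ℕ} {f g : PowerSeries ℂ} (hf : f ∈ anMq k) (hg : g ∈ anMq k) :
    f + g ∈ anMq k := by
  obtain ⟨F, rfl⟩ := hf
  obtain ⟨G, rfl⟩ := hg
  exact ⟨F + G, ModularForm.qExpansion_add one_pos one_mem_strictPeriods_SL F G⟩

theorem anMq_smul {k : ℕ} (c : ℂ) {f : PowerSeries ℂ} (hf : f ∈ anMq k) : c • f ∈ anMq k := by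
  obtain ⟨F, rfl⟩ := hf
  exact ⟨c • F, ModularForm.qExpansion_smul one_pos one_mem_strictPeriods_SL c F⟩

theorem anMq_one : (1 : PowerSeries ℂ) ∈ anMq 0 :=
  ⟨(1 : ModularForm 𝒮ℒ 0), ModularForm.qExpansion_one⟩

theorem anMq_mul {a b : ℕ} {f g : PowerSeries ℂ} (hf : f ∈ anMq a) (hg : g ∈ anMq b) :
    f * g ∈ anMq (a + b) := by
  obtain ⟨F, rfl⟩ := hf
  obtain ⟨G, rfl⟩ := hg
  refine ⟨ModularForm.mcast (by push_cast; rfl) (F.mul G), ?_⟩
  rw [ModularForm.qExpansion_mcast]
  exact ModularForm.qExpansion_mul one_pos one_mem_strictPeriods_SL F G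

theorem anMq_E4 : eisenstein4.map (Int.castRingHom ℂ) ∈ anMq 4 :=
  ⟨ModularForm.mcast (by norm_num) ModularForm.E₄, by
    rw [ModularForm.qExpansion_mcast]
    exact Fermat.Agent.X0S24.EtaBridge.qExpansion_E4⟩

theorem anMq_Delta : PowerSeries.X * dedekindEtaUnit.map (Int.castRingHom ℂ) ∈ anMq 12 :=
  ⟨ModularForm.mcast (by norm_num) (CuspForm.toModularFormₗ CuspForm.discriminant), by
    rw [ModularForm.qExpansion_mcast]
    exact Fermat.Agent.X0S24.EtaBridge.qExpansion_discriminant⟩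

end Fermat.Agent.S28L
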