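/-
S28, package P1 (helper5): the Hecke operator `T_p` on `q`-expansions of level-one forms.
-/
import Mathlib
import Fermat.Agent.S28L.AnBasic
import Fermat.Prelude.Def_ModularForm_HeckeOperatorForms
import Fermat.Prelude.Thm_ModularFormClass_qCoeff_heckeT

set_option autoImplicit false
noncomputable section

namespace Fermat.Agent.S28L

open UpperHalfPlane ModularForm MatrixGroups ModularCurve HahnSeries

/-- auxiliary form of `heckeSer`: `a(n) ↦ a(np) + [p ∣ n] p^(k-1) a(n/p)` -/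
def anHeckeSer (p k : ℕ) (f : PowerSeries ℂ) : PowerSeries ℂ :=
  PowerSeries.mk fun n =>
    PowerSeries.coeff (n * p) f + if p ∣ n then (p : ℂ) ^ (k - 1) * PowerSeries.coeff (n / p) f else 0

theorem anHecke_mem_Gamma0_one (γ : Matrix.GeneralLinearGroup (Fin 2) ℝ) (hγ : γ ∈ 𝒮ℒ) :
    γ ∈ (CongruenceSubgroup.Gamma0 1 : Subgroup (Matrix.GeneralLinearGroup (Fin 2) ℝ)) := by
  obtain ⟨δ, rfl⟩ := hγ
  refine Subgroup.mem_map_of_mem _ ?_
  rw [CongruenceSubgroup.Gamma0_mem]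
  exact Subsingleton.elim _ _

theorem anHecke_Gamma0_one_le (γ : Matrix.GeneralLinearGroup (Fin 2) ℝ)
    (hγ : γ ∈ (CongruenceSubgroup.Gamma0 1 : Subgroup (Matrix.GeneralLinearGroup (Fin 2) ℝ))) :
    γ ∈ 𝒮ℒ := by
  obtain ⟨δ, -, rfl⟩ := hγ
  exact ⟨δ, rfl⟩

/-- the Hecke operator on level-one forms -/
def anHeckeForm (p : ℕ) (hp : p.Prime) (k : ℤ) (F : ModularForm 𝒮ℒ k) : ModularForm 𝒮ℒ k where
  toFun := ModularForm.heckeT k p ⇑F
  slash_action_eq' := fun γ hγ =>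
    ModularForm.heckeT_slash_eq_self_of_mem_Gamma0 (N := 1) k hp
      (fun h => hp.one_lt.ne' (Nat.dvd_one.mp h))
      (fun γ' hγ' => SlashInvariantFormClass.slash_action_eq F γ' (anHecke_Gamma0_one_le γ' hγ'))
      γ (anHecke_mem_Gamma0_one γ hγ)
  holo' := ModularForm.mdifferentiable_heckeT (ModularFormClass.holo F) k p
  bdd_at_cusps' := fun hc => ModularFormClass.isBoundedAt_heckeT F p hc

theorem anHeckeForm_coe (p : ℕ) (hp : p.Prime) (k : ℤ) (F : ModularForm 𝒮ℒ k) :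
    ⇑(anHeckeForm p hp k F) = ModularForm.heckeT k p ⇑F := rfl

theorem anMq_hecke (p : ℕ) (hp : p.Prime) {k : ℕ} (hk : 1 ≤ k) {f : PowerSeries ℂ}
    (hf : f ∈ anMq k) : anHeckeSer p k f ∈ anMq k := by
  obtain ⟨F, rfl⟩ := hf
  refine ⟨anHeckeForm p hp k F, ?_⟩
  ext n
  have h := ModularFormClass.qCoeff_heckeT F one_mem_strictPeriods_SL hp.ne_zero n
  rw [anHeckeForm_coe]
  rw [ModularFormClass.qCoeff] at h
  rw [h, ModularForm.coeffHeckeT_apply, anHeckeSer, PowerSeries.coeff_mk]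
  have hpow : (p : ℂ) ^ ((k : ℤ) - 1) = (p : ℂ) ^ (k - 1) := by
    rw [← zpow_natCast, Nat.cast_sub hk, Nat.cast_one]
  rw [hpow]
  rfl

end Fermat.Agent.S28L
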