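/-
S28, package P1 (helper5): level-one forms of weight `12 m` are `Δ^m · P(j)`, as an identity of
Laurent series.
-/
import Mathlib
import Fermat.Agent.S28L.AnBasic
import Fermat.Agent.X0L1.Structure

set_option autoImplicit false
noncomputable section

namespace Fermat.Agent.S28L

open UpperHalfPlane ModularForm MatrixGroups ModularCurve HahnSeries

/-- functions on the upper half plane whose cusp function (for the period `1`) is analytic
at `0` -/
def anNice : Subalgebra ℂ (ℍ → ℂ) where
  carrier := {F | AnalyticAt ℂ (cuspFunction 1 F) 0}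
  mul_mem' := by
    intro F G hF hG
    show AnalyticAt ℂ (cuspFunction 1 (F * G)) 0
    rw [cuspFunction_mul hF.continuousAt hG.continuousAt]
    exact hF.mul hG
  add_mem' := by
    intro F G hF hG
    show AnalyticAt ℂ (cuspFunction 1 (F + G)) 0
    rw [cuspFunction_add hF.continuousAt hG.continuousAt]
    exact hF.add hG
  algebraMap_mem' := by
    intro c
    show AnalyticAt ℂ (cuspFunction 1 (fun _ : ℍ => c)) 0
    refine analyticAt_cuspFunction_zero one_pos (fun w => rfl) mdifferentiable_const ?_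
    exact Filter.const_boundedAtFilter atImInfty c

theorem mem_anNice {F : ℍ → ℂ} : F ∈ anNice ↔ AnalyticAt ℂ (cuspFunction 1 F) 0 := Iff.rfl

/-- the `q`-expansion as an algebra homomorphism on `anNice` -/
def anQExp : anNice →ₐ[ℂ] PowerSeries ℂ where
  toFun F := qExpansion 1 (F : ℍ → ℂ)
  map_one' := qExpansion_one 1
  map_mul' F G := qExpansion_mul F.2 G.2
  map_zero' := qExpansion_zero 1
  map_add' F G := qExpansion_add F.2 G.2
  commutes' c := by
    show qExpansion 1 (fun _ : ℍ => c) = algebraMap ℂ (PowerSeries ℂ) c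
    have h1 : AnalyticAt ℂ (cuspFunction 1 (1 : ℍ → ℂ)) 0 := (1 : anNice).2
    have h2 : (fun _ : ℍ => c) = c • (1 : ℍ → ℂ) := by
      funext z
      simp
    rw [h2, qExpansion_smul h1, qExpansion_one, Algebra.algebraMap_eq_smul_one]

theorem anQExp_apply (F : anNice) : anQExp F = qExpansion 1 (F : ℍ → ℂ) := rfl

theorem anNice_of_modularForm {k : ℤ} (F : ModularForm 𝒮ℒ k) : ⇑F ∈ anNice :=
  ModularFormClass.analyticAt_cuspFunction_zero F one_pos one_mem_strictPeriods_SL

theorem anNice_discriminant : ModularForm.discriminant ∈ anNice :=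
  ModularFormClass.analyticAt_cuspFunction_zero CuspForm.discriminant one_pos
    one_mem_strictPeriods_SL

/-- `Δ` as a Laurent series over `ℂ` is the `q`-expansion of the discriminant -/
theorem anDeltaR_eq :
    DeltaR ℂ = HahnSeries.ofPowerSeries ℤ ℂ (qExpansion 1 ModularForm.discriminant) := by
  rw [Fermat.Agent.X0S24.EtaBridge.qExpansion_discriminant, map_mul,
    HahnSeries.ofPowerSeries_X, DeltaR]

/-- `j · Δ = E₄³` for the complex Laurent series -/
theorem anJq_mul_DeltaR :
    jqModC ℂ * DeltaR ℂ = HahnSeries.ofPowerSeries ℤ ℂ (qExpansion 1 ⇑ModularForm.E₄) ^ 3 := by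
  rw [anDeltaR_eq, ← Fermat.Agent.X0S24.EtaBridge.jq_mul_discriminant, ← jqModC_rat,
    coeffMap_jqModC]

theorem anMq_structure (m : ℕ) {f : PowerSeries ℂ} (hf : f ∈ anMq (12 * m)) :
    ∃ P : Polynomial ℂ, P.natDegree ≤ m ∧
      HahnSeries.ofPowerSeries ℤ ℂ f = DeltaR ℂ ^ m * Polynomial.aeval (jqModC ℂ) P := by
  obtain ⟨F, rfl⟩ := hf
  obtain ⟨P, hPdeg, hP⟩ := Fermat.Agent.X0L1.exists_poly_of_levelOne m
    (ModularForm.mcast (by push_cast; rfl) F)
  refine ⟨P, hPdeg, ?_⟩
  -- the identity in the algebra of nice functions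
  set E4n : anNice := ⟨⇑ModularForm.E₄, anNice_of_modularForm _⟩ with hE4n
  set Dn : anNice := ⟨ModularForm.discriminant, anNice_discriminant⟩ with hDn
  set Fn : anNice := ⟨⇑F, anNice_of_modularForm F⟩ with hFn
  have hsum : Fn = ∑ i ∈ Finset.range (m + 1), P.coeff i • (E4n ^ (3 * i) * Dn ^ (m - i)) := by
    apply Subtype.ext
    funext z
    have hz := hP z
    rw [ModularForm.mcast_apply] at hz
    rw [AddSubmonoidClass.coe_finsetSum, Finset.sum_apply]
    show F z = _
    rw [hz, Polynomial.eval_eq_sum_range' (Nat.lt_succ_of_le hPdeg), Finset.mul_sum]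
    refine Finset.sum_congr rfl fun i hi => ?_
    have hi' : i ≤ m := Nat.lt_succ_iff.mp (Finset.mem_range.mp hi)
    have h3 := Fermat.Agent.X0L1.Structure.jFun_mul_disc z
    show _ = P.coeff i * (ModularForm.E₄ z ^ (3 * i) * ModularForm.discriminant z ^ (m - i))
    rw [pow_mul, ← h3, mul_pow]
    have h4 : ModularForm.discriminant z ^ m
        = ModularForm.discriminant z ^ i * ModularForm.discriminant z ^ (m - i) := by
      rw [← _root_.pow_add, Nat.add_sub_cancel' hi']
    rw [h4]
    ring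
  have hq := congrArg anQExp hsum
  rw [map_sum] at hq
  have hq' : qExpansion 1 ⇑F = ∑ i ∈ Finset.range (m + 1),
      P.coeff i • (qExpansion 1 ⇑ModularForm.E₄ ^ (3 * i)
        * qExpansion 1 ModularForm.discriminant ^ (m - i)) := by
    rw [show qExpansion 1 ⇑F = anQExp Fn from rfl, hq]
    refine Finset.sum_congr rfl fun i _ => ?_
    rw [map_smul, map_mul, map_pow, map_pow]
    rfl
  rw [hq', map_sum, Polynomial.aeval_eq_sum_range' (Nat.lt_succ_of_le hPdeg), Finset.mul_sum]
  refine Finset.sum_congr rfl fun i hi => ?_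
  have hi' : i ≤ m := Nat.lt_succ_iff.mp (Finset.mem_range.mp hi)
  have hJ := anJq_mul_DeltaR
  have hD := anDeltaR_eq
  rw [PowerSeries.smul_eq_C_mul, map_mul, map_mul, map_pow, map_pow, pow_mul, ← hJ, ← hD,
    HahnSeries.ofPowerSeries_C, mul_pow]
  have h4 : DeltaR ℂ ^ m = DeltaR ℂ ^ i * DeltaR ℂ ^ (m - i) := by
    rw [← _root_.pow_add, Nat.add_sub_cancel' hi']
  rw [h4, Algebra.smul_def]
  have hC : (HahnSeries.C (P.coeff i) : LaurentSeries ℂ)
      = algebraMap ℂ (LaurentSeries ℂ) (P.coeff i) := by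
    rw [HahnSeries.algebraMap_apply']
    have h1 : algebraMap ℂ (PowerSeries ℂ) (P.coeff i) = PowerSeries.C (P.coeff i) := rfl
    rw [h1, HahnSeries.ofPowerSeries_C]
  rw [hC]
  ring

end Fermat.Agent.S28L
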