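/-
S28, package P1 (owner: helper5): analytic inputs at level one, over `ℂ`.
INTERFACE FILE: the statements below are frozen (consumed by package P2).
-/
import Mathlib
import Fermat.Agent.S28L.Defs
import Fermat.Agent.S28L.AnBasic
import Fermat.Agent.S28L.AnHecke
import Fermat.Agent.S28L.AnStructure
import Fermat.Agent.S28L.AnTheta

set_option autoImplicit false
noncomputable section

namespace Fermat.Agent.S28L

open UpperHalfPlane ModularForm MatrixGroups ModularCurve HahnSeries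

/-- `q`-expansions (formal power series over `ℂ`) of level-one modular forms of weight `k`. -/
def Mq (k : ℕ) : Set (PowerSeries ℂ) :=
  {f | ∃ F : ModularForm 𝒮ℒ (k : ℤ), qExpansion 1 ⇑F = f}

theorem Mq_zero_mem (k : ℕ) : (0 : PowerSeries ℂ) ∈ Mq k :=
  anMq_zero_mem k

theorem Mq_add {k : ℕ} {f g : PowerSeries ℂ} (hf : f ∈ Mq k) (hg : g ∈ Mq k) : f + g ∈ Mq k :=
  anMq_add (k := k) hf hg

theorem Mq_smul {k : ℕ} (c : ℂ) {f : PowerSeries ℂ} (hf : f ∈ Mq k) : c • f ∈ Mq k :=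
  anMq_smul (k := k) c hf

theorem Mq_one : (1 : PowerSeries ℂ) ∈ Mq 0 :=
  anMq_one

theorem Mq_mul {a b : ℕ} {f g : PowerSeries ℂ} (hf : f ∈ Mq a) (hg : g ∈ Mq b) :
    f * g ∈ Mq (a + b) :=
  anMq_mul (a := a) (b := b) hf hg

/-- the Eisenstein series `E₄ = 1 + 240 Σ σ₃(n) qⁿ` -/
theorem Mq_E4 : eisenstein4.map (Int.castRingHom ℂ) ∈ Mq 4 :=
  anMq_E4

/-- the discriminant `Δ = q ∏ (1 - qⁿ)²⁴` -/
theorem Mq_Delta : PowerSeries.X * dedekindEtaUnit.map (Int.castRingHom ℂ) ∈ Mq 12 :=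
  anMq_Delta

/-- The Hecke operator `T_p` in weight `k` on `q`-expansions:
`a(n) ↦ a(np) + [p ∣ n] p^(k-1) a(n/p)`. -/
def heckeSer (p k : ℕ) (f : PowerSeries ℂ) : PowerSeries ℂ :=
  PowerSeries.mk fun n =>
    PowerSeries.coeff (n * p) f + if p ∣ n then (p : ℂ) ^ (k - 1) * PowerSeries.coeff (n / p) f else 0

theorem Mq_hecke (p : ℕ) (hp : p.Prime) {k : ℕ} (hk : 1 ≤ k) {f : PowerSeries ℂ}
    (hf : f ∈ Mq k) : heckeSer p k f ∈ Mq k :=
  anMq_hecke p hp hk (k := k) hf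

/-- level-one forms of weight `12 m` are `Δ^m · P(j)` with `deg P ≤ m` -/
theorem Mq_structure (m : ℕ) {f : PowerSeries ℂ} (hf : f ∈ Mq (12 * m)) :
    ∃ P : Polynomial ℂ, P.natDegree ≤ m ∧
      HahnSeries.ofPowerSeries ℤ ℂ f = DeltaR ℂ ^ m * Polynomial.aeval (jqModC ℂ) P :=
  anMq_structure m hf

/-- `(θ j)⁶ = j⁴ (j - 1728)³ Δ` for the complex `q`-series (`θ = q d/dq`) -/
theorem theta_jq_complex :
    theta (jqModC ℂ) ^ 6 = jqModC ℂ ^ 4 * (jqModC ℂ - 1728) ^ 3 * DeltaR ℂ :=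
  anTheta_main

end Fermat.Agent.S28L
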