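/-
S28, package P2 (helper7): utility lemmas for the definitions of `Defs.lean`
(`tw`, `theta`, `DeltaR`, `ev2`).
-/
import Mathlib
import Fermat.Agent.S28L.Defs

set_option autoImplicit false
noncomputable section

namespace Fermat.Agent.S28L

open HahnSeries ModularCurve

variable {R : Type*} [CommRing R]

/-! ### Coefficients of products -/

theorem coeff_mul_of_subsets {x y : LaurentSeries R} {s t : Set ℤ} (hs : s.IsPWO) (ht : t.IsPWO)
    (hxs : x.support ⊆ s) (hyt : y.support ⊆ t) (a : ℤ) :
    (x * y).coeff a = ∑ ij ∈ Finset.antidiagonal hs ht a, x.coeff ij.1 * y.coeff ij.2 := by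
  rw [coeff_mul_left' hs hxs]
  refine Finset.sum_subset (fun ij hij => ?_) (fun ij hij hn => ?_)
  · rw [Finset.mem_antidiagonal] at hij ⊢
    exact ⟨hij.1, hyt hij.2.1, hij.2.2⟩
  · rw [Finset.mem_antidiagonal] at hij hn
    have : y.coeff ij.2 = 0 := by
      by_contra h
      exact hn ⟨hij.1, h, hij.2.2⟩
    rw [this, mul_zero]

/-- The structure map `R → R((q))` (via power series) is the constant-series map. -/
theorem algebraMap_eq_C (r : R) : algebraMap R (LaurentSeries R) r = HahnSeries.C r := by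
  have h1 : algebraMap R (PowerSeries R) r = PowerSeries.C r := by
    simp
  rw [HahnSeries.algebraMap_apply', h1, HahnSeries.ofPowerSeries_C]

/-- Coefficients of the `R`-algebra scalar multiplication on `R((q))`. -/
theorem algebra_smul_coeff (r : R) (f : LaurentSeries R) (n : ℤ) :
    (@HSMul.hSMul R (LaurentSeries R) (LaurentSeries R)
      (@instHSMul R (LaurentSeries R) Algebra.toSMul) r f).coeff n = r * f.coeff n := by
  rw [Algebra.smul_def, algebraMap_eq_C, HahnSeries.C_mul_eq_smul, HahnSeries.coeff_smul,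
    smul_eq_mul]

/-! ### The twist `tw` -/

theorem tw_support (u : Rˣ) (f : LaurentSeries R) : (tw u f).support = f.support := by
  ext n
  simp only [mem_support, tw_coeff, ne_eq]
  exact not_congr (Units.mul_right_eq_zero _)

@[simp] theorem tw_zero (u : Rˣ) : tw u (0 : LaurentSeries R) = 0 := by
  ext n; simp

theorem tw_add (u : Rˣ) (f g : LaurentSeries R) : tw u (f + g) = tw u f + tw u g := by
  ext n; simp [mul_add]

theorem tw_mul (u : Rˣ) (f g : LaurentSeries R) : tw u (f * g) = tw u f * tw u g := by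
  ext n
  rw [tw_coeff, coeff_mul, coeff_mul_of_subsets f.isPWO_support g.isPWO_support
    (tw_support u f).le (tw_support u g).le, Finset.mul_sum]
  refine Finset.sum_congr rfl fun ij hij => ?_
  have h : ij.1 + ij.2 = n := (Finset.mem_antidiagonal.mp hij).2.2
  rw [tw_coeff, tw_coeff, ← h, zpow_add, Units.val_mul]
  ring

theorem tw_single (u : Rˣ) (k : ℤ) (r : R) :
    tw u (single k r) = single k (((u ^ k : Rˣ) : R) * r) := by
  ext n
  rw [tw_coeff]
  rcases eq_or_ne n k with rfl | h
  · simp
  · simp [coeff_single_of_ne h]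

@[simp] theorem tw_one (u : Rˣ) : tw u (1 : LaurentSeries R) = 1 := by
  change tw u (single 0 1) = single 0 1
  rw [tw_single]; simp

/-- The twist as a ring homomorphism. -/
def twHom (u : Rˣ) : LaurentSeries R →+* LaurentSeries R where
  toFun := tw u
  map_one' := tw_one u
  map_mul' := tw_mul u
  map_zero' := tw_zero u
  map_add' := tw_add u

@[simp] theorem twHom_apply (u : Rˣ) (f : LaurentSeries R) : twHom u f = tw u f := rfl

theorem tw_neg (u : Rˣ) (f : LaurentSeries R) : tw u (-f) = -tw u f := map_neg (twHom u) f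

theorem tw_sub (u : Rˣ) (f g : LaurentSeries R) : tw u (f - g) = tw u f - tw u g :=
  map_sub (twHom u) f g

theorem tw_pow (u : Rˣ) (f : LaurentSeries R) (n : ℕ) : tw u (f ^ n) = tw u f ^ n :=
  map_pow (twHom u) f n

theorem tw_sum {ι : Type*} (u : Rˣ) (s : Finset ι) (f : ι → LaurentSeries R) :
    tw u (∑ i ∈ s, f i) = ∑ i ∈ s, tw u (f i) := map_sum (twHom u) f s

theorem tw_prod {ι : Type*} (u : Rˣ) (s : Finset ι) (f : ι → LaurentSeries R) :
    tw u (∏ i ∈ s, f i) = ∏ i ∈ s, tw u (f i) := map_prod (twHom u) f s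

theorem tw_tw (u v : Rˣ) (f : LaurentSeries R) : tw u (tw v f) = tw (u * v) f := by
  ext n
  simp only [tw_coeff, mul_zpow, Units.val_mul, mul_assoc]

@[simp] theorem tw_one_unit (f : LaurentSeries R) : tw (1 : Rˣ) f = f := by
  ext n; simp

theorem tw_inv_tw (u : Rˣ) (f : LaurentSeries R) : tw u⁻¹ (tw u f) = f := by
  rw [tw_tw, inv_mul_cancel, tw_one_unit]

theorem tw_tw_inv (u : Rˣ) (f : LaurentSeries R) : tw u (tw u⁻¹ f) = f := by
  rw [tw_tw, mul_inv_cancel, tw_one_unit]

theorem tw_injective (u : Rˣ) : Function.Injective (tw u : LaurentSeries R → LaurentSeries R) :=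
  Function.LeftInverse.injective (tw_inv_tw u)

theorem tw_surjective (u : Rˣ) : Function.Surjective (tw u : LaurentSeries R → LaurentSeries R) :=
  Function.RightInverse.surjective (tw_tw_inv u)

/-- The twist as a ring automorphism. -/
def twEquiv (u : Rˣ) : LaurentSeries R ≃+* LaurentSeries R :=
  { twHom u with
    invFun := tw u⁻¹
    left_inv := tw_inv_tw u
    right_inv := tw_tw_inv u }

@[simp] theorem twEquiv_apply (u : Rˣ) (f : LaurentSeries R) : twEquiv u f = tw u f := rfl

@[simp] theorem twEquiv_symm_apply (u : Rˣ) (f : LaurentSeries R) :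
    (twEquiv u).symm f = tw u⁻¹ f := rfl

@[simp] theorem tw_C (u : Rˣ) (r : R) : tw u (HahnSeries.C r) = HahnSeries.C r := by
  rw [HahnSeries.C_apply, tw_single]; simp

@[simp] theorem tw_natCast (u : Rˣ) (n : ℕ) : tw u (n : LaurentSeries R) = n :=
  map_natCast (twHom u) n

@[simp] theorem tw_intCast (u : Rˣ) (n : ℤ) : tw u (n : LaurentSeries R) = n :=
  map_intCast (twHom u) n

@[simp] theorem tw_ofNat (u : Rˣ) (n : ℕ) [n.AtLeastTwo] :
    tw u (OfNat.ofNat n : LaurentSeries R) = OfNat.ofNat n :=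
  map_ofNat (twHom u) n

theorem tw_smul (u : Rˣ) (r : R) (f : LaurentSeries R) : tw u (r • f) = r • tw u f := by
  ext n
  simp only [tw_coeff, HahnSeries.coeff_smul, smul_eq_mul]
  ring

/-- The twist as an `R`-algebra homomorphism. -/
def twAlgHom (u : Rˣ) : LaurentSeries R →ₐ[R] LaurentSeries R :=
  { twHom u with
    commutes' := fun r => by
      show tw u (algebraMap R (LaurentSeries R) r) = algebraMap R (LaurentSeries R) r
      rw [algebraMap_eq_C, tw_C] }

@[simp] theorem twAlgHom_apply (u : Rˣ) (f : LaurentSeries R) : twAlgHom u f = tw u f := rfl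

theorem tw_algebraMap (u : Rˣ) (r : R) :
    tw u (algebraMap R (LaurentSeries R) r) = algebraMap R (LaurentSeries R) r :=
  (twAlgHom u).commutes r

theorem tw_qExpand (u : Rˣ) (N : ℕ) [NeZero N] (f : LaurentSeries R) :
    tw u (qExpand R N f) = qExpand R N (tw (u ^ N) f) := by
  ext k
  by_cases hk : (N : ℤ) ∣ k
  · obtain ⟨m, rfl⟩ := hk
    rw [tw_coeff, qExpand_coeff_mul, qExpand_coeff_mul, tw_coeff, zpow_mul, zpow_natCast]
  · rw [tw_coeff, qExpand_coeff_of_not_dvd N _ hk, qExpand_coeff_of_not_dvd N _ hk, mul_zero]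

/-- If `u ^ N = 1` the twist by `u` fixes the image of `V_N = qExpand R N` pointwise. -/
theorem tw_qExpand_of_pow_eq_one (u : Rˣ) (N : ℕ) [NeZero N] (hu : u ^ N = 1)
    (f : LaurentSeries R) : tw u (qExpand R N f) = qExpand R N f := by
  rw [tw_qExpand, hu, tw_one_unit]

theorem coeffMap_tw {S : Type*} [CommRing S] (φ : R →+* S) (u : Rˣ) (f : LaurentSeries R) :
    coeffMap φ (tw u f) = tw (Units.map (φ : R →* S) u) (coeffMap φ f) := by
  ext n
  simp only [coeffMap_coeff, tw_coeff, map_mul]
  congr 1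
  rw [← map_zpow]; rfl

theorem tw_ofPowerSeries (u : Rˣ) (f : PowerSeries R) :
    tw u (HahnSeries.ofPowerSeries ℤ R f) =
      HahnSeries.ofPowerSeries ℤ R (PowerSeries.rescale (u : R) f) := by
  ext k
  rw [tw_coeff]
  rcases le_or_gt 0 k with hk | hk
  · lift k to ℕ using hk
    rw [HahnSeries.ofPowerSeries_apply_coeff, HahnSeries.ofPowerSeries_apply_coeff,
      PowerSeries.coeff_rescale, zpow_natCast, Units.val_pow_eq_pow_val]
  · rw [ofPowerSeries_coeff_of_neg _ hk, ofPowerSeries_coeff_of_neg _ hk, mul_zero]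

/-! ### The derivation `theta = q d/dq` -/

theorem theta_support_subset (f : LaurentSeries R) : (theta f).support ⊆ f.support := by
  intro n hn
  simp only [mem_support, theta_coeff, ne_eq] at hn ⊢
  exact fun h => hn (by rw [h, mul_zero])

@[simp] theorem theta_zero : theta (0 : LaurentSeries R) = 0 := by
  ext n; simp

theorem theta_add (f g : LaurentSeries R) : theta (f + g) = theta f + theta g := by
  ext n; simp [mul_add]

theorem theta_neg (f : LaurentSeries R) : theta (-f) = -theta f := by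
  ext n; simp

theorem theta_sub (f g : LaurentSeries R) : theta (f - g) = theta f - theta g := by
  ext n; simp [mul_sub]

theorem theta_smul (r : R) (f : LaurentSeries R) : theta (r • f) = r • theta f := by
  ext n
  simp only [theta_coeff, HahnSeries.coeff_smul, smul_eq_mul]
  ring

theorem theta_mul (f g : LaurentSeries R) : theta (f * g) = theta f * g + f * theta g := by
  ext n
  rw [theta_coeff, coeff_add, coeff_mul, coeff_mul_of_subsets f.isPWO_support g.isPWO_support
    (theta_support_subset f) subset_rfl, coeff_mul_of_subsets f.isPWO_support g.isPWO_support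
    subset_rfl (theta_support_subset g), Finset.mul_sum, ← Finset.sum_add_distrib]
  refine Finset.sum_congr rfl fun ij hij => ?_
  have h : ij.1 + ij.2 = n := (Finset.mem_antidiagonal.mp hij).2.2
  rw [theta_coeff, theta_coeff, ← h]
  push_cast
  ring

theorem theta_single (k : ℤ) (r : R) : theta (single k r) = single k ((k : R) * r) := by
  ext n
  rw [theta_coeff]
  rcases eq_or_ne n k with rfl | h
  · simp
  · simp [coeff_single_of_ne h]

@[simp] theorem theta_one : theta (1 : LaurentSeries R) = 0 := by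
  change theta (single 0 1) = 0
  rw [theta_single]; simp

@[simp] theorem theta_C (r : R) : theta (HahnSeries.C r) = 0 := by
  rw [HahnSeries.C_apply, theta_single]; simp

/-- `theta` as an `R`-linear derivation of `R((q))`. -/
def thetaDer : Derivation R (LaurentSeries R) (LaurentSeries R) where
  toFun := theta
  map_add' := theta_add
  map_smul' r f := by
    ext n
    simp only [theta_coeff, HahnSeries.coeff_smul, smul_eq_mul, RingHom.id_apply,
      algebra_smul_coeff]
    ring
  map_one_eq_zero' := theta_one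
  leibniz' f g := by
    show theta (f * g) = f • theta g + g • theta f
    rw [theta_mul, smul_eq_mul, smul_eq_mul]; ring

@[simp] theorem thetaDer_apply (f : LaurentSeries R) : thetaDer f = theta f := rfl

theorem theta_sum {ι : Type*} (s : Finset ι) (f : ι → LaurentSeries R) :
    theta (∑ i ∈ s, f i) = ∑ i ∈ s, theta (f i) := map_sum (thetaDer (R := R)) f s

@[simp] theorem theta_natCast (n : ℕ) : theta (n : LaurentSeries R) = 0 :=
  (thetaDer (R := R)).map_natCast n

@[simp] theorem theta_intCast (n : ℤ) : theta (n : LaurentSeries R) = 0 := by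
  have h : (n : LaurentSeries R) = HahnSeries.C (n : R) := by simp
  rw [h, theta_C]

@[simp] theorem theta_ofNat (n : ℕ) [n.AtLeastTwo] :
    theta (OfNat.ofNat n : LaurentSeries R) = 0 := theta_natCast n

theorem theta_algebraMap (r : R) : theta (algebraMap R (LaurentSeries R) r) = 0 := by
  rw [algebraMap_eq_C, theta_C]

theorem theta_pow (f : LaurentSeries R) (n : ℕ) :
    theta (f ^ n) = (n : LaurentSeries R) * f ^ (n - 1) * theta f := by
  have h := (thetaDer (R := R)).leibniz_pow f n
  simp only [thetaDer_apply, nsmul_eq_mul, smul_eq_mul] at h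
  rw [h]; ring

/-- chain rule: `theta (P(f)) = P'(f) * theta f` -/
theorem theta_aeval (P : Polynomial R) (f : LaurentSeries R) :
    theta (Polynomial.aeval f P) = Polynomial.aeval f (Polynomial.derivative P) * theta f := by
  have h := (thetaDer (R := R)).map_aeval P f
  rw [thetaDer_apply, thetaDer_apply, smul_eq_mul] at h
  exact h

theorem theta_qExpand (N : ℕ) [NeZero N] (f : LaurentSeries R) :
    theta (qExpand R N f) = (N : LaurentSeries R) * qExpand R N (theta f) := by
  have hN : ((N : ℕ) : LaurentSeries R) = HahnSeries.C (N : R) := by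
    simp
  ext k
  rw [hN, HahnSeries.C_mul_eq_smul, HahnSeries.coeff_smul, smul_eq_mul]
  by_cases hk : (N : ℤ) ∣ k
  · obtain ⟨m, rfl⟩ := hk
    rw [theta_coeff, qExpand_coeff_mul, qExpand_coeff_mul, theta_coeff]
    push_cast
    ring
  · rw [theta_coeff, qExpand_coeff_of_not_dvd N _ hk, qExpand_coeff_of_not_dvd N _ hk, mul_zero,
      mul_zero]

theorem coeffMap_theta {S : Type*} [CommRing S] (φ : R →+* S) (f : LaurentSeries R) :
    coeffMap φ (theta f) = theta (coeffMap φ f) := by
  ext n
  simp only [coeffMap_coeff, theta_coeff, map_mul, map_intCast]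

theorem theta_tw (u : Rˣ) (f : LaurentSeries R) : theta (tw u f) = tw u (theta f) := by
  ext n
  simp only [theta_coeff, tw_coeff]
  ring

/-! ### `coeffMap` -/

theorem coeffMap_injective {S : Type*} [CommRing S] {φ : R →+* S} (hφ : Function.Injective φ) :
    Function.Injective (coeffMap φ) := by
  intro f g h
  ext n
  apply hφ
  rw [← coeffMap_coeff, ← coeffMap_coeff, h]

theorem coeffMap_C {S : Type*} [CommRing S] (φ : R →+* S) (r : R) :
    coeffMap φ (HahnSeries.C r) = HahnSeries.C (φ r) := by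
  rw [HahnSeries.C_apply, coeffMap_single, HahnSeries.C_apply]

/-! ### `ev2` -/

section Ev2

open Polynomial

variable {A B : Type*} [CommRing A] [CommRing B]

theorem ev2_map (Φ : Polynomial (Polynomial ℤ)) (φ : A →+* B) (y : A) :
    (ev2 Φ y).map φ = ev2 Φ (φ y) := by
  rw [ev2, ev2, Polynomial.map_map]
  congr 1
  refine Polynomial.ringHom_ext (fun a => ?_) ?_
  · simp
  · simp

theorem ev2_coeff (Φ : Polynomial (Polynomial ℤ)) (y : A) (n : ℕ) :
    (ev2 Φ y).coeff n = (Φ.coeff n).eval₂ (Int.castRingHom A) y := by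
  rw [ev2, Polynomial.coeff_map]; rfl

theorem ev2_monic {Φ : Polynomial (Polynomial ℤ)} (h : Φ.Monic) (y : A) : (ev2 Φ y).Monic :=
  h.map _

theorem ev2_natDegree_le (Φ : Polynomial (Polynomial ℤ)) (y : A) :
    (ev2 Φ y).natDegree ≤ Φ.natDegree :=
  Polynomial.natDegree_map_le

theorem ev2_natDegree [Nontrivial A] {Φ : Polynomial (Polynomial ℤ)} (h : Φ.Monic) (y : A) :
    (ev2 Φ y).natDegree = Φ.natDegree :=
  h.natDegree_map _

theorem ev2_leadingCoeff_of_C [Nontrivial A] {Φ : Polynomial (Polynomial ℤ)} {c : ℤ}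
    (h : Φ.leadingCoeff = Polynomial.C c) (hc : (c : A) ≠ 0) (y : A) :
    (ev2 Φ y).leadingCoeff = (c : A) ∧ (ev2 Φ y).natDegree = Φ.natDegree := by
  have h1 : Polynomial.eval₂RingHom (Int.castRingHom A) y Φ.leadingCoeff = (c : A) := by
    rw [h]; simp
  have h2 : Polynomial.eval₂RingHom (Int.castRingHom A) y Φ.leadingCoeff ≠ 0 := by
    rw [h1]; exact hc
  refine ⟨?_, Polynomial.natDegree_map_of_leadingCoeff_ne_zero _ h2⟩
  rw [ev2, Polynomial.leadingCoeff_map_of_leadingCoeff_ne_zero _ h2, h1]

/-- `Φ(x, y)` as a double evaluation. -/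
theorem eval_ev2 (Φ : Polynomial (Polynomial ℤ)) (x y : A) :
    (ev2 Φ y).eval x = Φ.eval₂ (Polynomial.eval₂RingHom (Int.castRingHom A) y) x := by
  rw [ev2, Polynomial.eval_map]

theorem ev2_add (Φ Ψ : Polynomial (Polynomial ℤ)) (y : A) : ev2 (Φ + Ψ) y = ev2 Φ y + ev2 Ψ y :=
  Polynomial.map_add _

theorem ev2_mul (Φ Ψ : Polynomial (Polynomial ℤ)) (y : A) : ev2 (Φ * Ψ) y = ev2 Φ y * ev2 Ψ y :=
  Polynomial.map_mul _

@[simp] theorem ev2_X (y : A) : ev2 (Polynomial.X : Polynomial (Polynomial ℤ)) y = Polynomial.X :=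
  Polynomial.map_X _

theorem ev2_C (P : Polynomial ℤ) (y : A) :
    ev2 (Polynomial.C P) y = Polynomial.C (P.eval₂ (Int.castRingHom A) y) :=
  Polynomial.map_C _

end Ev2

/-! ### The discriminant series `DeltaR` and `jqModC` -/

section Delta

variable (R)

theorem coeffMap_DeltaR {S : Type*} [CommRing S] (φ : R →+* S) :
    coeffMap φ (DeltaR R) = DeltaR S := by
  rw [DeltaR, map_mul, coeffMap_single, map_one, coeffMap_ofPowerSeries,
    ← RingHom.comp_apply (PowerSeries.map φ) (PowerSeries.map (Int.castRingHom R)),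
    ← PowerSeries.map_comp, RingHom.ext_int (φ.comp (Int.castRingHom R)) (Int.castRingHom S)]
  rfl

theorem DeltaR_coeff (n : ℤ) :
    (DeltaR R).coeff n =
      (HahnSeries.ofPowerSeries ℤ R (dedekindEtaUnit.map (Int.castRingHom R))).coeff (n - 1) := by
  rw [DeltaR, HahnSeries.coeff_single_mul, one_mul]

theorem DeltaR_coeff_one : (DeltaR R).coeff 1 = 1 := by
  rw [DeltaR_coeff, sub_self, show (0 : ℤ) = ((0 : ℕ) : ℤ) from rfl,
    HahnSeries.ofPowerSeries_apply_coeff, PowerSeries.coeff_map,
    PowerSeries.coeff_zero_eq_constantCoeff, constantCoeff_dedekindEtaUnit]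
  simp

theorem DeltaR_coeff_of_lt {n : ℤ} (hn : n < 1) : (DeltaR R).coeff n = 0 := by
  rw [DeltaR_coeff]
  exact ofPowerSeries_coeff_of_neg _ (by omega)

theorem DeltaR_ne_zero [Nontrivial R] : DeltaR R ≠ 0 := fun h => by
  simpa [h] using DeltaR_coeff_one R

/-- `Δ⁻¹ = q⁻¹ ∏ (1 - qⁿ)⁻²⁴` -/
def DeltaRInv : LaurentSeries R :=
  HahnSeries.single (-1 : ℤ) (1 : R) *
    HahnSeries.ofPowerSeries ℤ R (dedekindEtaUnitInv.map (Int.castRingHom R))

theorem DeltaR_mul_DeltaRInv : DeltaR R * DeltaRInv R = 1 := by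
  rw [DeltaR, DeltaRInv]
  have h1 : HahnSeries.single (1 : ℤ) (1 : R) * HahnSeries.single (-1 : ℤ) (1 : R) = 1 := by
    rw [HahnSeries.single_mul_single]; simp
  have h2 : HahnSeries.ofPowerSeries ℤ R (dedekindEtaUnit.map (Int.castRingHom R)) *
      HahnSeries.ofPowerSeries ℤ R (dedekindEtaUnitInv.map (Int.castRingHom R)) = 1 := by
    rw [← map_mul, ← map_mul, dedekindEtaUnit_mul_inv, map_one, map_one]
  calc _ = (HahnSeries.single (1 : ℤ) (1 : R) * HahnSeries.single (-1 : ℤ) (1 : R)) *
        (HahnSeries.ofPowerSeries ℤ R (dedekindEtaUnit.map (Int.castRingHom R)) *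
          HahnSeries.ofPowerSeries ℤ R (dedekindEtaUnitInv.map (Int.castRingHom R))) := by ring
    _ = 1 := by rw [h1, h2, one_mul]

theorem DeltaRInv_mul_DeltaR : DeltaRInv R * DeltaR R = 1 := by
  rw [mul_comm, DeltaR_mul_DeltaRInv]

theorem isUnit_DeltaR : IsUnit (DeltaR R) :=
  IsUnit.of_mul_eq_one _ (DeltaR_mul_DeltaRInv R)

theorem DeltaR_mul_cancel {f g : LaurentSeries R} (h : f * DeltaR R = g * DeltaR R) : f = g :=
  (isUnit_DeltaR R).mul_left_injective h

/-- `j = E₄³ / Δ` -/
theorem jqModC_eq : jqModC R =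
    HahnSeries.ofPowerSeries ℤ R ((eisenstein4 ^ 3).map (Int.castRingHom R)) * DeltaRInv R := by
  rw [jqModC, DeltaRInv, jNum, map_mul, map_mul]
  ring

theorem jqModC_mul_DeltaR : jqModC R * DeltaR R =
    HahnSeries.ofPowerSeries ℤ R ((eisenstein4 ^ 3).map (Int.castRingHom R)) := by
  rw [jqModC_eq, mul_assoc, DeltaRInv_mul_DeltaR, mul_one]

theorem jqModC_coeff_neg_one : (jqModC R).coeff (-1) = 1 := coeff_jqModC_neg_one R

theorem jqModC_coeff_of_lt {n : ℤ} (hn : n < -1) : (jqModC R).coeff n = 0 :=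
  coeff_jqModC_of_lt R hn

variable [Nontrivial R]

theorem DeltaR_order : (DeltaR R).order = 1 := by
  refine le_antisymm (HahnSeries.order_le_of_coeff_ne_zero ?_) ?_
  · rw [DeltaR_coeff_one]; exact one_ne_zero
  · exact (HahnSeries.le_order_iff_forall (DeltaR_ne_zero R)).mpr
      (fun n hn => DeltaR_coeff_of_lt R hn)

theorem jqModC_order : (jqModC R).order = -1 := by
  refine le_antisymm (HahnSeries.order_le_of_coeff_ne_zero ?_) ?_
  · rw [jqModC_coeff_neg_one]; exact one_ne_zero
  · exact (HahnSeries.le_order_iff_forall (jqModC_ne_zero_of_nontrivial R)).mpr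
      (fun n hn => jqModC_coeff_of_lt R hn)

end Delta

/-! ### Orders under `qExpand` -/

theorem qExpand_ne_zero (N : ℕ) [NeZero N] {f : LaurentSeries R} (hf : f ≠ 0) :
    qExpand R N f ≠ 0 := fun h => hf (qExpand_injective N (by rw [h, map_zero]))

theorem qExpand_order (N : ℕ) [NeZero N] (f : LaurentSeries R) :
    (qExpand R N f).order = (N : ℤ) * f.order := by
  rcases eq_or_ne f 0 with rfl | hf
  · simp
  · have hNf := qExpand_ne_zero N hf
    refine le_antisymm (HahnSeries.order_le_of_coeff_ne_zero ?_) ?_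
    · rw [qExpand_coeff_mul]; exact fun h => hf (HahnSeries.coeff_order_eq_zero.mp h)
    · refine (HahnSeries.le_order_iff_forall hNf).mpr (fun n hn => ?_)
      by_cases hk : (N : ℤ) ∣ n
      · obtain ⟨m, rfl⟩ := hk
        rw [qExpand_coeff_mul]
        have hNpos : (0 : ℤ) < N := by exact_mod_cast Nat.pos_of_ne_zero (NeZero.ne N)
        exact HahnSeries.coeff_eq_zero_of_lt_order (lt_of_mul_lt_mul_left hn hNpos.le)
      · exact qExpand_coeff_of_not_dvd N _ hk

end Fermat.Agent.S28L
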