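/-
S28, package P2, universality step of (B1) (owner: helper1).
The factorisation identity of the modular polynomial over `ℂ` (for one root of unity `ζ₀`)
implies the identity over every commutative ring `R` with a unit `ζ` such that
`1 + ζ + ⋯ + ζ^(p-1) = 0`: the identity descends to `ℤ[ζ_p] = AdjoinRoot (cyclotomic p ℤ)`
(which embeds in `ℂ`) and is then pushed forward along `ℤ[ζ_p] → R`.
-/
import Mathlib
import Fermat.Agent.S28L.Defs
import Fermat.Agent.S28L.Util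

set_option autoImplicit false
noncomputable section

namespace Fermat.Agent.S28L

open ModularCurve HahnSeries Polynomial

/-- left-hand side of the modular equation over a ring `R` -/
def mpuL (p : ℕ) [Fact p.Prime] (Φ : Polynomial (Polynomial ℤ)) (R : Type*) [CommRing R] :
    Polynomial (LaurentSeries R) :=
  ev2 Φ (qExpand R p (jqModC R))

/-- right-hand side of the modular equation over a ring `R` with a unit `ζ` -/
def mpuR (p : ℕ) [Fact p.Prime] (R : Type*) [CommRing R] (ζ : Rˣ) :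
    Polynomial (LaurentSeries R) :=
  (Polynomial.X - Polynomial.C (qExpand R (p * p) (jqModC R))) *
    ∏ b ∈ Finset.range p, (Polynomial.X - Polynomial.C (tw (ζ ^ b) (jqModC R)))

theorem mpuL_map (p : ℕ) [Fact p.Prime] (Φ : Polynomial (Polynomial ℤ))
    {A B : Type*} [CommRing A] [CommRing B] (φ : A →+* B) :
    (mpuL p Φ A).map (coeffMap φ) = mpuL p Φ B := by
  rw [mpuL, mpuL, ev2_map, coeffMap_qExpand, coeffMap_jqModC]

theorem mpuR_map (p : ℕ) [Fact p.Prime]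
    {A B : Type*} [CommRing A] [CommRing B] (φ : A →+* B) (u : Aˣ) :
    (mpuR p A u).map (coeffMap φ) = mpuR p B (Units.map (φ : A →* B) u) := by
  rw [mpuR, mpuR, Polynomial.map_mul, Polynomial.map_sub, Polynomial.map_X, Polynomial.map_C,
    coeffMap_qExpand, coeffMap_jqModC, Polynomial.map_prod]
  congr 1
  refine Finset.prod_congr rfl fun b _ => ?_
  rw [Polynomial.map_sub, Polynomial.map_X, Polynomial.map_C, coeffMap_tw, coeffMap_jqModC,
    map_pow]

theorem mpu_eval₂_cyc (p : ℕ) [Fact p.Prime] {B : Type*} [CommRing B] (g : ℤ →+* B) (b : B) :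
    (cyclotomic p ℤ).eval₂ g b = ∑ i ∈ Finset.range p, b ^ i := by
  rw [Polynomial.cyclotomic_prime ℤ p, Polynomial.eval₂_finsetSum]
  simp [Polynomial.eval₂_pow, Polynomial.eval₂_X]

/-- the root of `cyclotomic p ℤ` in `AdjoinRoot (cyclotomic p ℤ)` satisfies the geometric sum
relation -/
theorem mpu_root_sum (p : ℕ) [Fact p.Prime] :
    ∑ i ∈ Finset.range p, (AdjoinRoot.root (cyclotomic p ℤ)) ^ i = 0 := by
  rw [← mpu_eval₂_cyc p (AdjoinRoot.of (cyclotomic p ℤ))]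
  exact AdjoinRoot.eval₂_root (cyclotomic p ℤ)

theorem mpu_root_pow (p : ℕ) [Fact p.Prime] :
    (AdjoinRoot.root (cyclotomic p ℤ)) ^ p = 1 := by
  have h := mul_geom_sum (AdjoinRoot.root (cyclotomic p ℤ)) p
  rw [mpu_root_sum, mul_zero] at h
  exact (sub_eq_zero.mp h.symm)

/-- the root as a unit -/
def mpuZeta (p : ℕ) [Fact p.Prime] : (AdjoinRoot (cyclotomic p ℤ))ˣ :=
  Units.ofPowEqOne _ p (mpu_root_pow p) (Fact.out : p.Prime).ne_zero

theorem mpuZeta_val (p : ℕ) [Fact p.Prime] :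
    ((mpuZeta p : (AdjoinRoot (cyclotomic p ℤ))ˣ) : AdjoinRoot (cyclotomic p ℤ))
      = AdjoinRoot.root (cyclotomic p ℤ) := rfl

theorem mpu_eval₂_cyclotomic (p : ℕ) [Fact p.Prime] {R : Type*} [CommRing R] (ζ : Rˣ)
    (hζ : (∑ i ∈ Finset.range p, ((ζ ^ i : Rˣ) : R)) = 0) :
    (cyclotomic p ℤ).eval₂ (Int.castRingHom R) (ζ : R) = 0 := by
  rw [mpu_eval₂_cyc]
  simpa using hζ

/-- the ring homomorphism `ℤ[ζ_p] → R` sending the root to `ζ` -/
def mpuLift (p : ℕ) [Fact p.Prime] {R : Type*} [CommRing R] (ζ : Rˣ)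
    (hζ : (∑ i ∈ Finset.range p, ((ζ ^ i : Rˣ) : R)) = 0) :
    AdjoinRoot (cyclotomic p ℤ) →+* R :=
  AdjoinRoot.lift (Int.castRingHom R) (ζ : R) (mpu_eval₂_cyclotomic p ζ hζ)

theorem mpuLift_zeta (p : ℕ) [Fact p.Prime] {R : Type*} [CommRing R] (ζ : Rˣ)
    (hζ : (∑ i ∈ Finset.range p, ((ζ ^ i : Rˣ) : R)) = 0) :
    Units.map (mpuLift p ζ hζ : AdjoinRoot (cyclotomic p ℤ) →* R) (mpuZeta p) = ζ := by
  ext
  rw [Units.coe_map, mpuZeta_val]
  exact AdjoinRoot.lift_root (mpu_eval₂_cyclotomic p ζ hζ)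

/-- the homomorphism `ℤ[ζ_p] → ℂ` is injective -/
theorem mpuLift_injective (p : ℕ) [Fact p.Prime] (ζ₀ : ℂˣ)
    (hζ₀ : (∑ i ∈ Finset.range p, ((ζ₀ ^ i : ℂˣ) : ℂ)) = 0) :
    Function.Injective (mpuLift p ζ₀ hζ₀) := by
  have hpos : 0 < p := (Fact.out : p.Prime).pos
  have hne : NeZero ((p : ℕ) : ℂ) := ⟨by exact_mod_cast hpos.ne'⟩
  have hroot : (cyclotomic p ℂ).IsRoot (ζ₀ : ℂ) := by
    rw [Polynomial.IsRoot.def, Polynomial.cyclotomic_prime ℂ p, Polynomial.eval_finsetSum]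
    simpa [Polynomial.eval_pow, Polynomial.eval_X] using hζ₀
  have hprim : IsPrimitiveRoot (ζ₀ : ℂ) p := Polynomial.isRoot_cyclotomic_iff.mp hroot
  have hmin : cyclotomic p ℤ = minpoly ℤ (ζ₀ : ℂ) := Polynomial.cyclotomic_eq_minpoly hprim hpos
  have hint : IsIntegral ℤ (ζ₀ : ℂ) := hprim.isIntegral hpos
  rw [injective_iff_map_eq_zero]
  intro x hx
  obtain ⟨f, rfl⟩ := AdjoinRoot.mk_surjective x
  rw [mpuLift, AdjoinRoot.lift_mk] at hx
  have hx' : Polynomial.aeval (ζ₀ : ℂ) f = 0 := by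
    rw [Polynomial.aeval_def, algebraMap_int_eq]
    exact hx
  have hdvd : minpoly ℤ (ζ₀ : ℂ) ∣ f := minpoly.isIntegrallyClosed_dvd hint hx'
  rw [AdjoinRoot.mk_eq_zero, hmin]
  exact hdvd

theorem modPoly_universal (p : ℕ) [Fact p.Prime] (Φ : Polynomial (Polynomial ℤ)) (ζ₀ : ℂˣ)
    (hζ₀ : (∑ i ∈ Finset.range p, ((ζ₀ ^ i : ℂˣ) : ℂ)) = 0)
    (h : ev2 Φ (qExpand ℂ p (jqModC ℂ)) =
      (Polynomial.X - Polynomial.C (qExpand ℂ (p * p) (jqModC ℂ))) *
        ∏ b ∈ Finset.range p, (Polynomial.X - Polynomial.C (tw (ζ₀ ^ b) (jqModC ℂ)))) :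
    ∀ (R : Type) [CommRing R] (ζ : Rˣ), (∑ i ∈ Finset.range p, ((ζ ^ i : Rˣ) : R)) = 0 →
      ev2 Φ (qExpand R p (jqModC R)) =
        (Polynomial.X - Polynomial.C (qExpand R (p * p) (jqModC R))) *
          ∏ b ∈ Finset.range p, (Polynomial.X - Polynomial.C (tw (ζ ^ b) (jqModC R))) := by
  -- the identity over `A = ℤ[ζ_p]`
  have hA : mpuL p Φ (AdjoinRoot (cyclotomic p ℤ)) =
      mpuR p (AdjoinRoot (cyclotomic p ℤ)) (mpuZeta p) := by
    apply Polynomial.map_injective (coeffMap (mpuLift p ζ₀ hζ₀))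
      (coeffMap_injective (mpuLift_injective p ζ₀ hζ₀))
    rw [mpuL_map, mpuR_map, mpuLift_zeta]
    exact h
  intro R _ ζ hζ
  have h2 := congrArg (Polynomial.map (coeffMap (mpuLift p ζ hζ))) hA
  rw [mpuL_map, mpuR_map, mpuLift_zeta] at h2
  exact h2

end Fermat.Agent.S28L
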