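/-
S28, package P2, part B3 (helper9): `(θ j)⁶ = j⁴ (j - 1728)³ Δ` over every commutative ring,
by descent from `ℂ` to `ℤ` (coefficientwise injectivity) and base change `ℤ → R`.
-/
import Mathlib
import Fermat.Agent.S28L.Defs
import Fermat.Agent.S28L.Analytic
import Fermat.Agent.S28L.Util

set_option autoImplicit false
noncomputable section

namespace Fermat.Agent.S28L

open ModularCurve HahnSeries

/-- the `θ`-identity over `ℤ` -/
theorem theta_jq_pow_six_int :
    theta (jqModC ℤ) ^ 6 = jqModC ℤ ^ 4 * (jqModC ℤ - 1728) ^ 3 * DeltaR ℤ := by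
  apply coeffMap_injective (φ := Int.castRingHom ℂ) (RingHom.injective_int _)
  rw [map_pow, coeffMap_theta, coeffMap_jqModC, map_mul, map_mul, map_pow, map_pow, map_sub,
    coeffMap_jqModC, map_ofNat, coeffMap_DeltaR]
  exact theta_jq_complex

/-- (B3) `(θ j)⁶ = j⁴ (j - 1728)³ Δ` over every commutative ring. -/
theorem theta_jq_pow_six_h9 (R : Type) [CommRing R] :
    theta (jqModC R) ^ 6 = jqModC R ^ 4 * (jqModC R - 1728) ^ 3 * DeltaR R := by
  have h := congrArg (coeffMap (Int.castRingHom R)) theta_jq_pow_six_int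
  rwa [map_pow, coeffMap_theta, coeffMap_jqModC, map_mul, map_mul, map_pow, map_pow, map_sub,
    coeffMap_jqModC, map_ofNat, coeffMap_DeltaR] at h

end Fermat.Agent.S28L
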