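/-
S28, package P2, part B2 (helper9): `u = Δ(q^p)/Δ(q)` is a root of a polynomial `P(X, j)`,
`P ∈ ℤ[Y][X]` with leading coefficient a power of `p`.
-/
import Mathlib
import Fermat.Agent.S28L.Defs
import Fermat.Agent.S28L.Analytic
import Fermat.Agent.S28L.Util
import Fermat.Agent.S28L.ModPoly.VM
import Fermat.Agent.S28L.ModPoly.FamInt
import Fermat.Agent.S28L.ModPoly.JPoly

set_option autoImplicit false
noncomputable section

namespace Fermat.Agent.S28L

open ModularCurve HahnSeries Polynomial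

/-! ### Descent `ℂ → ℤ → R` -/

/-- `Δ⁻¹` is compatible with coefficient maps. -/
theorem h9_coeffMap_DeltaRInv (R : Type*) [CommRing R] {S : Type*} [CommRing S] (φ : R →+* S) :
    coeffMap φ (DeltaRInv R) = DeltaRInv S := by
  have h : coeffMap φ (DeltaRInv R) * DeltaR S = 1 := by
    rw [← coeffMap_DeltaR R φ, ← map_mul, DeltaRInv_mul_DeltaR, map_one]
  calc coeffMap φ (DeltaRInv R)
      = coeffMap φ (DeltaRInv R) * (DeltaR S * DeltaRInv S) := by
        rw [DeltaR_mul_DeltaRInv, mul_one]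
    _ = (coeffMap φ (DeltaRInv R) * DeltaR S) * DeltaRInv S := by ring
    _ = DeltaRInv S := by rw [h, one_mul]

/-- naturality of `Φ(x, y)` in the ring -/
theorem h9_eval_ev2_map {A B : Type*} [CommRing A] [CommRing B] (P : Polynomial (Polynomial ℤ))
    (φ : A →+* B) (x y : A) : (ev2 P (φ y)).eval (φ x) = φ ((ev2 P y).eval x) := by
  rw [← ev2_map, Polynomial.eval_map, Polynomial.eval₂_at_apply]

/-- the relation for `u = Δ(q^p)/Δ(q)` over `ℂ` implies the relation over every ring -/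
theorem uPoly_descent (p : ℕ) [Fact p.Prime] (P : Polynomial (Polynomial ℤ))
    (h : (ev2 P (jqModC ℂ)).eval (qExpand ℂ p (DeltaR ℂ) * DeltaRInv ℂ) = 0)
    (R : Type) [CommRing R] (u : LaurentSeries R)
    (hu : u * DeltaR R = qExpand R p (DeltaR R)) : (ev2 P (jqModC R)).eval u = 0 := by
  have hZ : (ev2 P (jqModC ℤ)).eval (qExpand ℤ p (DeltaR ℤ) * DeltaRInv ℤ) = 0 := by
    apply coeffMap_injective (φ := Int.castRingHom ℂ) (RingHom.injective_int _)
    rw [map_zero, ← h9_eval_ev2_map, coeffMap_jqModC, map_mul, coeffMap_qExpand, coeffMap_DeltaR,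
      h9_coeffMap_DeltaRInv]
    exact h
  have hu' : u = coeffMap (Int.castRingHom R) (qExpand ℤ p (DeltaR ℤ) * DeltaRInv ℤ) := by
    rw [map_mul, coeffMap_qExpand, coeffMap_DeltaR, h9_coeffMap_DeltaRInv, ← hu, mul_assoc,
      DeltaR_mul_DeltaRInv, mul_one]
  rw [hu', ← coeffMap_jqModC (Int.castRingHom R), h9_eval_ev2_map, hZ, map_zero]

/-! ### The polynomial -/

/-- the candidate polynomial `Σ_i (-1)^i p^(12(p+1-i)) Q_i(Y) X^(p+1-i)` -/
def uPolyOf (p : ℕ) (Q : ℕ → Polynomial ℤ) : Polynomial (Polynomial ℤ) :=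
  ∑ i ∈ Finset.range (p + 2),
    Polynomial.monomial (p + 1 - i) ((-1) ^ i * (Polynomial.C ((p : ℤ) ^ (12 * (p + 1 - i))) * Q i))

theorem uPolyOf_coeff_top (p : ℕ) (Q : ℕ → Polynomial ℤ) (hQ0 : Q 0 = 1) :
    (uPolyOf p Q).coeff (p + 1) = Polynomial.C ((p : ℤ) ^ (12 * (p + 1))) := by
  rw [uPolyOf, Polynomial.finsetSum_coeff]
  rw [Finset.sum_eq_single 0]
  · rw [Polynomial.coeff_monomial, if_pos (by omega), hQ0]; simp
  · intro i hi hi0
    rw [Polynomial.coeff_monomial, if_neg]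
    have := Finset.mem_range.1 hi
    omega
  · intro h; exact absurd (Finset.mem_range.2 (by omega)) h

theorem uPolyOf_natDegree_le (p : ℕ) (Q : ℕ → Polynomial ℤ) :
    (uPolyOf p Q).natDegree ≤ p + 1 := by
  rw [uPolyOf]
  refine Polynomial.natDegree_sum_le_of_forall_le _ _ (fun i _ => ?_)
  exact (Polynomial.natDegree_monomial_le _).trans (by omega)

theorem uPolyOf_leadingCoeff (p : ℕ) [Fact p.Prime] (Q : ℕ → Polynomial ℤ) (hQ0 : Q 0 = 1) :
    (uPolyOf p Q).leadingCoeff = Polynomial.C ((p : ℤ) ^ (12 * (p + 1))) := by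
  have hp : (p : ℤ) ≠ 0 := by exact_mod_cast (Fact.out : p.Prime).ne_zero
  have hc := uPolyOf_coeff_top p Q hQ0
  have hne : (uPolyOf p Q).coeff (p + 1) ≠ 0 := by
    rw [hc]; exact Polynomial.C_ne_zero.2 (pow_ne_zero _ hp)
  have hdeg : (uPolyOf p Q).natDegree = p + 1 :=
    le_antisymm (uPolyOf_natDegree_le p Q) (Polynomial.le_natDegree_of_ne_zero hne)
  rw [Polynomial.leadingCoeff, hdeg, hc]

/-- evaluation of `uPolyOf` -/
theorem eval_ev2_uPolyOf {A : Type*} [CommRing A] (p : ℕ) (Q : ℕ → Polynomial ℤ) (x y : A) :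
    (ev2 (uPolyOf p Q) y).eval x =
      ∑ i ∈ Finset.range (p + 2),
        (-1) ^ i * (((p : A) ^ (12 * (p + 1 - i))) * (Q i).eval₂ (Int.castRingHom A) y) *
          x ^ (p + 1 - i) := by
  rw [ev2, uPolyOf, Polynomial.map_sum, Polynomial.eval_finsetSum]
  refine Finset.sum_congr rfl (fun i _ => ?_)
  rw [Polynomial.map_monomial, Polynomial.eval_monomial]
  congr 1
  rw [map_mul, map_mul, map_pow, map_neg, map_one, Polynomial.coe_eval₂RingHom,
    Polynomial.eval₂_C, eq_intCast, Int.cast_pow, Int.cast_natCast]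

/-! ### The relation over `ℂ` from Vieta's formulas -/

/-- Core of (B2): if the elementary symmetric functions of a family of `p + 1` series containing
`p¹² Δ(q^(p²))` are `V_p(Δ^i Q_i(j))`, then `u = Δ(q^p)/Δ(q)` is a root of `uPolyOf p Q`. -/
theorem uPoly_core (p : ℕ) [Fact p.Prime] (s : Multiset (LaurentSeries ℂ))
    (hcard : Multiset.card s = p + 1)
    (hr₀ : HahnSeries.C ((p : ℂ) ^ 12) * qExpand ℂ (p * p) (DeltaR ℂ) ∈ s)
    (Q : ℕ → Polynomial ℤ)
    (hQ : ∀ i, i ≤ p + 1 → s.esymm i =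
      qExpand ℂ p (DeltaR ℂ ^ i * (Q i).eval₂ (Int.castRingHom (LaurentSeries ℂ)) (jqModC ℂ))) :
    (ev2 (uPolyOf p Q) (jqModC ℂ)).eval (qExpand ℂ p (DeltaR ℂ) * DeltaRInv ℂ) = 0 := by
  set r₀ : LaurentSeries ℂ := HahnSeries.C ((p : ℂ) ^ 12) * qExpand ℂ (p * p) (DeltaR ℂ) with hr₀def
  set U : LaurentSeries ℂ := qExpand ℂ p (DeltaR ℂ) * DeltaRInv ℂ with hUdef
  have hUΔ : U * DeltaR ℂ = qExpand ℂ p (DeltaR ℂ) := by
    rw [hUdef, mul_assoc, DeltaRInv_mul_DeltaR, mul_one]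
  have hCp : HahnSeries.C ((p : ℂ) ^ 12) = (p : LaurentSeries ℂ) ^ 12 := by
    rw [map_pow, map_natCast]
  have hr₀' : r₀ = qExpand ℂ p ((p : LaurentSeries ℂ) ^ 12 * (U * DeltaR ℂ)) := by
    have e1 : qExpand ℂ p ((p : LaurentSeries ℂ) ^ 12) = (p : LaurentSeries ℂ) ^ 12 := by
      rw [map_pow, map_natCast]
    rw [hr₀def, hUΔ, map_mul, qExpand_qExpand, e1, hCp]
  -- Vieta
  have hV := Multiset.prod_X_sub_X_eq_sum_esymm s
  have hroot : (s.map (fun t => Polynomial.X - Polynomial.C t)).prod.eval r₀ = 0 := by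
    rw [Polynomial.eval_multiset_prod]
    apply Multiset.prod_eq_zero
    rw [Multiset.mem_map]
    refine ⟨Polynomial.X - Polynomial.C r₀, Multiset.mem_map.2 ⟨r₀, hr₀, rfl⟩, ?_⟩
    simp
  rw [hV, hcard, Polynomial.eval_finsetSum] at hroot
  -- rewrite every term as `V_p` of something
  have hterm : ∀ j ∈ Finset.range (p + 1 + 1),
      Polynomial.eval r₀ ((-1) ^ j * (Polynomial.C (s.esymm j) * Polynomial.X ^ (p + 1 - j)))
        = qExpand ℂ p (DeltaR ℂ ^ (p + 1) *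
            ((-1) ^ j * (((p : LaurentSeries ℂ) ^ (12 * (p + 1 - j))) *
              (Q j).eval₂ (Int.castRingHom (LaurentSeries ℂ)) (jqModC ℂ)) * U ^ (p + 1 - j))) := by
    intro j hj
    have hj' : j ≤ p + 1 := by have := Finset.mem_range.1 hj; omega
    have hΔ : DeltaR ℂ ^ (p + 1) = DeltaR ℂ ^ j * DeltaR ℂ ^ (p + 1 - j) := by
      rw [← _root_.pow_add]; congr 1; omega
    calc Polynomial.eval r₀
          ((-1) ^ j * (Polynomial.C (s.esymm j) * Polynomial.X ^ (p + 1 - j)))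
        = (-1) ^ j * (s.esymm j * r₀ ^ (p + 1 - j)) := by
          rw [Polynomial.eval_mul, Polynomial.eval_pow, Polynomial.eval_neg, Polynomial.eval_one,
            Polynomial.eval_mul, Polynomial.eval_C, Polynomial.eval_pow, Polynomial.eval_X]
      _ = (-1) ^ j * (qExpand ℂ p (DeltaR ℂ ^ j *
              (Q j).eval₂ (Int.castRingHom (LaurentSeries ℂ)) (jqModC ℂ)) *
            qExpand ℂ p ((p : LaurentSeries ℂ) ^ 12 * (U * DeltaR ℂ)) ^ (p + 1 - j)) := by
          rw [hQ j hj', hr₀']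
      _ = qExpand ℂ p ((-1) ^ j * (DeltaR ℂ ^ j *
              (Q j).eval₂ (Int.castRingHom (LaurentSeries ℂ)) (jqModC ℂ) *
            ((p : LaurentSeries ℂ) ^ 12 * (U * DeltaR ℂ)) ^ (p + 1 - j))) := by
          simp only [map_mul, map_pow, map_neg, map_one]
      _ = _ := by
          congr 1
          rw [hΔ, mul_pow, mul_pow, ← pow_mul]
          ring
  rw [Finset.sum_congr rfl hterm, ← map_sum, ← Finset.mul_sum] at hroot
  have hinner := qExpand_injective (R := ℂ) p (hroot.trans (map_zero _).symm)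
  have hunit : IsUnit (DeltaR ℂ ^ (p + 1)) := (isUnit_DeltaR ℂ).pow _
  have hsum := (hunit.mul_right_eq_zero).1 hinner
  rw [eval_ev2_uPolyOf]
  exact hsum

/-- (B2), reduced to the existence of a family of `p + 1` series over `ℂ` containing
`p¹² Δ(q^(p²))` whose elementary symmetric functions are `V_p(Δ^i Q_i(j))` with `Q_i ∈ ℤ[Y]`. -/
theorem exists_uPoly_aux (p : ℕ) [Fact p.Prime] (s : Multiset (LaurentSeries ℂ))
    (hcard : Multiset.card s = p + 1)
    (hr₀ : HahnSeries.C ((p : ℂ) ^ 12) * qExpand ℂ (p * p) (DeltaR ℂ) ∈ s)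
    (hes : ∀ i, 1 ≤ i → i ≤ p + 1 → ∃ Q : Polynomial ℤ, s.esymm i =
      qExpand ℂ p (DeltaR ℂ ^ i * Q.eval₂ (Int.castRingHom (LaurentSeries ℂ)) (jqModC ℂ))) :
    ∃ (P : Polynomial (Polynomial ℤ)) (m : ℕ), P.leadingCoeff = Polynomial.C ((p : ℤ) ^ m) ∧
      ∀ (R : Type) [CommRing R] (u : LaurentSeries R),
        u * DeltaR R = qExpand R p (DeltaR R) → (ev2 P (jqModC R)).eval u = 0 := by
  have hex : ∀ i : ℕ, ∃ Q : Polynomial ℤ, (i = 0 → Q = 1) ∧ (i ≤ p + 1 → s.esymm i =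
      qExpand ℂ p (DeltaR ℂ ^ i * Q.eval₂ (Int.castRingHom (LaurentSeries ℂ)) (jqModC ℂ))) := by
    intro i
    rcases Nat.eq_zero_or_pos i with hi | hi
    · subst hi
      refine ⟨1, fun _ => rfl, fun _ => ?_⟩
      have h0 : s.esymm 0 = 1 := by simp [Multiset.esymm, Multiset.powersetCard_zero_left]
      rw [h0, pow_zero, Polynomial.eval₂_one, mul_one, map_one]
    · by_cases hle : i ≤ p + 1
      · obtain ⟨Q, hQ⟩ := hes i hi hle
        exact ⟨Q, fun h => absurd h (by omega), fun _ => hQ⟩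
      · exact ⟨0, fun h => absurd h (by omega), fun h => absurd h hle⟩
  choose Q hQ0 hQ using hex
  refine ⟨uPolyOf p Q, 12 * (p + 1), uPolyOf_leadingCoeff p Q (hQ0 0 rfl), fun R _ u hu => ?_⟩
  exact uPoly_descent p _ (uPoly_core p s hcard hr₀ Q hQ) R u hu

/-- (B2) `u = Δ(q^p)/Δ(q)` is a root of a polynomial `P(X, j)` with `P ∈ ℤ[Y][X]` whose leading
coefficient in `X` is a power of `p`.  (Same statement as the frozen `exists_uPoly`.) -/
theorem exists_uPoly_h9 (p : ℕ) [Fact p.Prime] :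
    ∃ (P : Polynomial (Polynomial ℤ)) (m : ℕ), P.leadingCoeff = Polynomial.C ((p : ℤ) ^ m) ∧
      ∀ (R : Type) [CommRing R] (u : LaurentSeries R),
        u * DeltaR R = qExpand R p (DeltaR R) → (ev2 P (jqModC R)).eval u = 0 := by
  refine exists_uPoly_aux p (Finset.univ.val.map (fam p 12 (DeltaR ℂ))) ?_ ?_ ?_
  · rw [Multiset.card_map]
    show (Finset.univ : Finset (Option (Fin p))).card = p + 1
    rw [Finset.card_univ, Fintype.card_option, Fintype.card_fin]
  · exact Multiset.mem_map.2 ⟨none, Finset.mem_univ_val none, rfl⟩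
  · intro i _ _
    have h1 := fam_esymm_mem_VM p (k := 12) (by norm_num) Mq_Delta i
    rw [ofPowerSeries_Delta, mul_comm i 12] at h1
    obtain ⟨P, -, hP⟩ := VM_structure h1
    have h2 := fam_esymm_mem_ZC p 12 DeltaR_mem_ZC i
    rw [hP, qExpand_mem_ZC_iff, DeltaR_pow_mul_mem_ZC_iff, mem_ZC_iff] at h2
    obtain ⟨Q, hQ⟩ := exists_int_poly_of_aeval_jq P h2
    exact ⟨Q, by rw [hP, eval₂_intCast_eq_aeval, hQ]⟩

end Fermat.Agent.S28L
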