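/-
S28, package P2 (owner: helper7): the modular equation of prime level over `ℤ`, integrality of
`Δ(q^p)/Δ(q)`, and the `θ`-identity, over arbitrary commutative rings.
INTERFACE FILE: the three statements below are frozen (consumed by package P3).
-/
import Mathlib
import Fermat.Agent.S28L.Defs
import Fermat.Agent.S28L.Analytic
import Fermat.Agent.S28L.ModPoly.ModPolyC
import Fermat.Agent.S28L.ModPolyUniv
import Fermat.Agent.S28L.UPoly
import Fermat.Agent.S28L.ThetaSix

set_option autoImplicit false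
noncomputable section

namespace Fermat.Agent.S28L

open ModularCurve HahnSeries Polynomial

/-- (B1) The modular polynomial `Φ_p(X, Y) ∈ ℤ[Y][X]`: monic of degree `p + 1` in `X`, and
`Φ_p(X, j(q^p)) = (X - j(q^(p²))) ∏_{b < p} (X - j(ζ^b q))` over every commutative ring `R` with a
unit `ζ` such that `1 + ζ + ⋯ + ζ^(p-1) = 0`. -/
theorem exists_modPoly (p : ℕ) [Fact p.Prime] :
    ∃ Φ : Polynomial (Polynomial ℤ), Φ.Monic ∧ Φ.natDegree = p + 1 ∧
      ∀ (R : Type) [CommRing R] (ζ : Rˣ), (∑ i ∈ Finset.range p, ((ζ ^ i : Rˣ) : R)) = 0 →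
        ev2 Φ (qExpand R p (jqModC R)) =
          (Polynomial.X - Polynomial.C (qExpand R (p * p) (jqModC R))) *
            ∏ b ∈ Finset.range p, (Polynomial.X - Polynomial.C (tw (ζ ^ b) (jqModC R))) := by
  obtain ⟨Φ, hmonic, hdeg, hC⟩ := exists_modPoly_complex p
  exact ⟨Φ, hmonic, hdeg, modPoly_universal p Φ (zetaC p) (zetaC_geom_sum p) hC⟩

/-- (B2) `u = Δ(q^p)/Δ(q)` is a root of a polynomial `P(X, j)` with `P ∈ ℤ[Y][X]` whose leading
coefficient in `X` is a power of `p`. -/
theorem exists_uPoly (p : ℕ) [Fact p.Prime] :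
    ∃ (P : Polynomial (Polynomial ℤ)) (m : ℕ), P.leadingCoeff = Polynomial.C ((p : ℤ) ^ m) ∧
      ∀ (R : Type) [CommRing R] (u : LaurentSeries R),
        u * DeltaR R = qExpand R p (DeltaR R) → (ev2 P (jqModC R)).eval u = 0 :=
  exists_uPoly_h9 p

/-- (B3) `(θ j)⁶ = j⁴ (j - 1728)³ Δ` over every commutative ring. -/
theorem theta_jq_pow_six (R : Type) [CommRing R] :
    theta (jqModC R) ^ 6 = jqModC R ^ 4 * (jqModC R - 1728) ^ 3 * DeltaR R :=
  theta_jq_pow_six_h9 R

end Fermat.Agent.S28L
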