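/-
S28, package P3a (owner: helper2): the modular polynomial chosen once and for all, and the
special series `j(ξ q^m)`.  FROZEN definitions (consumed by P3a leaves and by package P3b).
-/
import Mathlib
import Fermat.Agent.S28L.Defs
import Fermat.Agent.S28L.Util
import Fermat.Agent.S28L.ModPoly

set_option autoImplicit false
noncomputable section

namespace Fermat.Agent.S28L

open ModularCurve HahnSeries Polynomial

/-- The modular polynomial `Φ_p ∈ ℤ[Y][X]` of (B1), chosen once and for all. -/
def LowPhi (p : ℕ) [Fact p.Prime] : Polynomial (Polynomial ℤ) :=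
  Classical.choose (exists_modPoly p)

theorem LowPhi_monic (p : ℕ) [Fact p.Prime] : (LowPhi p).Monic :=
  (Classical.choose_spec (exists_modPoly p)).1

theorem LowPhi_natDegree (p : ℕ) [Fact p.Prime] : (LowPhi p).natDegree = p + 1 :=
  (Classical.choose_spec (exists_modPoly p)).2.1

theorem LowPhi_spec (p : ℕ) [Fact p.Prime] (R : Type) [CommRing R] (ζ : Rˣ)
    (hζ : (∑ i ∈ Finset.range p, ((ζ ^ i : Rˣ) : R)) = 0) :
    ev2 (LowPhi p) (qExpand R p (jqModC R)) =
      (Polynomial.X - Polynomial.C (qExpand R (p * p) (jqModC R))) *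
        ∏ b ∈ Finset.range p, (Polynomial.X - Polynomial.C (tw (ζ ^ b) (jqModC R))) :=
  (Classical.choose_spec (exists_modPoly p)).2.2 R ζ hζ

/-- The special series `j(ξ q^m) = V_m (tw ξ j)`; total in `m` (junk value `0` for `m = 0`), so
that the exponent can be rewritten freely. -/
def LowS (k : Type) [Field k] (ξ : kˣ) (m : ℕ) : LaurentSeries k :=
  if h : m = 0 then 0 else @qExpand k _ m ⟨h⟩ (tw ξ (jqModC k))

end Fermat.Agent.S28L
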