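/-
S28, package P3a (owner: helper2), leaf "Integral": `k[j]` is integrally closed in `k(j)`, and
polynomials in `j` have poles.  Statement FROZEN.
-/
import Mathlib
import Fermat.Agent.S28L.LowDefs

set_option autoImplicit false
noncomputable section

namespace Fermat.Agent.S28L

open ModularCurve HahnSeries Polynomial

/-- The coefficient of `q^(-deg P)` in `P(j)` is the leading coefficient of `P`. -/
theorem LowInt_coeff_aeval (k : Type) [Field k] (P : Polynomial k) :
    (Polynomial.aeval (jqModC k) P).coeff (-(P.natDegree : ℤ)) = P.leadingCoeff := by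
  rw [Polynomial.aeval_eq_sum_range, HahnSeries.coeff_sum, Finset.sum_range_succ]
  rw [Finset.sum_eq_zero, zero_add, algebra_smul_coeff, coeff_jqModC_pow_self, mul_one]
  · rfl
  · intro i hi
    rw [algebra_smul_coeff, coeff_jqModC_pow_of_lt, mul_zero]
    have := Finset.mem_range.mp hi
    omega

/-- A polynomial in `j` without pole is zero. -/
theorem LowInt_aeval_eq_zero (k : Type) [Field k] (P : Polynomial k)
    (hord : ∀ n : ℤ, n ≤ 0 → (Polynomial.aeval (jqModC k) P).coeff n = 0) : P = 0 := by
  have h := LowInt_coeff_aeval k P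
  rw [hord _ (by omega)] at h
  exact Polynomial.leadingCoeff_eq_zero.mp h.symm

theorem LowInt_aeval_injective (k : Type) [Field k] :
    Function.Injective (Polynomial.aeval (R := k) (jqModC k)) := by
  rw [injective_iff_map_eq_zero]
  intro P hP
  exact LowInt_aeval_eq_zero k P (fun n _ => by rw [hP]; rfl)

open scoped IntermediateField.algebraAdjoinAdjoin in
theorem LowInt_main (k : Type) [Field k] (x : LaurentSeries k)
    (hx : x ∈ IntermediateField.adjoin k {jqModC k})
    (hint : IsIntegral (Algebra.adjoin k {jqModC k}) x)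
    (hord : ∀ n : ℤ, n ≤ 0 → x.coeff n = 0) : x = 0 := by
  have hrange : Algebra.adjoin k {jqModC k} = (Polynomial.aeval (R := k) (jqModC k)).range :=
    Algebra.adjoin_singleton_eq_range_aeval k (jqModC k)
  let e : Polynomial k ≃ₐ[k] Algebra.adjoin k {jqModC k} :=
    (AlgEquiv.ofInjective _ (LowInt_aeval_injective k)).trans
      (Subalgebra.equivOfEq _ _ hrange.symm)
  have hic : IsIntegrallyClosed (Algebra.adjoin k {jqModC k}) :=
    IsIntegrallyClosed.of_equiv e.toRingEquiv
  have hint' : IsIntegral (Algebra.adjoin k {jqModC k})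
      (⟨x, hx⟩ : IntermediateField.adjoin k {jqModC k}) := by
    have h := isIntegral_algebraMap_iff (R := Algebra.adjoin k {jqModC k})
      (A := IntermediateField.adjoin k {jqModC k}) (B := LaurentSeries k)
      (x := ⟨x, hx⟩) Subtype.val_injective
    exact h.mp hint
  obtain ⟨y, hy⟩ := IsIntegrallyClosed.algebraMap_eq_of_integral hint'
  obtain ⟨y, hymem⟩ := y
  have hxy : x = y := by
    have := congrArg Subtype.val hy
    exact this.symm
  rw [hrange] at hymem
  obtain ⟨P, rfl⟩ := hymem
  subst hxy
  have := LowInt_aeval_eq_zero k P hord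
  rw [this, map_zero]

/-- An element of `k(j)` that is integral over `k[j]` and whose coefficients at all exponents
`≤ 0` vanish is zero.  (It is a polynomial in `j = q⁻¹ + ⋯`.) -/
theorem Low_eq_zero_of_integral (k : Type) [Field k] (x : LaurentSeries k)
    (hx : x ∈ IntermediateField.adjoin k {jqModC k})
    (hint : IsIntegral (Algebra.adjoin k {jqModC k}) x)
    (hord : ∀ n : ℤ, n ≤ 0 → x.coeff n = 0) : x = 0 := by
  exact LowInt_main k x hx hint hord

end Fermat.Agent.S28L
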