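/-
S28, package P3a (owner: helper2), leaf "Series": basic facts on the special series
`LowS k ξ m = j(ξ q^m)` and roots of unity.  Statements FROZEN.
-/
import Mathlib
import Fermat.Agent.S28L.LowDefs

set_option autoImplicit false
noncomputable section

namespace Fermat.Agent.S28L

open ModularCurve HahnSeries Polynomial

variable (k : Type) [Field k]

theorem LowS_zero (ξ : kˣ) : LowS k ξ 0 = 0 := by
  unfold LowS
  exact dif_pos rfl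

theorem LowS_eq (ξ : kˣ) (m : ℕ) [NeZero m] : LowS k ξ m = qExpand k m (tw ξ (jqModC k)) := by
  unfold LowS
  exact dif_neg (NeZero.ne m)

theorem LowS_one (m : ℕ) [NeZero m] : LowS k 1 m = qExpand k m (jqModC k) := by
  rw [LowS_eq, tw_one_unit]

theorem LowS_one_one : LowS k 1 1 = jqModC k := by
  rw [LowS_one, qExpand_one_apply]

/-- `V_n (j(ξ q^m)) = j(ξ q^(n m))` -/
theorem qExpand_LowS (n : ℕ) [NeZero n] (ξ : kˣ) (m : ℕ) :
    qExpand k n (LowS k ξ m) = LowS k ξ (n * m) := by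
  rcases eq_or_ne m 0 with rfl | hm
  · rw [Nat.mul_zero, LowS_zero, map_zero]
  · have : NeZero m := ⟨hm⟩
    rw [LowS_eq, LowS_eq, qExpand_qExpand]

/-- `j(ξ (η q)^m) = j(η^m ξ q^m)` -/
theorem tw_LowS (η ξ : kˣ) (m : ℕ) : tw η (LowS k ξ m) = LowS k (η ^ m * ξ) m := by
  rcases eq_or_ne m 0 with rfl | hm
  · rw [LowS_zero, LowS_zero, tw_zero]
  · have : NeZero m := ⟨hm⟩
    rw [LowS_eq, LowS_eq, tw_qExpand, tw_tw]

/-- the leading coefficient: `j(ξ q^m) = ξ⁻¹ q^(-m) + ⋯` -/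
theorem LowS_coeff_neg (ξ : kˣ) (m : ℕ) (hm : m ≠ 0) :
    (LowS k ξ m).coeff (-(m : ℤ)) = ((ξ⁻¹ : kˣ) : k) := by
  have : NeZero m := ⟨hm⟩
  rw [LowS_eq, show -(m : ℤ) = (m : ℤ) * (-1) by ring, qExpand_coeff_mul, tw_coeff,
    jqModC_coeff_neg_one, mul_one, zpow_neg_one]

theorem LowS_ne_zero (ξ : kˣ) (m : ℕ) (hm : m ≠ 0) : LowS k ξ m ≠ 0 := by
  intro h
  have h1 := LowS_coeff_neg k ξ m hm
  rw [h, HahnSeries.coeff_zero] at h1
  exact (Units.ne_zero (ξ⁻¹ : kˣ)) h1.symm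

/-- `j(ξ q^m) = j(ξ' q^m)` forces `ξ = ξ'` -/
theorem LowS_injective (ξ ξ' : kˣ) (m : ℕ) (hm : m ≠ 0) (h : LowS k ξ m = LowS k ξ' m) :
    ξ = ξ' := by
  have h1 := LowS_coeff_neg k ξ m hm
  rw [h, LowS_coeff_neg k ξ' m hm] at h1
  exact inv_injective (Units.ext h1).symm

theorem LowS_mem_range (ξ : kˣ) (m p : ℕ) [NeZero p] (h : p ∣ m) :
    LowS k ξ m ∈ Set.range (qExpand k p) := by
  obtain ⟨c, rfl⟩ := h
  exact ⟨LowS k ξ c, qExpand_LowS k p ξ c⟩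

theorem LowS_not_mem_range (ξ : kˣ) (m p : ℕ) [NeZero p] (hm : m ≠ 0) (h : ¬ p ∣ m) :
    LowS k ξ m ∉ Set.range (qExpand k p) := by
  rintro ⟨f, hf⟩
  have h1 := LowS_coeff_neg k ξ m hm
  rw [← hf, qExpand_coeff_of_not_dvd p f
    (by rw [dvd_neg, Int.natCast_dvd_natCast]; exact h)] at h1
  exact (Units.ne_zero (ξ⁻¹ : kˣ)) h1.symm

/-- a primitive `p`-th root of unity (as a unit), with the three properties we use -/
theorem Low_exists_zeta [IsAlgClosed k] (p : ℕ) [Fact p.Prime] (hp : (p : k) ≠ 0) :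
    ∃ ζ : kˣ, ζ ^ p = 1 ∧ (∑ i ∈ Finset.range p, ((ζ ^ i : kˣ) : k)) = 0 ∧
      ∀ b₁ < p, ∀ b₂ < p, ζ ^ b₁ = ζ ^ b₂ → b₁ = b₂ := by
  have : NeZero (p : k) := ⟨hp⟩
  have hp1 : 1 < p := (Fact.out : p.Prime).one_lt
  obtain ⟨z, hz⟩ := HasEnoughRootsOfUnity.exists_primitiveRoot k p
  have hp0 : p ≠ 0 := (Fact.out : p.Prime).ne_zero
  have hu : IsPrimitiveRoot (hz.isUnit hp0).unit p := hz.isUnit_unit hp0
  refine ⟨(hz.isUnit hp0).unit, hu.pow_eq_one, ?_, fun b₁ h₁ b₂ h₂ h => hu.pow_inj h₁ h₂ h⟩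
  simp only [Units.val_pow_eq_pow_val, IsUnit.unit_spec]
  exact hz.geom_sum_eq_zero hp1

theorem Low_exists_root [IsAlgClosed k] (ξ : kˣ) (n : ℕ) (hn : n ≠ 0) : ∃ η : kˣ, η ^ n = ξ := by
  obtain ⟨z, hz⟩ := IsAlgClosed.exists_pow_nat_eq (ξ : k) (Nat.pos_of_ne_zero hn)
  have hz0 : z ≠ 0 := by
    rintro rfl
    rw [zero_pow hn] at hz
    exact Units.ne_zero ξ hz.symm
  exact ⟨Units.mk0 z hz0, Units.ext (by rw [Units.val_pow_eq_pow_val, Units.val_mk0, hz])⟩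

end Fermat.Agent.S28L
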