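/-
S28, package P3a (owner: helper2), leaf "ModRel": the modular equation (B1) transported to the
special series.  Statements FROZEN.
-/
import Mathlib
import Fermat.Agent.S28L.LowSeries

set_option autoImplicit false
noncomputable section

namespace Fermat.Agent.S28L

open ModularCurve HahnSeries Polynomial

variable (k : Type) [Field k]

/-- compatibility of the double evaluation with ring homomorphisms -/
theorem LowMR_eval_map {A B : Type*} [CommRing A] [CommRing B] (Φ : Polynomial (Polynomial ℤ))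
    (φ : A →+* B) (x y : A) :
    φ ((ev2 Φ y).eval x) = (ev2 Φ (φ y)).eval (φ x) := by
  rw [← ev2_map, Polynomial.eval_map, Polynomial.eval₂_at_apply]

/-- (B1) under the substitution `q ↦ ξ q^e`:
`Φ_p(X, j(ξ^p q^(e p))) = (X - j(ξ^(p²) q^(e p²))) ∏_{b<p} (X - j(ζ^b ξ q^e))`. -/
theorem LowS_modPoly (p : ℕ) [Fact p.Prime] (ζ : kˣ)
    (hζ : (∑ i ∈ Finset.range p, ((ζ ^ i : kˣ) : k)) = 0) (ξ : kˣ) (e : ℕ) (he : e ≠ 0) :
    ev2 (LowPhi p) (LowS k (ξ ^ p) (e * p)) =
      (Polynomial.X - Polynomial.C (LowS k (ξ ^ (p * p)) (e * p * p))) *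
        ∏ b ∈ Finset.range p, (Polynomial.X - Polynomial.C (LowS k (ζ ^ b * ξ) e)) := by
  have hp0 : p ≠ 0 := (Fact.out : p.Prime).ne_zero
  have : NeZero e := ⟨he⟩
  have : NeZero p := ⟨hp0⟩
  have : NeZero (e * p) := ⟨mul_ne_zero he hp0⟩
  have : NeZero (p * p) := ⟨mul_ne_zero hp0 hp0⟩
  have : NeZero (e * (p * p)) := ⟨mul_ne_zero he (mul_ne_zero hp0 hp0)⟩
  have h := congrArg (Polynomial.map ((qExpand k e).comp (twHom ξ))) (LowPhi_spec p k ζ hζ)
  rw [ev2_map, Polynomial.map_mul, Polynomial.map_sub, Polynomial.map_X, Polynomial.map_C,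
    Polynomial.map_prod] at h
  have h1 : ((qExpand k e).comp (twHom ξ)) (qExpand k p (jqModC k)) =
      LowS k (ξ ^ p) (e * p) := by
    rw [RingHom.comp_apply, twHom_apply, tw_qExpand, qExpand_qExpand, LowS_eq]
  have h2 : ((qExpand k e).comp (twHom ξ)) (qExpand k (p * p) (jqModC k)) =
      LowS k (ξ ^ (p * p)) (e * p * p) := by
    rw [RingHom.comp_apply, twHom_apply, tw_qExpand, qExpand_qExpand, Nat.mul_assoc, LowS_eq]
  have h3 : ∀ b : ℕ, ((qExpand k e).comp (twHom ξ)) (tw (ζ ^ b) (jqModC k)) =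
      LowS k (ζ ^ b * ξ) e := by
    intro b
    rw [RingHom.comp_apply, twHom_apply, tw_tw, mul_comm, LowS_eq]
  rw [h1, h2] at h
  rw [h]
  congr 1
  refine Finset.prod_congr rfl fun b _ => ?_
  rw [Polynomial.map_sub, Polynomial.map_X, Polynomial.map_C, h3]

/-- `Φ_p(j(q^(e p)), j(q^e)) = 0` -/
theorem Low_Phi_rel [IsAlgClosed k] (p : ℕ) [Fact p.Prime] (hp : (p : k) ≠ 0) (e : ℕ)
    (he : e ≠ 0) :
    (ev2 (LowPhi p) (LowS k 1 e)).eval (LowS k 1 (e * p)) = 0 := by
  have hp0 : p ≠ 0 := (Fact.out : p.Prime).ne_zero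
  have : NeZero e := ⟨he⟩
  have : NeZero p := ⟨hp0⟩
  have : NeZero (e * p) := ⟨mul_ne_zero he hp0⟩
  have : NeZero (p * p) := ⟨mul_ne_zero hp0 hp0⟩
  obtain ⟨ζ, -, hζ, -⟩ := Low_exists_zeta k p hp
  have h1 : (ev2 (LowPhi p) (qExpand k p (jqModC k))).eval
      (qExpand k (p * p) (jqModC k)) = 0 := by
    rw [LowPhi_spec p k ζ hζ, Polynomial.eval_mul, Polynomial.eval_sub, Polynomial.eval_X,
      Polynomial.eval_C, sub_self, zero_mul]
  have h2 : (ev2 (LowPhi p) (jqModC k)).eval (qExpand k p (jqModC k)) = 0 := by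
    apply qExpand_injective (R := k) p
    rw [LowMR_eval_map, qExpand_qExpand, h1, map_zero]
  have h3 := LowMR_eval_map (LowPhi p) (qExpand k e) (qExpand k p (jqModC k)) (jqModC k)
  rw [h2, map_zero, qExpand_qExpand] at h3
  rw [LowS_one, LowS_one, ← h3]

end Fermat.Agent.S28L
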