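/-
S28, package P3a (owner: helper2), leaf "NotMem" (C1): `j(q^p) ∉ k(j)` for `p ≠ char k`.
Statements FROZEN.
-/
import Mathlib
import Fermat.Agent.S28L.LowSeries
import Fermat.Agent.S28L.LowIntegral

set_option autoImplicit false
noncomputable section

namespace Fermat.Agent.S28L

open ModularCurve HahnSeries Polynomial

/-- `θ` maps `k(j)` into `k(j) · θ j`. -/
theorem Low_theta_mem (k : Type) [Field k] (x : LaurentSeries k)
    (hx : x ∈ IntermediateField.adjoin k {jqModC k}) :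
    ∃ c ∈ IntermediateField.adjoin k {jqModC k}, theta x = c * theta (jqModC k) := by
  induction hx using IntermediateField.adjoin_induction with
  | mem x hx =>
    rw [Set.mem_singleton_iff] at hx
    subst hx
    exact ⟨1, one_mem _, (one_mul _).symm⟩
  | algebraMap a =>
    exact ⟨0, zero_mem _, by rw [theta_algebraMap, zero_mul]⟩
  | add x y hx hy ihx ihy =>
    obtain ⟨c, hc, hcx⟩ := ihx
    obtain ⟨d, hd, hdy⟩ := ihy
    exact ⟨c + d, add_mem hc hd, by rw [theta_add, hcx, hdy, add_mul]⟩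
  | mul x y hx hy ihx ihy =>
    obtain ⟨c, hc, hcx⟩ := ihx
    obtain ⟨d, hd, hdy⟩ := ihy
    exact ⟨c * y + x * d, add_mem (mul_mem hc hy) (mul_mem hx hd), by
      rw [theta_mul, hcx, hdy]; ring⟩
  | inv x hx ihx =>
    obtain ⟨c, hc, hcx⟩ := ihx
    rcases eq_or_ne x 0 with rfl | hx0
    · exact ⟨0, zero_mem _, by rw [inv_zero, theta_zero, zero_mul]⟩
    · refine ⟨-c * x⁻¹ * x⁻¹, mul_mem (mul_mem (neg_mem hc) (inv_mem hx)) (inv_mem hx), ?_⟩
      have h1 : theta (x * x⁻¹) = 0 := by rw [mul_inv_cancel₀ hx0, theta_one]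
      rw [theta_mul, hcx] at h1
      have h2 : theta x⁻¹ = -(c * theta (jqModC k) * x⁻¹) * x⁻¹ := by
        have : x * theta x⁻¹ = -(c * theta (jqModC k) * x⁻¹) := by
          rw [eq_neg_iff_add_eq_zero, add_comm]; exact h1
        rw [← this, mul_comm x, mul_assoc, mul_inv_cancel₀ hx0, mul_one]
      rw [h2]; ring

theorem LowNM_natCast_ne_zero (k : Type) [Field k] (p : ℕ) (hp : (p : k) ≠ 0) :
    (p : LaurentSeries k) ≠ 0 := by
  intro h
  apply hp
  apply (algebraMap k (LaurentSeries k)).injective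
  rw [map_natCast, h, map_zero]

theorem LowNM_sub_ne_zero (k : Type) [Field k] (p : ℕ) [NeZero p] :
    qExpand k p (jqModC k) - 1728 ≠ 0 := by
  intro h
  have h1 : (qExpand k p (jqModC k) - 1728).coeff ((p : ℤ) * (-1)) = 1 := by
    have h2 : (1728 : LaurentSeries k) = HahnSeries.C (1728 : k) :=
      (map_ofNat HahnSeries.C 1728).symm
    have hp0 : (p : ℤ) * (-1) ≠ 0 := by
      have := NeZero.ne p
      omega
    rw [HahnSeries.coeff_sub, qExpand_coeff_mul, jqModC_coeff_neg_one, h2, HahnSeries.C_apply,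
      HahnSeries.coeff_single_of_ne hp0, sub_zero]
  rw [h] at h1
  simp at h1

theorem LowNM_DeltaRInv_order (k : Type) [Field k] : (DeltaRInv k).order = -1 := by
  have h0 : DeltaRInv k ≠ 0 := by
    intro h
    have := DeltaR_mul_DeltaRInv k
    rw [h, mul_zero] at this
    exact zero_ne_one this
  have h1 := HahnSeries.order_mul (DeltaR_ne_zero k) h0
  rw [DeltaR_mul_DeltaRInv, HahnSeries.order_one, DeltaR_order] at h1
  omega

/-- the unit `u = Δ(q^p)/Δ(q)` has vanishing coefficients in degrees `≤ 0` -/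
theorem LowNM_u_coeff (k : Type) [Field k] (p : ℕ) [NeZero p] (hp : 2 ≤ p) :
    qExpand k p (DeltaR k) * DeltaRInv k ≠ 0 ∧
    ∀ n : ℤ, n ≤ 0 → (qExpand k p (DeltaR k) * DeltaRInv k).coeff n = 0 := by
  have h0 : DeltaRInv k ≠ 0 := by
    intro h
    have := DeltaR_mul_DeltaRInv k
    rw [h, mul_zero] at this
    exact zero_ne_one this
  have h1 : qExpand k p (DeltaR k) ≠ 0 := qExpand_ne_zero p (DeltaR_ne_zero k)
  refine ⟨mul_ne_zero h1 h0, fun n hn => ?_⟩
  apply HahnSeries.coeff_eq_zero_of_lt_order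
  rw [HahnSeries.order_mul h1 h0, qExpand_order, DeltaR_order, LowNM_DeltaRInv_order]
  have : (2 : ℤ) ≤ p := by exact_mod_cast hp
  omega

/-- integrality of `u` over `k[j]` -/
theorem LowNM_u_integral (k : Type) [Field k] (p : ℕ) [Fact p.Prime] (hp : (p : k) ≠ 0)
    (u : LaurentSeries k) (hu : u * DeltaR k = qExpand k p (DeltaR k)) :
    IsIntegral (Algebra.adjoin k {jqModC k}) u := by
  obtain ⟨P, m, hlc, hP⟩ := exists_uPoly p
  have hroot := hP k u hu
  set A := Algebra.adjoin k {jqModC k} with hA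
  let Ja : A := ⟨jqModC k, Algebra.subset_adjoin (Set.mem_singleton _)⟩
  have hmap : (ev2 P Ja).map (algebraMap A (LaurentSeries k)) = ev2 P (jqModC k) := by
    rw [ev2_map]; rfl
  have haeval : aeval u (ev2 P Ja) = 0 := by
    rw [aeval_def, ← eval_map, hmap, hroot]
  have hcast : (((p : ℤ) ^ m : ℤ) : A) = algebraMap k A ((p : k) ^ m) := by
    simp
  have hunit : IsUnit (((p : ℤ) ^ m : ℤ) : A) := by
    rw [hcast]
    exact (IsUnit.mk0 _ (pow_ne_zero m hp)).map _
  have hl := (ev2_leadingCoeff_of_C hlc hunit.ne_zero Ja).1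
  have hint := isIntegral_leadingCoeff_smul (ev2 P Ja) u haeval
  rw [hl] at hint
  obtain ⟨b, hb⟩ := hunit.exists_right_inv
  have hu2 : u = algebraMap A (LaurentSeries k) b *
      ((((p : ℤ) ^ m : ℤ) : A) • u) := by
    rw [Algebra.smul_def, ← mul_assoc, ← map_mul, mul_comm b, hb, map_one, one_mul]
  rw [hu2]
  exact isIntegral_algebraMap.mul hint

/-- `u ∈ k(j)` as soon as `j(q^p) ∈ k(j)` -/
theorem LowNM_u_mem (k : Type) [Field k] (p : ℕ) [NeZero p] (hp : (p : k) ≠ 0)
    (h : qExpand k p (jqModC k) ∈ IntermediateField.adjoin k {jqModC k}) :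
    qExpand k p (DeltaR k) * DeltaRInv k ∈ IntermediateField.adjoin k {jqModC k} := by
  obtain ⟨c, hc, hth⟩ := Low_theta_mem k _ h
  have hJ : jqModC k ∈ IntermediateField.adjoin k {jqModC k} :=
    IntermediateField.subset_adjoin k _ (Set.mem_singleton _)
  have hpL := LowNM_natCast_ne_zero k p hp
  have hJp : qExpand k p (jqModC k) ≠ 0 := qExpand_ne_zero p (jqModC_ne_zero_of_nontrivial k)
  have hJp' := LowNM_sub_ne_zero k p
  rw [theta_qExpand] at hth
  have h6 := congrArg (fun x => x ^ 6) hth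
  simp only [mul_pow] at h6
  rw [← map_pow, theta_jq_pow_six, map_mul, map_mul, map_pow, map_pow, map_sub, map_ofNat] at h6
  set Jp := qExpand k p (jqModC k) with hJpdef
  set J := jqModC k with hJdef
  set u := qExpand k p (DeltaR k) * DeltaRInv k with hu
  have huD : qExpand k p (DeltaR k) = u * DeltaR k := by
    rw [hu, mul_assoc, DeltaRInv_mul_DeltaR, mul_one]
  rw [huD] at h6
  have hden : (p : LaurentSeries k) ^ 6 * (Jp ^ 4 * (Jp - 1728) ^ 3) ≠ 0 :=
    mul_ne_zero (pow_ne_zero _ hpL) (mul_ne_zero (pow_ne_zero _ hJp) (pow_ne_zero _ hJp'))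
  have hueq : u = c ^ 6 * (J ^ 4 * (J - 1728) ^ 3) *
      ((p : LaurentSeries k) ^ 6 * (Jp ^ 4 * (Jp - 1728) ^ 3))⁻¹ := by
    rw [eq_mul_inv_iff_mul_eq₀ hden]
    apply DeltaR_mul_cancel
    linear_combination h6
  rw [hueq]
  have h1728 : (1728 : LaurentSeries k) ∈ IntermediateField.adjoin k {J} := ofNat_mem _ 1728
  exact mul_mem (mul_mem (pow_mem hc 6) (mul_mem (pow_mem hJ 4) (pow_mem (sub_mem hJ h1728) 3)))
    (inv_mem (mul_mem (pow_mem (natCast_mem _ p) 6)
      (mul_mem (pow_mem h 4) (pow_mem (sub_mem h h1728) 3))))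

/-- (C1) -/
theorem Low_jp_not_mem (k : Type) [Field k] (p : ℕ) [Fact p.Prime] (hp : (p : k) ≠ 0) :
    qExpand k p (jqModC k) ∉ IntermediateField.adjoin k {jqModC k} := by
  intro h
  have hmem := LowNM_u_mem k p hp h
  have hint := LowNM_u_integral k p hp (qExpand k p (DeltaR k) * DeltaRInv k)
    (by rw [mul_assoc, DeltaRInv_mul_DeltaR, mul_one])
  obtain ⟨hne, hcoeff⟩ := LowNM_u_coeff k p (Fact.out : p.Prime).two_le
  exact hne (Low_eq_zero_of_integral k _ hmem hint hcoeff)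

end Fermat.Agent.S28L
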