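/-
S28, package P3a (owner: helper2), leaf "Orbit": abstract field theory (orbit argument and
degrees).  Statements FROZEN.
-/
import Mathlib

set_option autoImplicit false
noncomputable section

namespace Fermat.Agent.S28L

open Polynomial IntermediateField

/-- If `a` has `p` pairwise distinct images `r b = τ_b a` under ring endomorphisms `τ_b` of `L`
fixing the subfield `E` pointwise, then `a` has degree at least `p` over `E`. -/
theorem Low_orbit_le_natDegree {k L : Type*} [Field k] [Field L] [Algebra k L]
    (E : IntermediateField k L) (a : L) (ha : IsIntegral E a) (p : ℕ) (r : ℕ → L)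
    (hr : ∀ b < p, ∃ τ : L →+* L, (∀ x ∈ E, τ x = x) ∧ τ a = r b)
    (hinj : ∀ b₁ < p, ∀ b₂ < p, r b₁ = r b₂ → b₁ = b₂) :
    p ≤ (minpoly E a).natDegree := by
  classical
  have hm0 : minpoly E a ≠ 0 := minpoly.ne_zero ha
  have hmap0 : (minpoly E a).map (algebraMap E L) ≠ 0 := Polynomial.map_ne_zero hm0
  have hroot : ∀ b < p, ((minpoly E a).map (algebraMap E L)).IsRoot (r b) := by
    intro b hb
    obtain ⟨τ, hτ, hτa⟩ := hr b hb
    have h1 : Polynomial.eval₂ (algebraMap E L) a (minpoly E a) = 0 := minpoly.aeval E a
    have h2 : τ.comp (algebraMap E L) = algebraMap E L := RingHom.ext fun x => hτ _ x.2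
    have h3 := Polynomial.hom_eval₂ (minpoly E a) (algebraMap E L) τ a
    rw [h1, map_zero, h2, hτa] at h3
    rw [Polynomial.IsRoot, Polynomial.eval_map]
    exact h3.symm
  have hsub : (Finset.range p).image r ⊆ ((minpoly E a).map (algebraMap E L)).roots.toFinset := by
    intro x hx
    obtain ⟨b, hb, rfl⟩ := Finset.mem_image.mp hx
    rw [Multiset.mem_toFinset, Polynomial.mem_roots hmap0]
    exact hroot b (Finset.mem_range.mp hb)
  have hcard : ((Finset.range p).image r).card = p := by
    rw [Finset.card_image_of_injOn, Finset.card_range]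
    intro b₁ h₁ b₂ h₂ h
    exact hinj b₁ (Finset.mem_range.mp h₁) b₂ (Finset.mem_range.mp h₂) h
  calc p = ((Finset.range p).image r).card := hcard.symm
    _ ≤ ((minpoly E a).map (algebraMap E L)).roots.toFinset.card := Finset.card_le_card hsub
    _ ≤ Multiset.card ((minpoly E a).map (algebraMap E L)).roots := Multiset.toFinset_card_le _
    _ ≤ ((minpoly E a).map (algebraMap E L)).natDegree := Polynomial.card_roots' _
    _ = (minpoly E a).natDegree := Polynomial.natDegree_map _

/-- Orbit criterion for irreducibility: a monic `P ∈ E[X]` with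
`P = (X - c) ∏_{b<p} (X - r b)` over `L`, where the `r b` are pairwise distinct and are the images
of `r 0` under ring endomorphisms of `L` fixing `E` pointwise, and `c ∉ E`, is irreducible. -/
theorem Low_orbit_irreducible {k L : Type*} [Field k] [Field L] [Algebra k L]
    (E : IntermediateField k L) (P : Polynomial E) (hP : P.Monic) (p : ℕ) (hp : 0 < p) (c : L)
    (r : ℕ → L)
    (hfac : P.map (algebraMap E L) =
      (Polynomial.X - Polynomial.C c) * ∏ b ∈ Finset.range p, (Polynomial.X - Polynomial.C (r b)))
    (hr : ∀ b < p, ∃ τ : L →+* L, (∀ x ∈ E, τ x = x) ∧ τ (r 0) = r b)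
    (hinj : ∀ b₁ < p, ∀ b₂ < p, r b₁ = r b₂ → b₁ = b₂)
    (hc : c ∉ E) : Irreducible P := by
  classical
  set G : Polynomial L := ∏ b ∈ Finset.range p, (Polynomial.X - Polynomial.C (r b)) with hG
  have hGmonic : G.Monic := Polynomial.monic_prod_of_monic _ _ fun b _ => Polynomial.monic_X_sub_C _
  have hGdeg : G.natDegree = p := by
    rw [hG, Polynomial.natDegree_finsetProd_X_sub_C_eq_card, Finset.card_range]
  have hPdeg : P.natDegree = p + 1 := by
    have h := congrArg Polynomial.natDegree hfac
    rw [Polynomial.natDegree_map, (Polynomial.monic_X_sub_C c).natDegree_mul hGmonic,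
      Polynomial.natDegree_X_sub_C, hGdeg] at h
    omega
  -- r 0 is a root of P
  have hroot0 : Polynomial.aeval (r 0) P = 0 := by
    rw [Polynomial.aeval_def, ← Polynomial.eval_map, hfac, Polynomial.eval_mul, hG,
      Polynomial.eval_prod]
    rw [Finset.prod_eq_zero (Finset.mem_range.mpr hp) (by simp), mul_zero]
  have ha : IsIntegral E (r 0) := ⟨P, hP, hroot0⟩
  have hle := Low_orbit_le_natDegree E (r 0) ha p r hr hinj
  have hmmonic : (minpoly E (r 0)).Monic := minpoly.monic ha
  obtain ⟨Q, hQ⟩ := minpoly.dvd E (r 0) hroot0
  have hQmonic : Q.Monic := hmmonic.of_mul_monic_left (hQ ▸ hP)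
  have hdeg : (minpoly E (r 0)).natDegree + Q.natDegree = p + 1 := by
    rw [← hmmonic.natDegree_mul hQmonic, ← hQ, hPdeg]
  rcases Nat.eq_or_lt_of_le hle with heq | hlt
  · -- degree p: contradiction
    exfalso
    have hdvd : G ∣ (minpoly E (r 0)).map (algebraMap E L) := by
      rw [hG]
      refine Finset.prod_dvd_of_coprime ?_ ?_
      · intro b₁ h₁ b₂ h₂ hne
        refine Polynomial.isCoprime_X_sub_C_of_isUnit_sub ?_
        rw [isUnit_iff_ne_zero, sub_ne_zero]
        intro h
        exact hne (hinj b₁ (Finset.mem_range.mp h₁) b₂ (Finset.mem_range.mp h₂) h)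
      · intro b hb
        rw [Polynomial.dvd_iff_isRoot]
        obtain ⟨τ, hτ, hτa⟩ := hr b (Finset.mem_range.mp hb)
        have h1 : Polynomial.eval₂ (algebraMap E L) (r 0) (minpoly E (r 0)) = 0 :=
          minpoly.aeval E (r 0)
        have h2 : τ.comp (algebraMap E L) = algebraMap E L := RingHom.ext fun x => hτ _ x.2
        have h3 := Polynomial.hom_eval₂ (minpoly E (r 0)) (algebraMap E L) τ (r 0)
        rw [h1, map_zero, h2, hτa] at h3
        rw [Polynomial.IsRoot, Polynomial.eval_map]
        exact h3.symm
    have hmG : (minpoly E (r 0)).map (algebraMap E L) = G := by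
      refine Polynomial.eq_of_monic_of_dvd_of_natDegree_le hGmonic (hmmonic.map _) hdvd ?_
      rw [Polynomial.natDegree_map, hGdeg, heq]
    have h : Polynomial.map (algebraMap E L) Q * G = (Polynomial.X - Polynomial.C c) * G := by
      rw [← hfac, hQ, Polynomial.map_mul, hmG, mul_comm]
    have h' : Polynomial.map (algebraMap E L) Q = Polynomial.X - Polynomial.C c :=
      mul_right_cancel₀ hGmonic.ne_zero h
    have h0 : algebraMap E L (Q.coeff 0) = -c := by
      have := congrArg (fun f => Polynomial.coeff f 0) h'
      simpa [Polynomial.coeff_map] using this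
    apply hc
    have hc' : c = algebraMap E L (-(Q.coeff 0)) := by
      rw [map_neg, h0, neg_neg]
    rw [hc']
    exact (-(Q.coeff 0)).2
  · have hQdeg : Q.natDegree = 0 := by omega
    have hQ1 : Q = 1 := hQmonic.natDegree_eq_zero.mp hQdeg
    rw [hQ, hQ1, mul_one]
    exact minpoly.irreducible ha

/-- rank of a simple extension over its base field -/
theorem LowRk_rank_adjoin {K L : Type*} [Field K] [Field L] [Algebra K L] (x : L)
    (hint : IsIntegral K x) :
    Module.rank K (IntermediateField.adjoin K {x}) = ((minpoly K x).natDegree : Cardinal) := by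
  have : FiniteDimensional K (IntermediateField.adjoin K {x}) :=
    IntermediateField.adjoin.finiteDimensional hint
  rw [← Module.finrank_eq_rank, IntermediateField.adjoin.finrank hint]

/-- rank is monotone in the intermediate field -/
theorem LowRk_rank_mono {K L : Type*} [Field K] [Field L] [Algebra K L]
    (E F : IntermediateField K L) (h : E ≤ F) : Module.rank K E ≤ Module.rank K F :=
  LinearMap.rank_le_of_injective (IntermediateField.inclusion h).toLinearMap
    (IntermediateField.inclusion_injective h)

/-- degree of an element as a lower bound for the relative rank -/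
theorem Low_natDegree_le_relrank {k L : Type*} [Field k] [Field L] [Algebra k L]
    (A B : IntermediateField k L) (hAB : A ≤ B) (x : L) (hx : x ∈ B) (hint : IsIntegral A x) :
    ((minpoly A x).natDegree : Cardinal) ≤ IntermediateField.relrank A B := by
  rw [IntermediateField.relrank_eq_rank_of_le hAB, ← LowRk_rank_adjoin x hint]
  apply LowRk_rank_mono
  rw [IntermediateField.adjoin_simple_le_iff]
  exact hx

/-- the relative rank of a simple extension -/
theorem Low_relrank_sup_adjoin {k L : Type*} [Field k] [Field L] [Algebra k L]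
    (A : IntermediateField k L) (x : L) (hint : IsIntegral A x) :
    IntermediateField.relrank A (A ⊔ IntermediateField.adjoin k {x}) =
      ((minpoly A x).natDegree : Cardinal) := by
  have h : A ≤ A ⊔ IntermediateField.adjoin k {x} := le_sup_left
  have he : IntermediateField.extendScalars h = IntermediateField.adjoin A {x} := by
    apply IntermediateField.restrictScalars_injective k
    rw [IntermediateField.extendScalars_restrictScalars,
      IntermediateField.restrictScalars_adjoin_eq_sup]
  rw [IntermediateField.relrank_eq_rank_of_le h, he, LowRk_rank_adjoin x hint]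

end Fermat.Agent.S28L
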