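/-
S28, package P3a (owner: helper2), leaf "Irr" (C2): `Φ_p(X, j(q^(e p)))` is irreducible over
`k(j(q^(e p)))`; it is the minimal polynomial of `j(q^(e p²))` and of `j(q^e)`.  Statements FROZEN.
-/
import Mathlib
import Fermat.Agent.S28L.LowModRel
import Fermat.Agent.S28L.LowOrbit
import Fermat.Agent.S28L.LowNotMem

set_option autoImplicit false
noncomputable section

namespace Fermat.Agent.S28L

open ModularCurve HahnSeries Polynomial

variable (k : Type) [Field k]

/-- `j(q^(e p²)) ∉ k(j(q^(e p)))` -/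
theorem LowIrr_not_mem (p : ℕ) [Fact p.Prime] (hp : (p : k) ≠ 0) (e : ℕ) (he : e ≠ 0) :
    LowS k 1 (e * p * p) ∉ IntermediateField.adjoin k {LowS k 1 (e * p)} := by
  have : NeZero e := ⟨he⟩
  intro hmem
  have h1 : LowS k 1 (e * p) = qExpandAlgHomC k (e * p) (jqModC k) := by
    rw [qExpandAlgHomC_apply, LowS_one]
  have h2 : LowS k 1 (e * p * p) = qExpandAlgHomC k (e * p) (qExpand k p (jqModC k)) := by
    rw [qExpandAlgHomC_apply, ← LowS_one k p, qExpand_LowS]
  have h3 : IntermediateField.adjoin k {LowS k 1 (e * p)} =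
      (IntermediateField.adjoin k {jqModC k}).map (qExpandAlgHomC k (e * p)) := by
    rw [IntermediateField.adjoin_map, Set.image_singleton, h1]
  rw [h3, h2] at hmem
  obtain ⟨z, hz, hzeq⟩ := hmem
  have hzeq' : qExpand k (e * p) z = qExpand k (e * p) (qExpand k p (jqModC k)) := hzeq
  rw [qExpand_injective (e * p) hzeq'] at hz
  exact Low_jp_not_mem k p hp hz

/-- the common core: the polynomial over `E = k(j(q^(e p)))`, irreducible, with its two roots -/
theorem LowIrr_core [IsAlgClosed k] (p : ℕ) [Fact p.Prime] (hp : (p : k) ≠ 0) (e : ℕ)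
    (he : e ≠ 0) :
    ∃ P : Polynomial (IntermediateField.adjoin k {LowS k 1 (e * p)}), Irreducible P ∧ P.Monic ∧
      P.map (algebraMap (IntermediateField.adjoin k {LowS k 1 (e * p)}) (LaurentSeries k)) =
        ev2 (LowPhi p) (LowS k 1 (e * p)) ∧
      Polynomial.aeval (LowS k 1 (e * p * p)) P = 0 ∧ Polynomial.aeval (LowS k 1 e) P = 0 := by
  have hp0 : 0 < p := (Fact.out : p.Prime).pos
  obtain ⟨ζ, hζp, hζsum, hζinj⟩ := Low_exists_zeta k p hp
  obtain ⟨η, hη⟩ := Low_exists_root k ζ e he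
  set E := IntermediateField.adjoin k {LowS k 1 (e * p)} with hE
  let y : E := ⟨LowS k 1 (e * p), IntermediateField.subset_adjoin k _ (Set.mem_singleton _)⟩
  have hmonic : (ev2 (LowPhi p) y).Monic := ev2_monic (LowPhi_monic p) y
  have hmap : (ev2 (LowPhi p) y).map (algebraMap E (LaurentSeries k)) =
      ev2 (LowPhi p) (LowS k 1 (e * p)) := by
    rw [ev2_map]; rfl
  have hfac : ev2 (LowPhi p) (LowS k 1 (e * p)) =
      (Polynomial.X - Polynomial.C (LowS k 1 (e * p * p))) *
        ∏ b ∈ Finset.range p, (Polynomial.X - Polynomial.C (LowS k (ζ ^ b) e)) := by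
    have h := LowS_modPoly k p ζ hζsum 1 e he
    simp only [one_pow, mul_one] at h
    exact h
  have hr : ∀ b < p, ∃ τ : LaurentSeries k →+* LaurentSeries k,
      (∀ x ∈ E, τ x = x) ∧ τ (LowS k (ζ ^ 0) e) = LowS k (ζ ^ b) e := by
    intro b _
    refine ⟨twHom (η ^ b), ?_, ?_⟩
    · intro x hx
      induction hx using IntermediateField.adjoin_induction with
      | mem x hx =>
        rw [Set.mem_singleton_iff] at hx
        rw [hx, twHom_apply, tw_LowS]
        have h1 : (η ^ b) ^ (e * p) = 1 := by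
          rw [← pow_mul, mul_comm b, mul_assoc, pow_mul, pow_mul, hη, hζp, one_pow]
        rw [h1, one_mul]
      | algebraMap a => rw [twHom_apply, tw_algebraMap]
      | add x y _ _ hx hy => rw [map_add, hx, hy]
      | inv x _ hx => rw [map_inv₀, hx]
      | mul x y _ _ hx hy => rw [map_mul, hx, hy]
    · rw [twHom_apply, tw_LowS, pow_zero, mul_one, ← pow_mul, mul_comm b, pow_mul, hη]
  have hinj : ∀ b₁ < p, ∀ b₂ < p, LowS k (ζ ^ b₁) e = LowS k (ζ ^ b₂) e → b₁ = b₂ :=
    fun b₁ h₁ b₂ h₂ h => hζinj b₁ h₁ b₂ h₂ (LowS_injective k _ _ e he h)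
  have hirr : Irreducible (ev2 (LowPhi p) y) :=
    Low_orbit_irreducible E (ev2 (LowPhi p) y) hmonic p hp0 (LowS k 1 (e * p * p))
      (fun b => LowS k (ζ ^ b) e) (hmap.trans hfac) hr hinj (LowIrr_not_mem k p hp e he)
  refine ⟨ev2 (LowPhi p) y, hirr, hmonic, hmap, ?_, ?_⟩
  · rw [Polynomial.aeval_def, Polynomial.eval₂_eq_eval_map, hmap, hfac, Polynomial.eval_mul,
      Polynomial.eval_sub, Polynomial.eval_X, Polynomial.eval_C, sub_self, zero_mul]
  · rw [Polynomial.aeval_def, Polynomial.eval₂_eq_eval_map, hmap, hfac, Polynomial.eval_mul,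
      Polynomial.eval_prod]
    have h0 : ∏ b ∈ Finset.range p,
        Polynomial.eval (LowS k 1 e) (Polynomial.X - Polynomial.C (LowS k (ζ ^ b) e)) = 0 := by
      refine Finset.prod_eq_zero (Finset.mem_range.mpr hp0) ?_
      rw [pow_zero, Polynomial.eval_sub, Polynomial.eval_X, Polynomial.eval_C, sub_self]
    rw [h0, mul_zero]

theorem Low_minpoly_pp [IsAlgClosed k] (p : ℕ) [Fact p.Prime] (hp : (p : k) ≠ 0) (e : ℕ)
    (he : e ≠ 0) :
    (minpoly (IntermediateField.adjoin k {LowS k 1 (e * p)}) (LowS k 1 (e * p * p))).map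
        (algebraMap (IntermediateField.adjoin k {LowS k 1 (e * p)}) (LaurentSeries k)) =
      ev2 (LowPhi p) (LowS k 1 (e * p)) := by
  obtain ⟨P, hirr, hmonic, hmap, hroot, -⟩ := LowIrr_core k p hp e he
  rw [← minpoly.eq_of_irreducible_of_monic hirr hroot hmonic, hmap]

theorem Low_minpoly_e [IsAlgClosed k] (p : ℕ) [Fact p.Prime] (hp : (p : k) ≠ 0) (e : ℕ)
    (he : e ≠ 0) :
    (minpoly (IntermediateField.adjoin k {LowS k 1 (e * p)}) (LowS k 1 e)).map
        (algebraMap (IntermediateField.adjoin k {LowS k 1 (e * p)}) (LaurentSeries k)) =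
      ev2 (LowPhi p) (LowS k 1 (e * p)) := by
  obtain ⟨P, hirr, hmonic, hmap, -, hroot⟩ := LowIrr_core k p hp e he
  rw [← minpoly.eq_of_irreducible_of_monic hirr hroot hmonic, hmap]

end Fermat.Agent.S28L
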