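/-
S28, package P3a (owner: helper2): prime-level facts in characteristic `ℓ` -- aggregator of the
leaf files (interface for package P3b).
-/
import Fermat.Agent.S28L.LowDefs
import Fermat.Agent.S28L.LowSeries
import Fermat.Agent.S28L.LowModRel
import Fermat.Agent.S28L.LowOrbit
import Fermat.Agent.S28L.LowIntegral
import Fermat.Agent.S28L.LowNotMem
import Fermat.Agent.S28L.LowIrr
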