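/-
S28, package P3b (owner: helper6), leaf "Chain": roots of `Φ_r(X, j(ξ q^m))` are special series,
and `j(q^(e d))` is integral over `k(j(q^e))`.  Statements FROZEN.
-/
import Mathlib
import Fermat.Agent.S28L.LowPrime

set_option autoImplicit false
noncomputable section

namespace Fermat.Agent.S28L

open ModularCurve HahnSeries Polynomial

/-- If `D r ∣ m`, every root (in any field `Ω` receiving `k((q))`) of `Φ_r(X, j(ξ q^m))` is a special
series `j(ξ' q^m')` with `D ∣ m'` (namely `m' = m r` or `m' = m / r`). -/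
theorem Low_special_step (k : Type) [Field k] [IsAlgClosed k] (r : ℕ) [Fact r.Prime]
    (hr : (r : k) ≠ 0) (ξ : kˣ) (m D : ℕ) (hm : m ≠ 0) (hD : D * r ∣ m)
    {Ω : Type*} [Field Ω] (ι : LaurentSeries k →+* Ω) (y : Ω)
    (hy : ((ev2 (LowPhi r) (LowS k ξ m)).map ι).eval y = 0) :
    ∃ (ξ' : kˣ) (m' : ℕ), m' ≠ 0 ∧ D ∣ m' ∧ y = ι (LowS k ξ' m') := by
  have hrp : r.Prime := Fact.out
  obtain ⟨e, rfl⟩ : ∃ e, m = e * r := by
    obtain ⟨c, hc⟩ := hD
    exact ⟨D * c, by rw [hc]; ring⟩
  have he : e ≠ 0 := left_ne_zero_of_mul hm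
  have hDe : D ∣ e := by
    have h1 : D * r ∣ e * r := hD
    exact Nat.dvd_of_mul_dvd_mul_right hrp.pos h1
  obtain ⟨ζ, -, hζ, -⟩ := Low_exists_zeta k r hr
  obtain ⟨ξ1, rfl⟩ := Low_exists_root k ξ r hrp.ne_zero
  rw [LowS_modPoly k r ζ hζ ξ1 e he, Polynomial.map_mul, Polynomial.map_sub, Polynomial.map_X,
    Polynomial.map_C, Polynomial.map_prod, Polynomial.eval_mul, Polynomial.eval_sub,
    Polynomial.eval_X, Polynomial.eval_C, Polynomial.eval_prod, mul_eq_zero,
    Finset.prod_eq_zero_iff] at hy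
  rcases hy with hy | ⟨b, -, hb⟩
  · exact ⟨ξ1 ^ (r * r), e * r * r, mul_ne_zero hm hrp.ne_zero,
      (hDe.mul_right r).mul_right r, sub_eq_zero.mp hy⟩
  · rw [Polynomial.map_sub, Polynomial.map_X, Polynomial.map_C, Polynomial.eval_sub,
      Polynomial.eval_X, Polynomial.eval_C] at hb
    exact ⟨ζ ^ b * ξ1, e, he, hDe, sub_eq_zero.mp hb⟩

/-- `j(q^(e d))` is integral over `k(j(q^e))` when `d` is invertible in `k`. -/
theorem Low_S_isIntegral (k : Type) [Field k] [IsAlgClosed k] (e : ℕ) (he : e ≠ 0) (d : ℕ)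
    (hd : ((d : ℕ) : k) ≠ 0) :
    IsIntegral (IntermediateField.adjoin k {LowS k 1 e}) (LowS k 1 (e * d)) := by
  induction d using Nat.strong_induction_on with
  | _ d ih =>
    rcases eq_or_ne d 1 with rfl | hd1
    · rw [mul_one]
      have h : LowS k 1 e ∈ IntermediateField.adjoin k {LowS k 1 e} :=
        IntermediateField.subset_adjoin k _ rfl
      exact isIntegral_algebraMap (x := (⟨_, h⟩ : IntermediateField.adjoin k {LowS k 1 e}))
    · have hr : d.minFac.Prime := Nat.minFac_prime hd1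
      have : Fact d.minFac.Prime := ⟨hr⟩
      obtain ⟨d', hd'⟩ : ∃ d', d = d' * d.minFac :=
        ⟨d / d.minFac, (Nat.div_mul_cancel (Nat.minFac_dvd d)).symm⟩
      generalize d.minFac = r at hr this hd'
      subst hd'
      rw [Nat.cast_mul] at hd
      have hd'k : ((d' : ℕ) : k) ≠ 0 := left_ne_zero_of_mul hd
      have hrk : ((r : ℕ) : k) ≠ 0 := right_ne_zero_of_mul hd
      have hd'0 : d' ≠ 0 := by
        rintro rfl
        exact hd'k Nat.cast_zero
      have hd'lt : d' < d' * r := lt_mul_of_one_lt_right (Nat.pos_of_ne_zero hd'0) hr.one_lt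
      have ih' := ih d' hd'lt hd'k
      have hrel := Low_Phi_rel k r hrk (e * d') (mul_ne_zero he hd'0)
      rw [Nat.mul_assoc e d' r] at hrel
      -- the relative algebraic closure
      have hyT : LowS k 1 (e * d') ∈
          algebraicClosure ↥(IntermediateField.adjoin k {LowS k 1 e}) (LaurentSeries k) :=
        mem_algebraicClosure_iff'.mpr ih'
      have hx : IsIntegral
          ↥(algebraicClosure ↥(IntermediateField.adjoin k {LowS k 1 e}) (LaurentSeries k))
          (LowS k 1 (e * (d' * r))) := by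
        refine ⟨ev2 (LowPhi r) (⟨_, hyT⟩ : ↥(algebraicClosure
          ↥(IntermediateField.adjoin k {LowS k 1 e}) (LaurentSeries k))),
          ev2_monic (LowPhi_monic r) _, ?_⟩
        rw [← Polynomial.eval_map, ev2_map]
        exact hrel
      have hA : Algebra.IsAlgebraic ↥(IntermediateField.adjoin k {LowS k 1 e})
          ↥(algebraicClosure ↥(IntermediateField.adjoin k {LowS k 1 e}) (LaurentSeries k)) :=
        algebraicClosure.isAlgebraic _ _
      have hI : Algebra.IsIntegral ↥(IntermediateField.adjoin k {LowS k 1 e})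
          ↥(algebraicClosure ↥(IntermediateField.adjoin k {LowS k 1 e}) (LaurentSeries k)) :=
        Algebra.IsAlgebraic.isIntegral
      exact isIntegral_trans _ hx

end Fermat.Agent.S28L
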