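/-
S28, package P3b (owner: helper6), leaf "C3": `j(q^p) ∉ k(j(q^d) : d ∣ M)` for `p ∤ M`.
Statement FROZEN.
-/
import Mathlib
import Fermat.Agent.S28L.LowPrime
import Fermat.Agent.S28L.LowChain

set_option autoImplicit false
noncomputable section

namespace Fermat.Agent.S28L

open ModularCurve HahnSeries Polynomial

/-- ring homomorphisms commute with the double evaluation `Φ(x, y)` -/
theorem LowC3_map_eval_ev2 {A B : Type*} [CommRing A] [CommRing B]
    (Φ : Polynomial (Polynomial ℤ)) (f : A →+* B) (x y : A) :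
    f ((ev2 Φ y).eval x) = (ev2 Φ (f y)).eval (f x) := by
  rw [← ev2_map Φ f y, Polynomial.eval_map, Polynomial.eval₂_at_apply]

theorem LowC3_div_aux (M d r : ℕ) (hd : d ≠ 0) (hr : r ≠ 0) (h : d * r ∣ M) :
    M / d = M / (d * r) * r := by
  obtain ⟨q, rfl⟩ := h
  rw [Nat.mul_div_cancel_left _ (Nat.pos_of_ne_zero (mul_ne_zero hd hr)), mul_assoc,
    Nat.mul_div_cancel_left _ (Nat.pos_of_ne_zero hd), mul_comm]

theorem Low_jp_not_mem_full (k : Type) [Field k] [IsAlgClosed k] (p : ℕ) [Fact p.Prime] (M : ℕ)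
    (hM : ((M * p : ℕ) : k) ≠ 0) (hpM : ¬ p ∣ M) :
    qExpand k p (jqModC k) ∉ modularFunctionFieldFullC k M := by
  intro hmem
  have hp : p.Prime := Fact.out
  have hcast : ((M : ℕ) : k) * ((p : ℕ) : k) ≠ 0 := by rwa [← Nat.cast_mul]
  have hMk : ((M : ℕ) : k) ≠ 0 := left_ne_zero_of_mul hcast
  have hpk : ((p : ℕ) : k) ≠ 0 := right_ne_zero_of_mul hcast
  have hM0 : M ≠ 0 := by
    rintro rfl
    exact hMk Nat.cast_zero
  have hMp0 : M * p ≠ 0 := mul_ne_zero hM0 hp.ne_zero
  have hdvdk : ∀ a : ℕ, a ∣ M → ((a : ℕ) : k) ≠ 0 := by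
    rintro a ⟨b, rfl⟩
    rw [Nat.cast_mul] at hMk
    exact left_ne_zero_of_mul hMk
  have : NeZero (M * p) := ⟨hMp0⟩
  -- the fields
  let K0 : IntermediateField k (LaurentSeries k) := IntermediateField.adjoin k {LowS k 1 (M * p)}
  let T : IntermediateField ↥K0 (LaurentSeries k) := algebraicClosure ↥K0 (LaurentSeries k)
  let ι : LaurentSeries k →+* AlgebraicClosure (LaurentSeries k) :=
    algebraMap (LaurentSeries k) (AlgebraicClosure (LaurentSeries k))
  have hιinj : Function.Injective ι := (algebraMap (LaurentSeries k) _).injective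
  have hT : ∀ d : ℕ, d ∣ M → LowS k 1 (M * p * d) ∈ T := fun d hd =>
    mem_algebraicClosure_iff'.mpr (Low_S_isIntegral k (M * p) hMp0 d (hdvdk d hd))
  have hCT : LowS k 1 (M * p * p) ∈ T :=
    mem_algebraicClosure_iff'.mpr (Low_S_isIntegral k (M * p) hMp0 p hpk)
  -- the two conjugates have the same minimal polynomial
  have hmin : minpoly ↥K0 (LowS k 1 (M * p * p)) = minpoly ↥K0 (LowS k 1 M) := by
    apply Polynomial.map_injective (algebraMap ↥K0 (LaurentSeries k))
      (algebraMap ↥K0 (LaurentSeries k)).injective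
    rw [Low_minpoly_pp k p hpk M hM0, Low_minpoly_e k p hpk M hM0]
  -- the embedding
  obtain ⟨τ, hτ⟩ : ∃ τ : ↥T →ₐ[↥K0] AlgebraicClosure (LaurentSeries k),
      τ ⟨LowS k 1 (M * p * p), hCT⟩ = ι (LowS k 1 M) := by
    apply IntermediateField.exists_algHom_of_splits_of_aeval
    · intro s
      exact ⟨(mem_algebraicClosure_iff'.mp s.2 : IsIntegral ↥K0 (s : LaurentSeries k)) |>
        (fun h => (isIntegral_algebraMap_iff (algebraMap ↥T (LaurentSeries k)).injective).mp h),
        IsAlgClosed.splits _⟩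
    · rw [IntermediateField.minpoly_eq]
      show Polynomial.aeval (algebraMap (LaurentSeries k) (AlgebraicClosure (LaurentSeries k))
        (LowS k 1 M)) (minpoly ↥K0 (LowS k 1 (M * p * p))) = 0
      rw [hmin, Polynomial.aeval_algebraMap_apply, minpoly.aeval, map_zero]
  -- `τ` is `ι` on `K0`
  have hτK0 : ∀ (x : LaurentSeries k) (_ : x ∈ K0) (hxT : x ∈ T), τ ⟨x, hxT⟩ = ι x := by
    intro x hx hxT
    have h1 : (⟨x, hxT⟩ : ↥T) = algebraMap ↥K0 ↥T ⟨x, hx⟩ := rfl
    rw [h1, τ.commutes]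
    rfl
  -- `τ` respects the modular relations
  have hτrel : ∀ (r : ℕ) [Fact r.Prime] (x y : LaurentSeries k) (hx : x ∈ T) (hy : y ∈ T),
      (ev2 (LowPhi r) y).eval x = 0 →
        (ev2 (LowPhi r) (τ ⟨y, hy⟩)).eval (τ ⟨x, hx⟩) = 0 := by
    intro r _ x y hx hy h
    have h1 : (ev2 (LowPhi r) (⟨y, hy⟩ : ↥T)).eval (⟨x, hx⟩ : ↥T) = 0 := by
      apply (algebraMap ↥T (LaurentSeries k)).injective
      rw [LowC3_map_eval_ev2, map_zero]
      exact h
    have h2 := congrArg (τ : ↥T →+* AlgebraicClosure (LaurentSeries k)) h1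
    rw [LowC3_map_eval_ev2, map_zero] at h2
    exact h2
  -- images of the generators are special
  have claim : ∀ d : ℕ, d ∣ M → ∃ (ξ : kˣ) (m : ℕ), m ≠ 0 ∧ p * (M / d) ∣ m ∧
      ∀ h : LowS k 1 (M * p * d) ∈ T, τ ⟨LowS k 1 (M * p * d), h⟩ = ι (LowS k ξ m) := by
    intro d
    induction d using Nat.strong_induction_on with
    | _ d ih =>
      intro hd
      rcases eq_or_ne d 1 with rfl | hd1
      · refine ⟨1, M * p, hMp0, by rw [Nat.div_one, mul_comm], fun h => ?_⟩
        have h1 : LowS k 1 (M * p * 1) ∈ K0 := by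
          rw [mul_one]
          exact IntermediateField.subset_adjoin k _ rfl
        rw [hτK0 _ h1 h, mul_one]
      · have hr : d.minFac.Prime := Nat.minFac_prime hd1
        have : Fact d.minFac.Prime := ⟨hr⟩
        obtain ⟨d', hd'⟩ : ∃ d', d = d' * d.minFac :=
          ⟨d / d.minFac, (Nat.div_mul_cancel (Nat.minFac_dvd d)).symm⟩
        generalize d.minFac = r at hr this hd'
        subst hd'
        have hd'M : d' ∣ M := (Dvd.intro _ rfl).trans hd
        have hrM : r ∣ M := (Dvd.intro_left _ rfl).trans hd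
        have hd'0 : d' ≠ 0 := by
          rintro rfl
          rw [zero_mul, zero_dvd_iff] at hd
          exact hM0 hd
        have hd'lt : d' < d' * r := lt_mul_of_one_lt_right (Nat.pos_of_ne_zero hd'0) hr.one_lt
        obtain ⟨ξ, m, hm0, hdiv, hτd'⟩ := ih d' hd'lt hd'M
        have hrk : ((r : ℕ) : k) ≠ 0 := hdvdk r hrM
        have hrel := Low_Phi_rel k r hrk (M * p * d') (mul_ne_zero hMp0 hd'0)
        rw [Nat.mul_assoc (M * p) d' r] at hrel
        have h2 := hτrel r _ _ (hT (d' * r) hd) (hT d' hd'M) hrel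
        rw [hτd' (hT d' hd'M), ← ev2_map] at h2
        have hD : p * (M / (d' * r)) * r ∣ m := by
          rw [mul_assoc, ← LowC3_div_aux M d' r hd'0 hr.ne_zero hd]
          exact hdiv
        obtain ⟨ξ', m', hm', hD', hy'⟩ :=
          Low_special_step k r hrk ξ m (p * (M / (d' * r))) hm0 hD ι _ h2
        exact ⟨ξ', m', hm', hD', fun _ => hy'⟩
  -- the subfield of `L` of elements of `T` that `τ` maps into `ι (range V_p)`
  let W : Subfield (LaurentSeries k) :=
    Subfield.map (algebraMap ↥T (LaurentSeries k))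
      (Subfield.comap (τ : ↥T →+* AlgebraicClosure (LaurentSeries k))
        (Subfield.map ι (qExpand k p).fieldRange))
  have hle : Subfield.closure (Set.range (algebraMap k (LaurentSeries k)) ∪
      divisorExpansionsC k M) ≤ W.comap (qExpand k (M * p)) := by
    rw [Subfield.closure_le]
    rintro y (⟨c, rfl⟩ | ⟨d, hne, hdvd, rfl⟩)
    · have h1 : qExpand k (M * p) (algebraMap k (LaurentSeries k) c) =
          algebraMap k (LaurentSeries k) c := (qExpandAlgHomC k (M * p)).commutes c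
      have h2 : qExpand k p (algebraMap k (LaurentSeries k) c) =
          algebraMap k (LaurentSeries k) c := (qExpandAlgHomC k p).commutes c
      have h3 : algebraMap k (LaurentSeries k) c ∈ K0 := K0.algebraMap_mem c
      have h4 : algebraMap k (LaurentSeries k) c ∈ T :=
        T.algebraMap_mem ⟨_, h3⟩
      rw [SetLike.mem_coe, Subfield.mem_comap, h1]
      refine Subfield.mem_map.mpr ⟨⟨_, h4⟩, ?_, rfl⟩
      rw [Subfield.mem_comap]
      refine Subfield.mem_map.mpr ⟨_, RingHom.mem_fieldRange.mpr ⟨_, h2⟩, ?_⟩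
      exact (hτK0 _ h3 h4).symm
    · have h1 : qExpand k (M * p) (qExpand k d (jqModC k)) = LowS k 1 (M * p * d) := by
        rw [← LowS_one k d, qExpand_LowS]
      obtain ⟨ξ, m, hm0, hdiv, hτd⟩ := claim d hdvd
      rw [SetLike.mem_coe, Subfield.mem_comap, h1]
      refine Subfield.mem_map.mpr ⟨⟨_, hT d hdvd⟩, ?_, rfl⟩
      rw [Subfield.mem_comap]
      refine Subfield.mem_map.mpr ⟨LowS k ξ m, ?_, (hτd (hT d hdvd)).symm⟩
      exact RingHom.mem_fieldRange.mpr
        (LowS_mem_range k ξ m p ((Dvd.intro _ rfl).trans hdiv))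
  have hC : qExpand k (M * p) (qExpand k p (jqModC k)) ∈ W := hle hmem
  have hC' : qExpand k (M * p) (qExpand k p (jqModC k)) = LowS k 1 (M * p * p) := by
    rw [← LowS_one k p, qExpand_LowS]
  rw [hC'] at hC
  obtain ⟨t, ht, htC⟩ := Subfield.mem_map.mp hC
  have htC' : t = ⟨LowS k 1 (M * p * p), hCT⟩ := Subtype.ext htC
  rw [Subfield.mem_comap, htC'] at ht
  obtain ⟨z, hz, hzC⟩ := Subfield.mem_map.mp ht
  have hzC' : z = LowS k 1 M := hιinj (hzC.trans hτ)
  rw [hzC'] at hz
  exact LowS_not_mem_range k 1 M p hM0 hpM (RingHom.mem_fieldRange.mp hz)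

end Fermat.Agent.S28L
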