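/-
S28, package P3b (owner: helper6), leaf "Tower" (C4): the degree of `k(j(q^d) : d ∣ M p)` over
`k(j)` is at least `p` times (resp. `p + 1` times, if `j(q^p) ∉ F_M`) that of `F_M`.
Statements FROZEN.
-/
import Mathlib
import Fermat.Agent.S28L.LowPrime

set_option autoImplicit false
noncomputable section

namespace Fermat.Agent.S28L

open ModularCurve HahnSeries Polynomial

/-- `V_p (k(j)) = k(j(q^p))`, written with the special series -/
theorem LowTw2_map_adjoin (k : Type) [Field k] (p : ℕ) [Fact p.Prime] :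
    (IntermediateField.adjoin k {jqModC k}).map (qExpandAlgHomC k p) =
      IntermediateField.adjoin k {LowS k 1 (1 * p)} := by
  rw [IntermediateField.adjoin_map, Set.image_singleton, qExpandAlgHomC_apply, one_mul, LowS_one]

/-- the two degrees over `k(j(q^p))` -/
theorem LowTw2_natDegree_e (k : Type) [Field k] [IsAlgClosed k] (p : ℕ) [Fact p.Prime]
    (hp : (p : k) ≠ 0) :
    IsIntegral (IntermediateField.adjoin k {LowS k 1 (1 * p)}) (jqModC k) ∧
      (minpoly (IntermediateField.adjoin k {LowS k 1 (1 * p)}) (jqModC k)).natDegree = p + 1 := by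
  have h := Low_minpoly_e k p hp 1 one_ne_zero
  rw [LowS_one_one] at h
  have hdeg := congrArg Polynomial.natDegree h
  rw [Polynomial.natDegree_map, ev2_natDegree (LowPhi_monic p), LowPhi_natDegree] at hdeg
  refine ⟨?_, hdeg⟩
  rw [← minpoly.ne_zero_iff]
  intro h0
  rw [h0, Polynomial.natDegree_zero] at hdeg
  omega

theorem LowTw2_natDegree_pp (k : Type) [Field k] [IsAlgClosed k] (p : ℕ) [Fact p.Prime]
    (hp : (p : k) ≠ 0) :
    IsIntegral (IntermediateField.adjoin k {LowS k 1 (1 * p)}) (LowS k 1 (1 * p * p)) ∧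
      (minpoly (IntermediateField.adjoin k {LowS k 1 (1 * p)}) (LowS k 1 (1 * p * p))).natDegree
        = p + 1 := by
  have h := Low_minpoly_pp k p hp 1 one_ne_zero
  have hdeg := congrArg Polynomial.natDegree h
  rw [Polynomial.natDegree_map, ev2_natDegree (LowPhi_monic p), LowPhi_natDegree] at hdeg
  refine ⟨?_, hdeg⟩
  rw [← minpoly.ne_zero_iff]
  intro h0
  rw [h0, Polynomial.natDegree_zero] at hdeg
  omega

/-- the switch: the degree over `k(j(q^p))` is at most the degree over `k(j)` -/
theorem LowTw2_switch (k : Type) [Field k] [IsAlgClosed k] (p : ℕ) [Fact p.Prime]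
    (hp : (p : k) ≠ 0) (F : IntermediateField k (LaurentSeries k))
    (hAF : IntermediateField.adjoin k {jqModC k} ≤ F)
    (hBF : IntermediateField.adjoin k {LowS k 1 (1 * p)} ≤ F) :
    IntermediateField.relrank (IntermediateField.adjoin k {LowS k 1 (1 * p)}) F ≤
      IntermediateField.relrank (IntermediateField.adjoin k {jqModC k}) F := by
  set A := IntermediateField.adjoin k {jqModC k} with hA
  set B := IntermediateField.adjoin k {LowS k 1 (1 * p)} with hB
  have hCF : B ⊔ A ≤ F := sup_le hBF hAF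
  have h1 := IntermediateField.relrank_mul_relrank (le_sup_right : A ≤ B ⊔ A) hCF
  have h2 := IntermediateField.relrank_mul_relrank (le_sup_left : B ≤ B ⊔ A) hCF
  obtain ⟨hint_e, hdeg_e⟩ := LowTw2_natDegree_e k p hp
  obtain ⟨hint_pp, hdeg_pp⟩ := LowTw2_natDegree_pp k p hp
  -- `[B ⊔ A : B] = p + 1`
  have h3 : IntermediateField.relrank B (B ⊔ A) = ((p + 1 : ℕ) : Cardinal) := by
    rw [hA, Low_relrank_sup_adjoin B (jqModC k) hint_e, hdeg_e]
  -- `[B ⊔ A : A] ≥ p + 1`
  have h4 : ((p + 1 : ℕ) : Cardinal) ≤ IntermediateField.relrank A (B ⊔ A) := by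
    rw [← IntermediateField.relrank_map_map A (B ⊔ A) (qExpandAlgHomC k p), hA,
      LowTw2_map_adjoin k p, ← hB, ← hdeg_pp]
    refine Low_natDegree_le_relrank B _ ?_ _ ?_ hint_pp
    · rw [hB, ← LowTw2_map_adjoin k p]
      exact IntermediateField.map_mono _ le_sup_right
    · refine ⟨LowS k 1 (1 * p), ?_, ?_⟩
      · exact (le_sup_left : B ≤ B ⊔ A) (IntermediateField.subset_adjoin k _ rfl)
      · show qExpand k p (LowS k 1 (1 * p)) = _
        rw [qExpand_LowS, mul_comm p (1 * p)]
  calc IntermediateField.relrank B F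
      = IntermediateField.relrank B (B ⊔ A) * IntermediateField.relrank (B ⊔ A) F := h2.symm
    _ = ((p + 1 : ℕ) : Cardinal) * IntermediateField.relrank (B ⊔ A) F := by rw [h3]
    _ ≤ IntermediateField.relrank A (B ⊔ A) * IntermediateField.relrank (B ⊔ A) F :=
        mul_le_mul' h4 le_rfl
    _ = IntermediateField.relrank A F := h1

/-- the chain of inequalities of the tower step, given the degree of `j` over `V_p (F_M)` -/
theorem LowTw2_core (k : Type) [Field k] [IsAlgClosed k] (p : ℕ) [Fact p.Prime]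
    (hp : (p : k) ≠ 0) (M : ℕ) (n : Cardinal)
    (hn : n ≤ IntermediateField.relrank ((modularFunctionFieldFullC k M).map (qExpandAlgHomC k p))
      (modularFunctionFieldFullC k (M * p))) :
    n * IntermediateField.relrank (IntermediateField.adjoin k {jqModC k})
        (modularFunctionFieldFullC k M) ≤
      IntermediateField.relrank (IntermediateField.adjoin k {jqModC k})
        (modularFunctionFieldFullC k (M * p)) := by
  set A := IntermediateField.adjoin k {jqModC k} with hA
  set E := (modularFunctionFieldFullC k M).map (qExpandAlgHomC k p) with hE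
  set F := modularFunctionFieldFullC k (M * p) with hF
  have hAM : A ≤ modularFunctionFieldFullC k M := by
    rw [hA, IntermediateField.adjoin_le_iff]
    rintro x rfl
    exact jqModC_mem_full k M
  have hAF : A ≤ F := by
    rw [hA, IntermediateField.adjoin_le_iff]
    rintro x rfl
    exact jqModC_mem_full k (M * p)
  have hEF : E ≤ F := full_degeneracyC_map_le k M p
  have hBE : A.map (qExpandAlgHomC k p) ≤ E := IntermediateField.map_mono _ hAM
  have h1 : IntermediateField.relrank A (modularFunctionFieldFullC k M) =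
      IntermediateField.relrank (A.map (qExpandAlgHomC k p)) E :=
    (IntermediateField.relrank_map_map A _ (qExpandAlgHomC k p)).symm
  have h2 := IntermediateField.relrank_mul_relrank hBE hEF
  have h3 : IntermediateField.relrank (A.map (qExpandAlgHomC k p)) F ≤
      IntermediateField.relrank A F := by
    have hBF := hBE.trans hEF
    rw [hA, LowTw2_map_adjoin k p] at hBF ⊢
    exact LowTw2_switch k p hp F hAF hBF
  calc n * IntermediateField.relrank A (modularFunctionFieldFullC k M)
      = IntermediateField.relrank (A.map (qExpandAlgHomC k p)) E * n := by rw [h1, mul_comm]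
    _ ≤ IntermediateField.relrank (A.map (qExpandAlgHomC k p)) E *
          IntermediateField.relrank E F := mul_le_mul' le_rfl hn
    _ = IntermediateField.relrank (A.map (qExpandAlgHomC k p)) F := h2
    _ ≤ IntermediateField.relrank A F := h3

/-- orbit data for `j` over `E = V_p (F_M)` -/
theorem LowTw2_orbit (k : Type) [Field k] [IsAlgClosed k] (p : ℕ) [Fact p.Prime]
    (hp : (p : k) ≠ 0) (M : ℕ) :
    ∃ (ζ : kˣ) (P : Polynomial ((modularFunctionFieldFullC k M).map (qExpandAlgHomC k p))),
      P.Monic ∧ P.natDegree = p + 1 ∧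
      P.map (algebraMap _ (LaurentSeries k)) =
        (Polynomial.X - Polynomial.C (qExpand k (p * p) (jqModC k))) *
          ∏ b ∈ Finset.range p, (Polynomial.X - Polynomial.C (tw (ζ ^ b) (jqModC k))) ∧
      (∀ b < p, ∃ τ : LaurentSeries k →+* LaurentSeries k,
        (∀ x ∈ (modularFunctionFieldFullC k M).map (qExpandAlgHomC k p), τ x = x) ∧
          τ (tw (ζ ^ 0) (jqModC k)) = tw (ζ ^ b) (jqModC k)) ∧
      (∀ b₁ < p, ∀ b₂ < p, tw (ζ ^ b₁) (jqModC k) = tw (ζ ^ b₂) (jqModC k) → b₁ = b₂) := by
  obtain ⟨ζ, hζp, hζsum, hζinj⟩ := Low_exists_zeta k p hp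
  set E := (modularFunctionFieldFullC k M).map (qExpandAlgHomC k p) with hE
  have hy : qExpand k p (jqModC k) ∈ E := ⟨jqModC k, jqModC_mem_full k M, rfl⟩
  let y : E := ⟨qExpand k p (jqModC k), hy⟩
  refine ⟨ζ, ev2 (LowPhi p) y, ev2_monic (LowPhi_monic p) y, ?_, ?_, ?_, ?_⟩
  · rw [ev2_natDegree (LowPhi_monic p), LowPhi_natDegree]
  · rw [ev2_map]
    exact LowPhi_spec p k ζ hζsum
  · intro b _
    refine ⟨twHom (ζ ^ b), ?_, ?_⟩
    · rintro x ⟨z, -, rfl⟩
      rw [twHom_apply]
      exact tw_qExpand_of_pow_eq_one (ζ ^ b) p (by rw [← pow_mul, mul_comm, pow_mul, hζp, one_pow]) z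
    · rw [twHom_apply, pow_zero, tw_one_unit]
  · intro b₁ h₁ b₂ h₂ h
    have e1 : ∀ ξ : kˣ, tw ξ (jqModC k) = LowS k ξ 1 := fun ξ => by
      rw [LowS_eq, qExpand_one_apply]
    rw [e1, e1] at h
    exact hζinj b₁ h₁ b₂ h₂ (LowS_injective k _ _ 1 one_ne_zero h)

theorem LowTw2_aeval (k : Type) [Field k] (p : ℕ) (hp0 : 0 < p)
    (E : IntermediateField k (LaurentSeries k)) (ζ : kˣ) (c : LaurentSeries k) (P : Polynomial E)
    (hfac : P.map (algebraMap E (LaurentSeries k)) =
        (Polynomial.X - Polynomial.C c) *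
          ∏ b ∈ Finset.range p, (Polynomial.X - Polynomial.C (tw (ζ ^ b) (jqModC k)))) :
    Polynomial.aeval (jqModC k) P = 0 := by
  rw [Polynomial.aeval_def, Polynomial.eval₂_eq_eval_map, hfac, Polynomial.eval_mul,
    Polynomial.eval_prod]
  have h0 : ∏ b ∈ Finset.range p, Polynomial.eval (jqModC k)
      (Polynomial.X - Polynomial.C (tw (ζ ^ b) (jqModC k))) = 0 := by
    refine Finset.prod_eq_zero (Finset.mem_range.mpr hp0) ?_
    rw [pow_zero, tw_one_unit, Polynomial.eval_sub, Polynomial.eval_X, Polynomial.eval_C, sub_self]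
  rw [h0, mul_zero]

theorem Low_tower (k : Type) [Field k] [IsAlgClosed k] (p : ℕ) [Fact p.Prime] (hp : (p : k) ≠ 0)
    (M : ℕ) :
    (p : Cardinal) * IntermediateField.relrank (IntermediateField.adjoin k {jqModC k})
        (modularFunctionFieldFullC k M) ≤
      IntermediateField.relrank (IntermediateField.adjoin k {jqModC k})
        (modularFunctionFieldFullC k (M * p)) := by
  have hp0 : 0 < p := (Fact.out : p.Prime).pos
  refine LowTw2_core k p hp M p ?_
  obtain ⟨ζ, P, hmonic, hdeg, hfac, hr, hinj⟩ := LowTw2_orbit k p hp M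
  have hroot := LowTw2_aeval k p hp0 _ ζ _ P hfac
  have hint : IsIntegral ((modularFunctionFieldFullC k M).map (qExpandAlgHomC k p)) (jqModC k) :=
    ⟨P, hmonic, hroot⟩
  have hr' : ∀ b < p, ∃ τ : LaurentSeries k →+* LaurentSeries k,
      (∀ x ∈ (modularFunctionFieldFullC k M).map (qExpandAlgHomC k p), τ x = x) ∧
        τ (jqModC k) = tw (ζ ^ b) (jqModC k) := by
    intro b hb
    obtain ⟨τ, h1, h2⟩ := hr b hb
    rw [pow_zero, tw_one_unit] at h2
    exact ⟨τ, h1, h2⟩
  have h1 := Low_orbit_le_natDegree _ (jqModC k) hint p (fun b => tw (ζ ^ b) (jqModC k)) hr' hinj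
  have h2 := Low_natDegree_le_relrank _ (modularFunctionFieldFullC k (M * p))
    (full_degeneracyC_map_le k M p) (jqModC k) (jqModC_mem_full k (M * p)) hint
  exact le_trans (by exact_mod_cast h1) h2

theorem Low_tower' (k : Type) [Field k] [IsAlgClosed k] (p : ℕ) [Fact p.Prime] (hp : (p : k) ≠ 0)
    (M : ℕ) (hnot : qExpand k p (jqModC k) ∉ modularFunctionFieldFullC k M) :
    ((p + 1 : ℕ) : Cardinal) * IntermediateField.relrank (IntermediateField.adjoin k {jqModC k})
        (modularFunctionFieldFullC k M) ≤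
      IntermediateField.relrank (IntermediateField.adjoin k {jqModC k})
        (modularFunctionFieldFullC k (M * p)) := by
  have hp0 : 0 < p := (Fact.out : p.Prime).pos
  refine LowTw2_core k p hp M _ ?_
  obtain ⟨ζ, P, hmonic, hdeg, hfac, hr, hinj⟩ := LowTw2_orbit k p hp M
  have hroot := LowTw2_aeval k p hp0 _ ζ _ P hfac
  have hint : IsIntegral ((modularFunctionFieldFullC k M).map (qExpandAlgHomC k p)) (jqModC k) :=
    ⟨P, hmonic, hroot⟩
  have hc : qExpand k (p * p) (jqModC k) ∉
      (modularFunctionFieldFullC k M).map (qExpandAlgHomC k p) := by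
    rintro ⟨z, hz, hzeq⟩
    have hzeq' : qExpand k p z = qExpand k p (qExpand k p (jqModC k)) := by
      rw [qExpand_qExpand]; exact hzeq
    rw [qExpand_injective p hzeq'] at hz
    exact hnot hz
  have hirr : Irreducible P :=
    Low_orbit_irreducible _ P hmonic p hp0 _ (fun b => tw (ζ ^ b) (jqModC k)) hfac hr hinj hc
  have hmin : P = minpoly _ (jqModC k) := minpoly.eq_of_irreducible_of_monic hirr hroot hmonic
  have h2 := Low_natDegree_le_relrank _ (modularFunctionFieldFullC k (M * p))
    (full_degeneracyC_map_le k M p) (jqModC k) (jqModC_mem_full k (M * p)) hint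
  rw [← hmin, hdeg] at h2
  exact h2

end Fermat.Agent.S28L
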