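/-
S28, package P3 (owner: helper2; this file: helper6): the characteristic-`ℓ` lower bound (Igusa).
INTERFACE FILE: the statement `psi_le_relrank` below is frozen.
-/
import Mathlib
import Fermat.Agent.S28L.Defs
import Fermat.Agent.S28L.ModPoly
import Fermat.Agent.S28L.LowPrime
import Fermat.Agent.S28L.LowTower
import Fermat.Agent.S28L.LowC3
import Fermat.Agent.X0Count.Index

set_option autoImplicit false
noncomputable section

namespace Fermat.Agent.S28L

open ModularCurve HahnSeries Polynomial

theorem Low_full_one (k : Type) [Field k] :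
    modularFunctionFieldFullC k 1 = IntermediateField.adjoin k {jqModC k} := by
  apply le_antisymm
  · rw [modularFunctionFieldFullC, IntermediateField.adjoin_le_iff]
    rintro x ⟨d, hne, hdvd, rfl⟩
    obtain rfl : d = 1 := Nat.dvd_one.mp hdvd
    rw [qExpand_one_apply]
    exact IntermediateField.subset_adjoin k _ rfl
  · rw [IntermediateField.adjoin_le_iff]
    rintro x rfl
    exact jqModC_mem_full k 1

/-- Over an algebraically closed field `k` in which `N` is invertible:
`[k(j(q^d) : d ∣ N) : k(j)] ≥ ψ(N)`. -/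
theorem Low_main (k : Type) [Field k] [IsAlgClosed k] (N : ℕ) (hN : ((N : ℕ) : k) ≠ 0) :
    (dedekindPsi N : Cardinal) ≤
      IntermediateField.relrank (IntermediateField.adjoin k {jqModC k})
        (modularFunctionFieldFullC k N) := by
  induction N using Nat.strong_induction_on with
  | _ N ih =>
    rcases eq_or_ne N 1 with rfl | hN1
    · rw [Low_full_one, IntermediateField.relrank_self, dedekindPsi_one, Nat.cast_one]
    · have hN0 : N ≠ 0 := by
        rintro rfl
        exact hN Nat.cast_zero
      set p := N.minFac with hp_def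
      have hp : p.Prime := Nat.minFac_prime hN1
      have : Fact p.Prime := ⟨hp⟩
      obtain ⟨M, hM⟩ : ∃ M, N = M * p := ⟨N / p, (Nat.div_mul_cancel (Nat.minFac_dvd N)).symm⟩
      have hM0 : M ≠ 0 := by
        rintro rfl
        exact hN0 (by rw [hM, zero_mul])
      have hMlt : M < N := by
        rw [hM]
        exact lt_mul_of_one_lt_right (Nat.pos_of_ne_zero hM0) hp.one_lt
      have hcast : ((M : ℕ) : k) * ((p : ℕ) : k) ≠ 0 := by
        rw [← Nat.cast_mul, ← hM]
        exact hN
      have hMk : ((M : ℕ) : k) ≠ 0 := left_ne_zero_of_mul hcast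
      have hpk : ((p : ℕ) : k) ≠ 0 := right_ne_zero_of_mul hcast
      have ihM := ih M hMlt hMk
      have hpsi : dedekindPsi N = (if p ∣ M then p else p + 1) * dedekindPsi M := by
        rw [hM, mul_comm M p]
        exact Fermat.Agent.X0Count.ix_psi_prime_mul hp hM0
      rw [hpsi, hM]
      by_cases hpM : p ∣ M
      · rw [if_pos hpM, Nat.cast_mul]
        exact (mul_le_mul' le_rfl ihM).trans (Low_tower k p hpk M)
      · rw [if_neg hpM, Nat.cast_mul]
        have hnot : qExpand k p (jqModC k) ∉ modularFunctionFieldFullC k M :=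
          Low_jp_not_mem_full k p M (by rw [← hM]; exact hN) hpM
        exact (mul_le_mul' le_rfl ihM).trans (Low_tower' k p hpk M hnot)

/-- Over `k = 𝔽̄_ℓ`, `ℓ ∤ N`: `[k(j(q^d) : d ∣ N) : k(j)] ≥ ψ(N)`. -/
theorem psi_le_relrank (N : ℕ) [NeZero N] (ℓ : ℕ) [Fact ℓ.Prime] (hℓN : ¬ ℓ ∣ N) :
    (dedekindPsi N : Cardinal) ≤
      IntermediateField.relrank
        (IntermediateField.adjoin (AlgebraicClosure (ZMod ℓ)) {jqModC (AlgebraicClosure (ZMod ℓ))})
        (modularFunctionFieldFullC (AlgebraicClosure (ZMod ℓ)) N) := by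
  apply Low_main
  rw [Ne, CharP.cast_eq_zero_iff (AlgebraicClosure (ZMod ℓ)) ℓ]
  exact hℓN

end Fermat.Agent.S28L
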