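import Fermat.Agent.S28L.P4Content

/-!
# S28, package (4), part C: the valuation ring `F ∩ gaussRing` is finite over `ℚ(g) ∩ gaussRing`

Lifting `m` elements of `𝔽_ℓ(j̄_d : d ∣ N)` independent over `𝔽_ℓ(j̄)` gives a basis of `F` over
`ℚ(j)` which is also a basis of `F ∩ gaussRing` over `ℚ(j) ∩ gaussRing`; hence every element of
`F ∩ gaussRing` becomes integral over `ℤ_(ℓ)[g]` after multiplication by some `Q(g)`, `Q ≢ 0 mod ℓ`.
-/

set_option autoImplicit false

noncomputable section

namespace Fermat.Agent.S28L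

open ModularCurve ModularCurve.IgusaScheme HahnSeries Polynomial

section RelrankLinearAlgebra

variable {K L : Type*} [Field K] [Field L] [Algebra K L]

/-- a lower bound on the relative rank gives a linearly independent family -/
theorem exists_linearIndependent_of_le_relrank (A B : IntermediateField K L) (hAB : A ≤ B) (m : ℕ)
    (h : (m : Cardinal) ≤ IntermediateField.relrank A B) :
    ∃ z : Fin m → L, (∀ i, z i ∈ B) ∧ LinearIndependent A z := by
  rw [IntermediateField.relrank_eq_rank_of_le hAB] at h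
  obtain ⟨f, hf⟩ := exists_linearIndependent_of_le_rank h
  refine ⟨fun i => ((f i : IntermediateField.extendScalars hAB) : L), fun i => (f i).2, ?_⟩
  have := hf.map' (IntermediateField.extendScalars hAB).val.toLinearMap
    (LinearMap.ker_eq_bot.2 (IntermediateField.extendScalars hAB).val.injective)
  exact this

/-- an upper bound on the relative rank: a linearly independent family of that size spans -/
theorem mem_span_of_relrank_le (A B : IntermediateField K L) (hAB : A ≤ B) (m : ℕ)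
    (h : IntermediateField.relrank A B ≤ (m : Cardinal)) (y : Fin m → L) (hy : ∀ i, y i ∈ B)
    (hli : LinearIndependent A y) (x : L) (hx : x ∈ B) :
    x ∈ Submodule.span A (Set.range y) := by
  rw [IntermediateField.relrank_eq_rank_of_le hAB] at h
  set W : Submodule A L := (IntermediateField.extendScalars hAB).toSubalgebra.toSubmodule with hW
  have hrank : Module.rank A W ≤ (m : Cardinal) := h
  have hfin : Module.Finite A W :=
    Module.rank_lt_aleph0_iff.1 (lt_of_le_of_lt hrank (Cardinal.natCast_lt_aleph0 (n := m)))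
  have hle : Submodule.span A (Set.range y) ≤ W := by
    rw [Submodule.span_le]
    rintro _ ⟨i, rfl⟩
    exact hy i
  have hfr : Module.finrank A W ≤ m := by
    have := Module.finrank_eq_rank A W
    rw [← this] at hrank
    exact_mod_cast hrank
  have heq : Submodule.span A (Set.range y) = W := by
    apply Submodule.eq_of_le_of_finrank_le hle
    rw [finrank_span_eq_card hli, Fintype.card_fin]
    exact hfr
  rw [heq]
  exact hx

end RelrankLinearAlgebra

variable (ℓ : ℕ) [Fact ℓ.Prime] (N : ℕ) [NeZero N]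

/-! ### The residue field of `F ∩ gaussRing` -/

/-- the valuation ring `F ∩ gaussRing`, as a subring of the Gauss ring -/
def valRing : Subring (gaussRing ℓ) :=
  (modularFunctionFieldFull N).toSubring.comap (gaussRing ℓ).subtype

theorem mem_valRing_iff (y : gaussRing ℓ) :
    y ∈ valRing ℓ N ↔ (y : LaurentSeries ℚ) ∈ modularFunctionFieldFull N := Iff.rfl

/-- the image of `F ∩ gaussRing` under reduction -/
def resRing : Subring (LaurentSeries (ZMod ℓ)) := (valRing ℓ N).map (gaussRed ℓ)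

theorem mem_resRing_iff (z : LaurentSeries (ZMod ℓ)) :
    z ∈ resRing ℓ N ↔
      ∃ y : gaussRing ℓ, (y : LaurentSeries ℚ) ∈ modularFunctionFieldFull N ∧ gaussRed ℓ y = z := by
  rw [resRing, Subring.mem_map]
  exact ⟨fun ⟨y, hy, h⟩ => ⟨y, hy, h⟩, fun ⟨y, hy, h⟩ => ⟨y, hy, h⟩⟩

theorem inv_mem_resRing (z : LaurentSeries (ZMod ℓ)) (hz : z ∈ resRing ℓ N) :
    z⁻¹ ∈ resRing ℓ N := by
  rcases eq_or_ne z 0 with rfl | hz0
  · rw [inv_zero]; exact zero_mem _
  obtain ⟨y, hyF, rfl⟩ := (mem_resRing_iff ℓ N z).1 hz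
  have hy0 : (y : LaurentSeries ℚ) ≠ 0 := by
    intro h
    apply hz0
    have : y = 0 := Subtype.ext h
    rw [this, map_zero]
  refine (mem_resRing_iff ℓ N _).2
    ⟨⟨(y : LaurentSeries ℚ)⁻¹, inv_mem_gaussRing ℓ y hz0⟩, inv_mem hyF, ?_⟩
  refine eq_inv_of_mul_eq_one_left ?_
  rw [← map_mul]
  have : (⟨(y : LaurentSeries ℚ)⁻¹, inv_mem_gaussRing ℓ y hz0⟩ : gaussRing ℓ) * y = 1 :=
    Subtype.ext (inv_mul_cancel₀ hy0)
  rw [this, map_one]

theorem algebraMap_mem_resRing (c : ZMod ℓ) :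
    algebraMap (ZMod ℓ) (LaurentSeries (ZMod ℓ)) c ∈ resRing ℓ N := by
  obtain ⟨c', rfl⟩ := resO_surjective ℓ c
  exact (mem_resRing_iff ℓ N _).2
    ⟨⟨algebraMap ℚ (LaurentSeries ℚ) (c' : ℚ), algebraMap_mem_gaussRing ℓ c'⟩,
      (modularFunctionFieldFull N).algebraMap_mem _, gaussRed_algebraMap ℓ c'⟩

/-- the residue field of `F ∩ gaussRing` as an intermediate field of `𝔽_ℓ((q))` -/
def resField : IntermediateField (ZMod ℓ) (LaurentSeries (ZMod ℓ)) :=
  Subfield.toIntermediateField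
    { toSubring := resRing ℓ N
      inv_mem' := fun z hz => inv_mem_resRing ℓ N z hz }
    (fun c => algebraMap_mem_resRing ℓ N c)

theorem mem_resField_iff (z : LaurentSeries (ZMod ℓ)) :
    z ∈ resField ℓ N ↔ z ∈ resRing ℓ N := Iff.rfl

theorem fullC_le_resField : modularFunctionFieldFullC (ZMod ℓ) N ≤ resField ℓ N := by
  rw [modularFunctionFieldFullC, IntermediateField.adjoin_le_iff]
  rintro x ⟨d, hd, hdN, rfl⟩
  haveI := hd
  refine (mem_resRing_iff ℓ N _).2 ⟨⟨jqNModC ℚ d, jqNModC_mem_gaussRing ℓ d⟩, ?_, ?_⟩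
  · exact jqd_mem_full N hdN
  · rw [gaussRed_jqNModC]; rfl

/-- the reduction of `F ∩ gaussRing` contains `𝔽_ℓ(j̄_d : d ∣ N)` -/
theorem exists_lift_of_mem_fullC (z : LaurentSeries (ZMod ℓ))
    (hz : z ∈ modularFunctionFieldFullC (ZMod ℓ) N) :
    ∃ y : gaussRing ℓ, (y : LaurentSeries ℚ) ∈ modularFunctionFieldFull N ∧ gaussRed ℓ y = z :=
  (mem_resRing_iff ℓ N z).1 (fullC_le_resField ℓ N hz)

/-! ### Normalising a finite family by a power of `ℓ` -/

theorem natCast_ne_zero_laurent : ((ℓ : ℕ) : LaurentSeries ℚ) ≠ 0 := by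
  haveI : CharZero (LaurentSeries ℚ) :=
    charZero_of_injective_algebraMap (algebraMap ℚ (LaurentSeries ℚ)).injective
  exact Nat.cast_ne_zero.2 (Fact.out : ℓ.Prime).ne_zero

/-- the reduction of `ℓ` vanishes -/
theorem gaussRed_natCast : gaussRed ℓ ((ℓ : ℕ) : gaussRing ℓ) = 0 :=
  (gaussRed_eq_zero_iff ℓ _).2 ⟨1, (mul_one _).symm⟩

/-- nonzero elements of the fraction field, scaled by a suitable power of `ℓ`, all lie in the
Gauss ring, one of them with nonzero reduction -/
theorem exists_zpow_mul_mem (m : ℕ) (c : Fin m → LaurentSeries ℚ)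
    (hc : ∀ i, c i ∈ gaussField ℓ) (hne : ∃ i, c i ≠ 0) :
    ∃ (k : ℤ) (c' : Fin m → gaussRing ℓ),
      (∀ i, (c' i : LaurentSeries ℚ) = (ℓ : LaurentSeries ℚ) ^ k * c i) ∧
      ∃ i₀, gaussRed ℓ (c' i₀) ≠ 0 := by
  classical
  have hdec : ∀ i, ∃ (k : ℤ) (u : gaussRing ℓ), c i ≠ 0 →
      (gaussRed ℓ u ≠ 0 ∧ c i = (ℓ : LaurentSeries ℚ) ^ k * (u : LaurentSeries ℚ)) := by
    intro i
    by_cases h : c i = 0
    · exact ⟨0, 0, fun h' => absurd h h'⟩
    · obtain ⟨k, u, hu, hk⟩ := exists_zpow_mul_unit ℓ (c i) (hc i) h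
      exact ⟨k, u, fun _ => ⟨hu, hk⟩⟩
  choose kk u hu using hdec
  set s : Finset (Fin m) := Finset.univ.filter (fun i => c i ≠ 0) with hs
  have hsne : s.Nonempty := by
    obtain ⟨i, hi⟩ := hne
    exact ⟨i, by simp [hs, hi]⟩
  obtain ⟨i₀, hi₀s, hmin⟩ := Finset.exists_min_image s kk hsne
  have hi₀ : c i₀ ≠ 0 := by simpa [hs] using hi₀s
  have hℓ := natCast_ne_zero_laurent ℓ
  have key : ∀ i, ∃ c'i : gaussRing ℓ,
      (c'i : LaurentSeries ℚ) = (ℓ : LaurentSeries ℚ) ^ (-kk i₀) * c i ∧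
      (i = i₀ → gaussRed ℓ c'i ≠ 0) := by
    intro i
    by_cases h : c i = 0
    · refine ⟨0, by simp [h], fun hi => absurd (hi ▸ h) hi₀⟩
    · have hle : kk i₀ ≤ kk i := hmin i (by simp [hs, h])
      obtain ⟨n, hn⟩ := Int.le.dest hle
      refine ⟨((ℓ : ℕ) : gaussRing ℓ) ^ n * u i, ?_, ?_⟩
      · have h1 : c i = (ℓ : LaurentSeries ℚ) ^ (kk i) * (u i : LaurentSeries ℚ) := (hu i h).2
        rw [Subring.coe_mul, Subring.coe_pow, Subring.coe_natCast]
        conv_rhs => rw [h1]
        rw [← mul_assoc, ← zpow_add₀ hℓ, ← hn]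
        congr 1
        rw [show -kk i₀ + (kk i₀ + (n : ℤ)) = (n : ℤ) by ring, zpow_natCast]
      · intro hi
        subst hi
        have hn0 : n = 0 := by omega
        rw [hn0, pow_zero, one_mul]
        exact (hu i h).1
  choose c' hc' hc'0 using key
  exact ⟨-kk i₀, c', hc', i₀, hc'0 i₀ rfl⟩

/-! ### Lifting an independent family from the residue field -/

section Lift

variable {ℓ}
variable (g : gaussRing ℓ) (hgt : Transcendental (ZMod ℓ) (gaussRed ℓ g))
  {m : ℕ} (y : Fin m → gaussRing ℓ)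
  (hz : LinearIndependent ↥(IntermediateField.adjoin (ZMod ℓ) {gaussRed ℓ g})
    (fun i => gaussRed ℓ (y i)))

include hgt hz in
/-- a combination with coefficients in `ℚ(g) ∩ gaussRing` whose reduction vanishes has all
coefficients of vanishing reduction -/
theorem gaussRed_coeff_eq_zero (c : Fin m → gaussRing ℓ)
    (hcK : ∀ i, (c i : LaurentSeries ℚ) ∈ IntermediateField.adjoin ℚ {(g : LaurentSeries ℚ)})
    (h : gaussRed ℓ (∑ i, c i * y i) = 0) : ∀ i, gaussRed ℓ (c i) = 0 := by
  have hmem : ∀ i, gaussRed ℓ (c i) ∈ IntermediateField.adjoin (ZMod ℓ) {gaussRed ℓ g} :=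
    fun i => gaussRed_mem_adjoin ℓ g hgt (c i) (hcK i)
  rw [map_sum] at h
  have h' : ∑ i, (⟨gaussRed ℓ (c i), hmem i⟩ :
      IntermediateField.adjoin (ZMod ℓ) {gaussRed ℓ g}) • gaussRed ℓ (y i) = 0 := by
    rw [← h]
    refine Finset.sum_congr rfl fun i _ => ?_
    rw [map_mul]
    rfl
  have := Fintype.linearIndependent_iff.1 hz _ h'
  intro i
  exact congrArg Subtype.val (this i)

include hgt hz in
/-- the lifts are linearly independent over `ℚ(g)` -/
theorem linearIndependent_coe_of_gaussRed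
    (hK : ∀ x ∈ IntermediateField.adjoin ℚ {(g : LaurentSeries ℚ)}, x ∈ gaussField ℓ) :
    LinearIndependent ↥(IntermediateField.adjoin ℚ {(g : LaurentSeries ℚ)})
      (fun i => (y i : LaurentSeries ℚ)) := by
  rw [Fintype.linearIndependent_iff]
  intro a ha
  by_contra hne
  obtain ⟨i₁, hi₁⟩ := not_forall.1 hne
  obtain ⟨k, c', hc', i₀, hi₀⟩ := exists_zpow_mul_mem ℓ m (fun i => (a i : LaurentSeries ℚ))
    (fun i => hK _ (a i).2) ⟨i₁, fun h => hi₁ (Subtype.ext h)⟩
  have hsum : ∑ i, c' i * y i = 0 := by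
    apply Subtype.ext
    rw [AddSubmonoidClass.coe_finsetSum]
    simp only [Subring.coe_mul, hc', ZeroMemClass.coe_zero]
    have : ∑ i, (ℓ : LaurentSeries ℚ) ^ k * (a i : LaurentSeries ℚ) * (y i : LaurentSeries ℚ)
        = (ℓ : LaurentSeries ℚ) ^ k * ∑ i, a i • (y i : LaurentSeries ℚ) := by
      rw [Finset.mul_sum]
      refine Finset.sum_congr rfl fun i _ => ?_
      rw [mul_assoc]
      rfl
    rw [this, ha, mul_zero]
  have := gaussRed_coeff_eq_zero g hgt y hz c'
    (fun i => by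
      rw [hc']
      exact mul_mem (zpow_mem (natCast_mem _ ℓ) k) (a i).2)
    (by rw [hsum, map_zero])
  exact hi₀ (this i₀)

include hgt hz in
/-- an element of the Gauss ring in the `ℚ(g)`-span of the lifts has coefficients in the Gauss
ring -/
theorem exists_coeff_of_mem_span
    (hK : ∀ x ∈ IntermediateField.adjoin ℚ {(g : LaurentSeries ℚ)}, x ∈ gaussField ℓ)
    (x : gaussRing ℓ)
    (hx : (x : LaurentSeries ℚ) ∈ Submodule.span ↥(IntermediateField.adjoin ℚ {(g : LaurentSeries ℚ)})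
      (Set.range fun i => (y i : LaurentSeries ℚ))) :
    ∃ c : Fin m → gaussRing ℓ,
      (∀ i, (c i : LaurentSeries ℚ) ∈ IntermediateField.adjoin ℚ {(g : LaurentSeries ℚ)}) ∧
      x = ∑ i, c i * y i := by
  obtain ⟨a, ha⟩ := (Submodule.mem_span_range_iff_exists_fun _).1 hx
  have hℓ := natCast_ne_zero_laurent ℓ
  by_cases hall : ∀ i, a i = 0
  · refine ⟨fun _ => 0, fun i => by simp, ?_⟩
    apply Subtype.ext
    rw [← ha]
    simp [hall]
  obtain ⟨i₁, hi₁⟩ := not_forall.1 hall
  obtain ⟨k, c', hc', i₀, hi₀⟩ := exists_zpow_mul_mem ℓ m (fun i => (a i : LaurentSeries ℚ))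
    (fun i => hK _ (a i).2) ⟨i₁, fun h => hi₁ (Subtype.ext h)⟩
  have hsum : ((∑ i, c' i * y i : gaussRing ℓ) : LaurentSeries ℚ)
      = (ℓ : LaurentSeries ℚ) ^ k * (x : LaurentSeries ℚ) := by
    rw [AddSubmonoidClass.coe_finsetSum, ← ha, Finset.mul_sum]
    refine Finset.sum_congr rfl fun i _ => ?_
    rw [Subring.coe_mul, hc', mul_assoc]
    rfl
  rcases le_or_gt k 0 with hk | hk
  · obtain ⟨n, hn⟩ := Int.le.dest hk
    have hkn : k = -(n : ℤ) := by omega
    refine ⟨fun i => ((ℓ : ℕ) : gaussRing ℓ) ^ n * c' i, fun i => ?_, ?_⟩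
    · rw [Subring.coe_mul, Subring.coe_pow, Subring.coe_natCast, hc', ← mul_assoc,
        ← zpow_natCast, ← zpow_add₀ hℓ, hkn, add_neg_cancel, zpow_zero, one_mul]
      exact (a i).2
    · apply Subtype.ext
      have h1 : (∑ i, ((ℓ : ℕ) : gaussRing ℓ) ^ n * c' i * y i : gaussRing ℓ)
          = ((ℓ : ℕ) : gaussRing ℓ) ^ n * ∑ i, c' i * y i := by
        rw [Finset.mul_sum]
        exact Finset.sum_congr rfl fun i _ => mul_assoc _ _ _
      rw [h1, Subring.coe_mul, hsum, Subring.coe_pow, Subring.coe_natCast, ← mul_assoc,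
        ← zpow_natCast, ← zpow_add₀ hℓ, hkn, add_neg_cancel, zpow_zero, one_mul]
  · exfalso
    obtain ⟨n, hn⟩ := Int.le.dest hk.le
    have hkn : k = (n : ℤ) := by omega
    have hn1 : 1 ≤ n := by omega
    have hsum' : ∑ i, c' i * y i = ((ℓ : ℕ) : gaussRing ℓ) ^ n * x := by
      apply Subtype.ext
      rw [hsum, Subring.coe_mul, Subring.coe_pow, Subring.coe_natCast, hkn, zpow_natCast]
    have hred : gaussRed ℓ (∑ i, c' i * y i) = 0 := by
      rw [hsum', map_mul, map_pow, gaussRed_natCast, zero_pow (by omega), zero_mul]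
    have := gaussRed_coeff_eq_zero g hgt y hz c'
      (fun i => by
        rw [hc']
        exact mul_mem (zpow_mem (natCast_mem _ ℓ) k) (a i).2)
      hred
    exact hi₀ (this i₀)

end Lift

/-! ### The key finiteness statement -/

section Main

variable {ℓ N}

/-- the coercion `F → ℚ((q))` commutes with evaluation of integer polynomials -/
theorem coe_aeval_full (g : ↥(modularFunctionFieldFull N)) (P : ℤ[X]) :
    ((aeval g P : ↥(modularFunctionFieldFull N)) : LaurentSeries ℚ)
      = aeval (g : LaurentSeries ℚ) P :=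
 by
  rw [Polynomial.aeval_def, Polynomial.aeval_def]
  have h := Polynomial.hom_eval₂ P (algebraMap ℤ ↥(modularFunctionFieldFull N))
    ((modularFunctionFieldFull N).val : ↥(modularFunctionFieldFull N) →+* LaurentSeries ℚ) g
  rw [RingHom.ext_int (((modularFunctionFieldFull N).val :
      ↥(modularFunctionFieldFull N) →+* LaurentSeries ℚ).comp
      (algebraMap ℤ ↥(modularFunctionFieldFull N))) (algebraMap ℤ (LaurentSeries ℚ))] at h
  exact h

/-- evaluations of integer polynomials at `g` lie in `ℤ_(ℓ)[g]` -/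
theorem aeval_int_mem_adjoin (g : ↥(modularFunctionFieldFull N)) (P : ℤ[X]) :
    aeval g P ∈ Algebra.adjoin (Ol ℓ) {g} := by
  rw [← Polynomial.aeval_map_algebraMap (Ol ℓ) g P]
  exact Polynomial.aeval_mem_adjoin_singleton _ _

/-- the key finiteness statement -/
theorem exists_aeval_mul_mem_chartAlg (m : ℕ)
    (hU : IntermediateField.relrank (IntermediateField.adjoin ℚ {jq}) (modularFunctionFieldFull N)
      ≤ (m : Cardinal))
    (hL : (m : Cardinal) ≤ IntermediateField.relrank
      (IntermediateField.adjoin (ZMod ℓ) {jqModC (ZMod ℓ)}) (modularFunctionFieldFullC (ZMod ℓ) N))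
    (g : ↥(modularFunctionFieldFull N)) (hg : (g : LaurentSeries ℚ) ∈ gaussRing ℓ)
    (hgadj : IntermediateField.adjoin ℚ {(g : LaurentSeries ℚ)} = IntermediateField.adjoin ℚ {jq})
    (hgbar : IntermediateField.adjoin (ZMod ℓ) {gaussRed ℓ ⟨g, hg⟩}
      = IntermediateField.adjoin (ZMod ℓ) {jqModC (ZMod ℓ)})
    (hgt : Transcendental (ZMod ℓ) (gaussRed ℓ ⟨g, hg⟩))
    (y : ↥(modularFunctionFieldFull N)) (hy : (y : LaurentSeries ℚ) ∈ gaussRing ℓ) :
    ∃ Q : ℤ[X], Q.map (Int.castRingHom (ZMod ℓ)) ≠ 0 ∧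
      aeval g Q * y ∈ chartAlg N ℓ {g} := by
  classical
  set gV : gaussRing ℓ := ⟨g, hg⟩ with hgV
  set wV : gaussRing ℓ := ⟨y, hy⟩ with hwV
  have hgVcoe : (gV : LaurentSeries ℚ) = (g : LaurentSeries ℚ) := rfl
  have hK₀F : IntermediateField.adjoin ℚ {jq} ≤ modularFunctionFieldFull N := by
    rw [IntermediateField.adjoin_simple_le_iff]
    exact modularFunctionField_le_full N (jq_mem N)
  have hK : ∀ x ∈ IntermediateField.adjoin ℚ {(gV : LaurentSeries ℚ)}, x ∈ gaussField ℓ := by
    intro x hx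
    rw [hgVcoe, hgadj] at hx
    exact modularFunctionFieldFull_le_gaussField ℓ N (hK₀F hx)
  have hkJ : IntermediateField.adjoin (ZMod ℓ) {jqModC (ZMod ℓ)}
      ≤ modularFunctionFieldFullC (ZMod ℓ) N := by
    rw [IntermediateField.adjoin_simple_le_iff]
    exact jqModC_mem_full (ZMod ℓ) N
  obtain ⟨z, hzF, hzli⟩ := exists_linearIndependent_of_le_relrank _ _ hkJ m hL
  choose yv hyvF hyvz using fun i => exists_lift_of_mem_fullC ℓ N (z i) (hzF i)
  have hzli' : LinearIndependent ↥(IntermediateField.adjoin (ZMod ℓ) {gaussRed ℓ gV})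
      (fun i => gaussRed ℓ (yv i)) := by
    rw [hgbar]
    have : (fun i => gaussRed ℓ (yv i)) = z := funext hyvz
    rw [this]
    exact hzli
  have hli := linearIndependent_coe_of_gaussRed gV hgt yv hzli' hK
  have hspan : ∀ x ∈ modularFunctionFieldFull N,
      x ∈ Submodule.span ↥(IntermediateField.adjoin ℚ {(gV : LaurentSeries ℚ)})
        (Set.range fun i => (yv i : LaurentSeries ℚ)) := by
    intro x hx
    refine mem_span_of_relrank_le _ _ ?_ m ?_ _ hyvF hli x hx
    · rw [hgVcoe, hgadj]; exact hK₀F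
    · rw [hgVcoe, hgadj]; exact hU
  have hcoef : ∀ j, ∃ c : Fin m → gaussRing ℓ,
      (∀ i, (c i : LaurentSeries ℚ) ∈ IntermediateField.adjoin ℚ {(gV : LaurentSeries ℚ)}) ∧
      wV * yv j = ∑ i, c i * yv i := fun j =>
    exists_coeff_of_mem_span gV hgt yv hzli' hK (wV * yv j) (hspan _ (mul_mem y.2 (hyvF j)))
  choose c hcK hc using hcoef
  have hpoly : ∀ j i, ∃ P Q : ℤ[X], Q.map (Int.castRingHom (ZMod ℓ)) ≠ 0 ∧
      c j i * aeval gV Q = aeval gV P :=
    fun j i => exists_poly_of_mem_adjoin ℓ gV hgt (c j i) (hcK j i)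
  choose P Q hQ hPQ using hpoly
  set Qt : ℤ[X] := ∏ j, ∏ i, Q j i with hQt
  have hQt0 : Qt.map (Int.castRingHom (ZMod ℓ)) ≠ 0 := by
    rw [hQt, Polynomial.map_prod]
    refine Finset.prod_ne_zero_iff.2 fun j _ => ?_
    rw [Polynomial.map_prod]
    exact Finset.prod_ne_zero_iff.2 fun i _ => hQ j i
  have hR : ∀ j i, ∃ R : ℤ[X], aeval gV Qt * c j i = aeval gV R := by
    intro j i
    have hdvd : Q j i ∣ Qt :=
      (Finset.dvd_prod_of_mem (fun i => Q j i) (Finset.mem_univ i)).trans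
        (Finset.dvd_prod_of_mem (fun j => ∏ i, Q j i) (Finset.mem_univ j))
    obtain ⟨Q', hQ'⟩ := hdvd
    refine ⟨Q' * P j i, ?_⟩
    rw [hQ', map_mul, map_mul, ← hPQ j i]
    ring
  choose R hR using hR
  refine ⟨Qt, hQt0, ?_⟩
  set yF : Fin m → ↥(modularFunctionFieldFull N) :=
    fun i => ⟨(yv i : LaurentSeries ℚ), hyvF i⟩ with hyF
  rw [mem_chartAlg_iff]
  refine isIntegral_of_smul_mem_submodule
    (Submodule.span ↥(Algebra.adjoin (Ol ℓ) {g}) (Set.range yF)) ?_
    (Submodule.fg_span (Set.finite_range _)) _ ?_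
  · intro hbot
    have h0 : ∀ i, yF i = 0 := fun i => by
      have : yF i ∈ Submodule.span ↥(Algebra.adjoin (Ol ℓ) {g}) (Set.range yF) :=
        Submodule.subset_span ⟨i, rfl⟩
      rw [hbot] at this
      exact (Submodule.mem_bot _).1 this
    have h1 := hspan 1 (one_mem _)
    have hsub : Set.range (fun i => (yv i : LaurentSeries ℚ)) ⊆ {0} := by
      rintro _ ⟨i, rfl⟩
      exact congrArg Subtype.val (h0 i)
    have h2 := Submodule.span_mono
      (R := ↥(IntermediateField.adjoin ℚ {(gV : LaurentSeries ℚ)})) hsub h1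
    rw [Submodule.span_zero_singleton, Submodule.mem_bot] at h2
    exact one_ne_zero h2
  · intro n hn
    induction hn using Submodule.span_induction with
    | mem x hx =>
      obtain ⟨j, rfl⟩ := hx
      have hG : aeval gV Qt * (wV * yv j) = ∑ i, aeval gV (R j i) * yv i := by
        rw [hc j, Finset.mul_sum]
        refine Finset.sum_congr rfl fun i _ => ?_
        rw [← mul_assoc, hR]
      have key : (aeval g Qt * y) • yF j
          = ∑ i, (⟨aeval g (R j i), aeval_int_mem_adjoin g (R j i)⟩ :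
              ↥(Algebra.adjoin (Ol ℓ) {g})) • yF i := by
        apply Subtype.ext
        have hG' := congrArg (Subtype.val : gaussRing ℓ → LaurentSeries ℚ) hG
        rw [Subring.coe_mul, Subring.coe_mul, coe_aeval_gaussRing,
          AddSubmonoidClass.coe_finsetSum] at hG'
        simp only [Subring.coe_mul, coe_aeval_gaussRing] at hG'
        rw [smul_eq_mul, MulMemClass.coe_mul, MulMemClass.coe_mul, coe_aeval_full,
          AddSubmonoidClass.coe_finsetSum]
        rw [mul_assoc]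
        refine hG'.trans (Finset.sum_congr rfl fun i _ => ?_)
        rw [← coe_aeval_full]
        rfl
      rw [key]
      exact Submodule.sum_mem _ fun i _ =>
        Submodule.smul_mem _ _ (Submodule.subset_span ⟨i, rfl⟩)
    | zero => rw [smul_zero]; exact zero_mem _
    | add a b _ _ ha hb => rw [smul_add]; exact add_mem ha hb
    | smul a x _ hx => rw [smul_comm]; exact Submodule.smul_mem _ _ hx

end Main

end Fermat.Agent.S28L
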