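import Fermat.Agent.S28L.P4Gauss

/-!
# S28, package (4), part B: rational functions of a generator inside the Gauss ring

For `g` in the Gauss ring with transcendental reduction, every element of `ℚ(g)` lying in the
Gauss ring is `P(g)/Q(g)` with `P, Q ∈ ℤ[X]` and `Q ≢ 0 mod ℓ`; hence its reduction lies in
`𝔽_ℓ(ḡ)`.
-/

set_option autoImplicit false

noncomputable section

namespace Fermat.Agent.S28L

open ModularCurve HahnSeries Polynomial

variable (ℓ : ℕ) [Fact ℓ.Prime]

/-- multiplication by a constant on Laurent series, coefficientwise -/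
theorem content_coeff_algebraMap_mul (k : Type*) [Field k] (c : k) (x : LaurentSeries k)
    (m : ℤ) : (algebraMap k (LaurentSeries k) c * x).coeff m = c * x.coeff m := by
  rw [algebraMap_laurentSeries_eq_single]
  exact HahnSeries.coeff_single_zero_mul

/-- `j` is transcendental over any field (leading term of `P(j)`) -/
theorem transcendental_jqModC (k : Type*) [Field k] : Transcendental k (jqModC k) := by
  rw [transcendental_iff]
  intro P hP
  by_contra hP0
  have hcoeff : (aeval (jqModC k) P).coeff (-(P.natDegree : ℤ)) = P.leadingCoeff := by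
    rw [Polynomial.aeval_eq_sum_range, HahnSeries.coeff_sum,
      Finset.sum_eq_single P.natDegree]
    · rw [Algebra.smul_def, content_coeff_algebraMap_mul, coeff_jqModC_pow_self, mul_one]
      rfl
    · intro i hi hne
      have hlt : i < P.natDegree :=
        lt_of_le_of_ne (Nat.lt_succ_iff.1 (Finset.mem_range.1 hi)) hne
      rw [Algebra.smul_def, content_coeff_algebraMap_mul,
        coeff_jqModC_pow_of_lt k (by omega), mul_zero]
    · intro h
      exact absurd (Finset.mem_range.2 (Nat.lt_succ_self _)) h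
  rw [hP, HahnSeries.coeff_zero] at hcoeff
  exact hP0 (Polynomial.leadingCoeff_eq_zero.1 hcoeff.symm)

/-- ring homomorphisms commute with the evaluation of integer polynomials, for arbitrary
`ℤ`-algebra structures -/
theorem content_ringHom_aeval {A B : Type*} [CommRing A] [CommRing B] [Algebra ℤ A]
    [Algebra ℤ B] (f : A →+* B) (a : A) (P : ℤ[X]) : f (aeval a P) = aeval (f a) P := by
  rw [Polynomial.aeval_def, Polynomial.aeval_def, Polynomial.hom_eval₂]
  congr 1
  exact RingHom.ext_int _ _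

/-- the coercion of the Gauss ring commutes with integer polynomial evaluation -/
theorem coe_aeval_gaussRing (g : gaussRing ℓ) (P : ℤ[X]) :
    ((aeval g P : gaussRing ℓ) : LaurentSeries ℚ) = aeval (g : LaurentSeries ℚ) P :=
  content_ringHom_aeval (gaussRing ℓ).subtype g P

/-- reduction commutes with integer polynomial evaluation -/
theorem gaussRed_aeval (g : gaussRing ℓ) (P : ℤ[X]) :
    gaussRed ℓ (aeval g P) = aeval (gaussRed ℓ g) (P.map (Int.castRingHom (ZMod ℓ))) := by
  rw [content_ringHom_aeval, Polynomial.aeval_def, Polynomial.aeval_def, Polynomial.eval₂_map]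
  congr 1
  exact RingHom.ext_int _ _

/-- an integer polynomial vanishes mod `ℓ` iff it is divisible by the constant `ℓ` -/
theorem content_map_eq_zero_iff (S : ℤ[X]) :
    S.map (Int.castRingHom (ZMod ℓ)) = 0 ↔ C (ℓ : ℤ) ∣ S := by
  rw [Polynomial.C_dvd_iff_dvd_coeff, Polynomial.ext_iff]
  refine forall_congr' fun i => ?_
  rw [Polynomial.coeff_map, Polynomial.coeff_zero, eq_intCast,
    ZMod.intCast_zmod_eq_zero_iff_dvd]

/-- `ℓ` is nonzero in the Gauss ring -/
theorem content_natCast_ne_zero : ((ℓ : ℕ) : gaussRing ℓ) ≠ 0 := by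
  intro h
  have hchar : CharZero (LaurentSeries ℚ) := algebraRat.charZero _
  have h1 : ((ℓ : ℕ) : LaurentSeries ℚ) = 0 := by
    have h2 := congrArg (gaussRing ℓ).subtype h
    rwa [map_natCast, map_zero] at h2
  exact (Fact.out : ℓ.Prime).ne_zero (Nat.cast_eq_zero.1 h1)

/-- the value of an integer constant polynomial in the Gauss ring -/
theorem content_aeval_C (g : gaussRing ℓ) (b : ℤ) :
    aeval g (C b : ℤ[X]) = (b : gaussRing ℓ) := by
  rw [aeval_C]
  exact eq_intCast _ b

/-- descent on the power of `ℓ` dividing the denominator polynomial -/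
theorem content_aux (g : gaussRing ℓ) (hgt : Transcendental (ZMod ℓ) (gaussRed ℓ g))
    (x : gaussRing ℓ) :
    ∀ (n : ℕ) (R S : ℤ[X]), ¬ (C (ℓ : ℤ) ∣ S) →
      x * aeval g (C (ℓ : ℤ) ^ n * S) = aeval g R →
      ∃ P Q : ℤ[X], Q.map (Int.castRingHom (ZMod ℓ)) ≠ 0 ∧ x * aeval g Q = aeval g P := by
  intro n
  induction n with
  | zero =>
    intro R S hS h
    refine ⟨R, S, fun h0 => hS ((content_map_eq_zero_iff ℓ S).1 h0), ?_⟩
    rwa [pow_zero, one_mul] at h
  | succ n ih =>
    intro R S hS h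
    by_cases hR : C (ℓ : ℤ) ∣ R
    · obtain ⟨R', rfl⟩ := hR
      refine ih R' S hS ?_
      have hl : ((ℓ : ℕ) : gaussRing ℓ) ≠ 0 := content_natCast_ne_zero ℓ
      apply mul_left_cancel₀ hl
      have e1 : aeval g (C (ℓ : ℤ) ^ (n + 1) * S) =
          ((ℓ : ℕ) : gaussRing ℓ) * aeval g (C (ℓ : ℤ) ^ n * S) := by
        rw [pow_succ', mul_assoc, map_mul, content_aeval_C, Int.cast_natCast]
      have e2 : aeval g (C (ℓ : ℤ) * R') = ((ℓ : ℕ) : gaussRing ℓ) * aeval g R' := by
        rw [map_mul, content_aeval_C, Int.cast_natCast]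
      rw [e1, e2] at h
      rw [← h]
      ring
    · exfalso
      apply hR
      rw [← content_map_eq_zero_iff]
      apply (transcendental_iff.1 hgt)
      rw [← gaussRed_aeval, ← h, map_mul, gaussRed_aeval]
      have h0 : (C (ℓ : ℤ) ^ (n + 1) * S).map (Int.castRingHom (ZMod ℓ)) = 0 := by
        rw [content_map_eq_zero_iff]
        exact Dvd.dvd.mul_right (dvd_pow_self _ (Nat.succ_ne_zero n)) S
      rw [h0, map_zero, mul_zero]

/-- evaluation of an integer polynomial through `ℚ`, for an arbitrary `ℤ`-algebra structure -/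
theorem content_aeval_map_int {K : Type*} [Field K] [Algebra ℚ K] [Algebra ℤ K] (G : K)
    (P : ℤ[X]) : aeval G (P.map (algebraMap ℤ ℚ)) = aeval G P := by
  rw [Polynomial.aeval_def, Polynomial.aeval_def, Polynomial.eval₂_map]
  congr 1
  exact RingHom.ext_int _ _

/-- clearing denominators of a quotient of rational polynomial expressions -/
theorem content_clear_denominators {K : Type*} [Field K] [Algebra ℚ K] [Algebra ℤ K] (G : K)
    (r s : ℚ[X]) (hs : aeval G s ≠ 0) :
    ∃ R S : ℤ[X], S ≠ 0 ∧ aeval G r / aeval G s * aeval G S = aeval G R := by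
  have hchar : CharZero K := algebraRat.charZero K
  obtain ⟨b₁, hb₁, h₁⟩ := IsLocalization.integerNormalization_spec (nonZeroDivisors ℤ) r
  obtain ⟨b₂, hb₂, h₂⟩ := IsLocalization.integerNormalization_spec (nonZeroDivisors ℤ) s
  have e₁ : aeval G (IsLocalization.integerNormalization (nonZeroDivisors ℤ) r) =
      (b₁ : K) * aeval G r := by
    rw [← content_aeval_map_int G, h₁, map_zsmul, zsmul_eq_mul]
  have e₂ : aeval G (IsLocalization.integerNormalization (nonZeroDivisors ℤ) s) =
      (b₂ : K) * aeval G s := by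
    rw [← content_aeval_map_int G, h₂, map_zsmul, zsmul_eq_mul]
  have hb₁' : (b₁ : K) ≠ 0 := Int.cast_ne_zero.2 (mem_nonZeroDivisors_iff_ne_zero.1 hb₁)
  have hb₂' : (b₂ : K) ≠ 0 := Int.cast_ne_zero.2 (mem_nonZeroDivisors_iff_ne_zero.1 hb₂)
  have hC : ∀ b : ℤ, aeval G (C b : ℤ[X]) = (b : K) := fun b => by
    rw [aeval_C]
    exact eq_intCast _ b
  refine ⟨C b₂ * IsLocalization.integerNormalization (nonZeroDivisors ℤ) r,
    C b₁ * IsLocalization.integerNormalization (nonZeroDivisors ℤ) s, ?_, ?_⟩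
  · intro h0
    have h3 :
        aeval G (C b₁ * IsLocalization.integerNormalization (nonZeroDivisors ℤ) s) = 0 := by
      rw [h0, map_zero]
    rw [map_mul, hC, e₂] at h3
    exact mul_ne_zero hb₁' (mul_ne_zero hb₂' hs) h3
  · rw [map_mul, map_mul, hC, hC, e₁, e₂]
    field_simp

/-- content normalisation: an element of `ℚ(g)` lying in the Gauss ring is `P(g)/Q(g)` with
`Q ≢ 0 mod ℓ` -/
theorem exists_poly_of_mem_adjoin (g : gaussRing ℓ)
    (hgt : Transcendental (ZMod ℓ) (gaussRed ℓ g)) (x : gaussRing ℓ)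
    (hx : (x : LaurentSeries ℚ) ∈ IntermediateField.adjoin ℚ {(g : LaurentSeries ℚ)}) :
    ∃ P Q : ℤ[X], Q.map (Int.castRingHom (ZMod ℓ)) ≠ 0 ∧ x * aeval g Q = aeval g P := by
  obtain ⟨r, s, hrs⟩ := (IntermediateField.mem_adjoin_simple_iff ℚ _).1 hx
  by_cases hs : aeval (g : LaurentSeries ℚ) s = 0
  · have hx0 : x = 0 := by
      apply Subtype.ext
      rw [hrs, hs, div_zero, Subring.coe_zero]
    refine ⟨0, 1, ?_, ?_⟩
    · rw [Polynomial.map_one]
      exact one_ne_zero
    · rw [hx0, zero_mul, map_zero]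
  · obtain ⟨R, S, hS, hRS⟩ := content_clear_denominators (g : LaurentSeries ℚ) r s hs
    have hprime : Prime (C (ℓ : ℤ)) :=
      Polynomial.prime_C_iff.2 (Nat.prime_iff_prime_int.1 Fact.out)
    obtain ⟨n, S', hS', rfl⟩ := WfDvdMonoid.max_power_factor hS hprime.irreducible
    refine content_aux ℓ g hgt x n R S' hS' ?_
    apply Subtype.ext
    rw [Subring.coe_mul, coe_aeval_gaussRing, coe_aeval_gaussRing, hrs]
    exact hRS

/-- the reduction of `ℚ(g) ∩ gaussRing` lies in `𝔽_ℓ(ḡ)` -/
theorem gaussRed_mem_adjoin (g : gaussRing ℓ)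
    (hgt : Transcendental (ZMod ℓ) (gaussRed ℓ g)) (x : gaussRing ℓ)
    (hx : (x : LaurentSeries ℚ) ∈ IntermediateField.adjoin ℚ {(g : LaurentSeries ℚ)}) :
    gaussRed ℓ x ∈ IntermediateField.adjoin (ZMod ℓ) {gaussRed ℓ g} := by
  obtain ⟨P, Q, hQ, h⟩ := exists_poly_of_mem_adjoin ℓ g hgt x hx
  have h' := congrArg (gaussRed ℓ) h
  rw [map_mul, gaussRed_aeval, gaussRed_aeval] at h'
  have hQ' : aeval (gaussRed ℓ g) (Q.map (Int.castRingHom (ZMod ℓ))) ≠ 0 :=
    fun h0 => hQ (transcendental_iff.1 hgt _ h0)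
  rw [IntermediateField.mem_adjoin_simple_iff]
  exact ⟨_, _, eq_div_of_mul_eq hQ' h'⟩

end Fermat.Agent.S28L
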