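/-
S28, package P5 (owner: helper6): the characteristic-0 upper bound `[F : ℚ(j)] ≤ ψ(N)`.
INTERFACE FILE: the statement below is frozen.  The proof is in `S28L/DegBarAux.lean`.
-/
import Mathlib
import Fermat.Prelude.Def_ModularCurve_X0ModL
import Fermat.Agent.S28L.DegBarAux

set_option autoImplicit false
noncomputable section

namespace Fermat.Agent.S28L

open ModularCurve

theorem relrank_full_le (N : ℕ) [NeZero N] :
    IntermediateField.relrank (IntermediateField.adjoin ℚ {jq}) (modularFunctionFieldFull N) ≤
      (dedekindPsi N : Cardinal) := by
  exact Fermat.Agent.S28L.DegBar.relrank_full_le N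

end Fermat.Agent.S28L
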