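import Mathlib
import Fermat.Prelude.Def_ModularCurve_X0ModL

/-!
# S28, package (4), part F: descent of the degree lower bound to the prime field

`[k(j̄_d : d ∣ N) : k(j̄)] ≤ [𝔽_ℓ(j̄_d : d ∣ N) : 𝔽_ℓ(j̄)]` for every field `k` of characteristic `ℓ`.
-/

set_option autoImplicit false

noncomputable section

namespace Fermat.Agent.S28L

open ModularCurve

/-- Abstract descent of degrees: if `P ≤ Q` and `P ≤ A ≤ B ≤ A ⊔ Q` are subfields of a field `K`
with `Q / P` finite, then `[B : A] ≤ [Q : P]`. -/
theorem descent_subfield_relrank_le {K : Type*} [Field K] {P Q A B : Subfield K}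
    (hPQ : P ≤ Q) (hPA : P ≤ A) (hAB : A ≤ B) (hB : B ≤ A ⊔ Q)
    (hfin : Subfield.relrank P Q < Cardinal.aleph0) :
    Subfield.relrank A B ≤ Subfield.relrank P Q := by
  rw [Subfield.relrank_eq_rank_of_le hPQ] at hfin ⊢
  rw [Subfield.relrank_eq_rank_of_le hAB]
  let _ : Algebra P A := (Subfield.inclusion hPA).toAlgebra
  have : IsScalarTower P A K := IsScalarTower.of_algebraMap_eq' rfl
  have : Module.Finite P (Subfield.extendScalars hPQ) := Module.rank_lt_aleph0_iff.mp hfin
  have : Algebra.IsAlgebraic P (Subfield.extendScalars hPQ) := Algebra.IsAlgebraic.of_finite _ _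
  refine le_trans ?_
    (IntermediateField.adjoin_rank_le_of_isAlgebraic_right A (Subfield.extendScalars hPQ))
  have hA : A ≤ (IntermediateField.adjoin A
      ((Subfield.extendScalars hPQ : IntermediateField P K) : Set K)).toSubfield :=
    fun a ha => (IntermediateField.adjoin A
      ((Subfield.extendScalars hPQ : IntermediateField P K) : Set K)).algebraMap_mem ⟨a, ha⟩
  have hQ : Q ≤ (IntermediateField.adjoin A
      ((Subfield.extendScalars hPQ : IntermediateField P K) : Set K)).toSubfield :=
    fun q hq => IntermediateField.subset_adjoin A _ hq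
  have hle : Subfield.extendScalars hAB ≤ IntermediateField.adjoin A
      ((Subfield.extendScalars hPQ : IntermediateField P K) : Set K) :=
    fun x hx => sup_le hA hQ (hB hx)
  exact (IntermediateField.inclusion hle).toLinearMap.rank_le_of_injective
    (IntermediateField.inclusion hle).injective

theorem relrank_fullC_descent (ℓ : ℕ) [Fact ℓ.Prime] (k : Type) [Field k] [CharP k ℓ]
    (N : ℕ) [NeZero N] (m : ℕ)
    (h : (m : Cardinal) ≤ IntermediateField.relrank
      (IntermediateField.adjoin k {jqModC k}) (modularFunctionFieldFullC k N)) :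
    (m : Cardinal) ≤ IntermediateField.relrank
      (IntermediateField.adjoin (ZMod ℓ) {jqModC (ZMod ℓ)})
      (modularFunctionFieldFullC (ZMod ℓ) N) := by
  let f : ZMod ℓ →+* k := ZMod.castHom (dvd_refl ℓ) k
  let c : LaurentSeries (ZMod ℓ) →+* LaurentSeries k := coeffMap f
  rcases lt_or_ge (IntermediateField.relrank
      (IntermediateField.adjoin (ZMod ℓ) {jqModC (ZMod ℓ)})
      (modularFunctionFieldFullC (ZMod ℓ) N)) Cardinal.aleph0 with hfin | hinf
  · refine h.trans ?_
    have hE : IntermediateField.adjoin (ZMod ℓ) {jqModC (ZMod ℓ)} ≤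
        modularFunctionFieldFullC (ZMod ℓ) N := by
      rw [IntermediateField.adjoin_le_iff]
      exact Set.singleton_subset_iff.mpr (jqModC_mem_full _ N)
    have hA : IntermediateField.adjoin k {jqModC k} ≤ modularFunctionFieldFullC k N := by
      rw [IntermediateField.adjoin_le_iff]
      exact Set.singleton_subset_iff.mpr (jqModC_mem_full _ N)
    have key := descent_subfield_relrank_le
      (P := (IntermediateField.adjoin (ZMod ℓ) {jqModC (ZMod ℓ)}).toSubfield.map c)
      (Q := (modularFunctionFieldFullC (ZMod ℓ) N).toSubfield.map c)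
      (A := (IntermediateField.adjoin k {jqModC k}).toSubfield)
      (B := (modularFunctionFieldFullC k N).toSubfield)
      ((Subfield.gc_map_comap c).monotone_l hE) ?_ hA ?_ ?_
    · rwa [Subfield.relrank_map_map] at key
    · -- the image of `𝔽_ℓ(j)` lies in `k(j)`
      rw [Subfield.map_le_iff_le_comap]
      show Subfield.closure _ ≤ _
      rw [Subfield.closure_le]
      rintro x (⟨a, rfl⟩ | rfl)
      · show coeffMap f (algebraMap (ZMod ℓ) (LaurentSeries (ZMod ℓ)) a) ∈
          IntermediateField.adjoin k {jqModC k}
        rw [algebraMap_laurentSeries_eq_single, coeffMap_single,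
          ← algebraMap_laurentSeries_eq_single]
        exact IntermediateField.algebraMap_mem _ _
      · show coeffMap f (jqModC (ZMod ℓ)) ∈ IntermediateField.adjoin k {jqModC k}
        rw [coeffMap_jqModC f]
        exact IntermediateField.mem_adjoin_simple_self k _
    · -- `k(j_d : d ∣ N)` is generated over `k(j)` by the image of `𝔽_ℓ(j_d : d ∣ N)`
      show Subfield.closure _ ≤ _
      rw [Subfield.closure_le]
      rintro x (⟨a, rfl⟩ | ⟨d, hne, hd, rfl⟩)
      · exact (le_sup_left : (IntermediateField.adjoin k {jqModC k}).toSubfield ≤ _)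
          (IntermediateField.algebraMap_mem _ a)
      · have := hne
        refine (le_sup_right : Subfield.map c
          (modularFunctionFieldFullC (ZMod ℓ) N).toSubfield ≤ _) ?_
        refine ⟨qExpand (ZMod ℓ) d (jqModC (ZMod ℓ)), jqModCd_mem_full _ N hd, ?_⟩
        show coeffMap f _ = _
        rw [coeffMap_qExpand, coeffMap_jqModC]
    · rwa [Subfield.relrank_map_map]
  · exact (Cardinal.natCast_lt_aleph0 (n := m)).le.trans hinf

end Fermat.Agent.S28L
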