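/-
S28, package P0 (owner: helper110): the scheme-theoretic glue.
INTERFACE FILE: the statement of `isIntegral_pullback_of_isDomain` below is frozen.

The fibre of the Igusa scheme over a field `K` is covered by the two affine charts
`Spec (B_fin ⊗ K)` and `Spec (B_inf ⊗ K)`, which meet in (the image of) `Spec (B_mid ⊗ K)`.
Hence it is an integral scheme as soon as the first two rings are domains and the third one is
nontrivial.
-/
import Mathlib
import Fermat.Prelude.Def_ModularCurve_IgusaScheme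
import Fermat.Prelude.Def_ModularCurve_X0ModL

set_option autoImplicit false
open AlgebraicGeometry CategoryTheory CategoryTheory.Limits ModularCurve ModularCurve.IgusaScheme
open scoped TensorProduct
noncomputable section

namespace Fermat.Agent.S28L

/-- The union of two preirreducible sets which meet, one of them being open, is
preirreducible. -/
theorem glue_isPreirreducible_union {X : Type*} [TopologicalSpace X] {s t : Set X}
    (hs : IsPreirreducible s) (ht : IsPreirreducible t) (hto : IsOpen t)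
    (hst : (s ∩ t).Nonempty) : IsPreirreducible (s ∪ t) := by
  obtain ⟨w, hws, hwt⟩ := hst
  have key : ∀ u : Set X, IsOpen u → ((s ∪ t) ∩ u).Nonempty → (t ∩ u).Nonempty := by
    rintro u hu ⟨x, hx | hx, hxu⟩
    · obtain ⟨x', hx's, hx'u, hx't⟩ := hs u t hu hto ⟨x, hx, hxu⟩ ⟨w, hws, hwt⟩
      exact ⟨x', hx't, hx'u⟩
    · exact ⟨x, hx, hxu⟩
  intro u v hu hv hxu hyv
  obtain ⟨z, hzt, hzuv⟩ := ht u v hu hv (key u hu hxu) (key v hv hyv)
  exact ⟨z, Or.inr hzt, hzuv⟩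

/-- two ways of mapping a fibre product into `X ×[S] Y` through charts `c₁`, `c₂` of `X`
agree as soon as the maps into `X` agree -/
theorem glue_map_map_eq {C : Type*} [Category C] {M A₁ A₂ X Y S : C}
    (f₁ : M ⟶ S) (g : Y ⟶ S) (k : X ⟶ S) (c₁ : A₁ ⟶ X) (c₂ : A₂ ⟶ X) (u₁ : M ⟶ A₁) (u₂ : M ⟶ A₂)
    [HasPullback f₁ g] [HasPullback (c₁ ≫ k) g] [HasPullback (c₂ ≫ k) g] [HasPullback k g]
    (e₁ : f₁ ≫ 𝟙 S = u₁ ≫ c₁ ≫ k) (e₂ : f₁ ≫ 𝟙 S = u₂ ≫ c₂ ≫ k) (e₃ : g ≫ 𝟙 S = 𝟙 Y ≫ g)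
    (e₄ : (c₁ ≫ k) ≫ 𝟙 S = c₁ ≫ k) (e₅ : (c₂ ≫ k) ≫ 𝟙 S = c₂ ≫ k) (h : u₁ ≫ c₁ = u₂ ≫ c₂) :
    pullback.map f₁ g (c₁ ≫ k) g u₁ (𝟙 Y) (𝟙 S) e₁ e₃ ≫
        pullback.map (c₁ ≫ k) g k g c₁ (𝟙 Y) (𝟙 S) e₄ e₃ =
      pullback.map f₁ g (c₂ ≫ k) g u₂ (𝟙 Y) (𝟙 S) e₂ e₃ ≫
        pullback.map (c₂ ≫ k) g k g c₂ (𝟙 Y) (𝟙 S) e₅ e₃ := by
  apply pullback.hom_ext
  · simp only [pullback.map, Category.assoc, pullback.lift_fst, pullback.lift_fst_assoc, h]
  · simp only [pullback.map, Category.assoc, pullback.lift_snd, pullback.lift_snd_assoc]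

/-- A scheme with an open cover by integral schemes, two members of which already cover it and
meet, is integral. -/
theorem glue_isIntegral_of_openCover {P : Scheme.{0}} (𝒱 : P.OpenCover)
    [∀ i, IsIntegral (𝒱.X i)] (i j : 𝒱.I₀)
    (hcov : ∀ x : P, x ∈ Set.range (𝒱.f i) ∨ x ∈ Set.range (𝒱.f j))
    (hmeet : (Set.range (𝒱.f i) ∩ Set.range (𝒱.f j)).Nonempty) : IsIntegral P := by
  have hred : IsReduced P := IsReduced.of_openCover P 𝒱
  have hirr : ∀ a : 𝒱.I₀, IsIrreducible (Set.range (𝒱.f a)) := by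
    intro a
    have := (IrreducibleSpace.isIrreducible_univ (𝒱.X a)).image (𝒱.f a)
      (𝒱.f a).continuous.continuousOn
    rwa [Set.image_univ] at this
  have hopen : IsOpen (Set.range (𝒱.f j)) := (𝒱.f j).isOpenEmbedding.isOpen_range
  have huniv : (Set.univ : Set P) = Set.range (𝒱.f i) ∪ Set.range (𝒱.f j) := by
    ext x
    simpa using hcov x
  have hpre : IsPreirreducible (Set.univ : Set P) := by
    rw [huniv]
    exact glue_isPreirreducible_union (hirr i).isPreirreducible (hirr j).isPreirreducible hopen hmeet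
  have hne : Nonempty P := ⟨hmeet.some⟩
  have : IrreducibleSpace P :=
    { toPreirreducibleSpace := ⟨hpre⟩
      toNonempty := hne }
  exact isIntegral_of_irreducibleSpace_of_isReduced P

variable (N : ℕ) [NeZero N] (ℓ : ℕ) [Fact ℓ.Prime]

/-- the two charts of the Igusa scheme -/
def glue_X : Bool → Scheme.{0}
  | true => XFin N ℓ
  | false => XInf N ℓ

/-- the two chart maps of the Igusa scheme -/
def glue_f : ∀ b : Bool, glue_X N ℓ b ⟶ ModularCurve.IgusaScheme N ℓ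
  | true => ιFin N ℓ
  | false => ιInf N ℓ

instance glue_isOpenImmersion_f (b : Bool) : IsOpenImmersion (glue_f N ℓ b) := by
  cases b
  · exact isOpenImmersion_ιInf N ℓ
  · exact isOpenImmersion_ιFin N ℓ

/-- the two-chart open cover of the Igusa scheme -/
def glue_cover : (ModularCurve.IgusaScheme N ℓ).OpenCover :=
  Scheme.Cover.mkOfCovers Bool (glue_X N ℓ) (glue_f N ℓ) (by
    intro x
    rcases mem_range_ιFin_or_mem_range_ιInf N ℓ x with ⟨y, hy⟩ | ⟨y, hy⟩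
    · exact ⟨true, y, hy⟩
    · exact ⟨false, y, hy⟩) (fun b => glue_isOpenImmersion_f N ℓ b)

variable (K : Type) [Field K] [Algebra ↥(GaloisRep.ratLocalizedAt ℓ) K]

/-- the chart of the fibre lying over `XFin` is integral -/
theorem glue_isIntegral_fin
    (hfin : IsDomain (↥(chartAlgFin N ℓ) ⊗[↥(GaloisRep.ratLocalizedAt ℓ)] K)) :
    IsIntegral ↑(pullback (ιFin N ℓ ≫ igusaTo N ℓ)
      (Spec.map (CommRingCat.ofHom (algebraMap ↥(GaloisRep.ratLocalizedAt ℓ) K)))) := by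
  rw [ιFin_igusaTo]
  exact IsIntegral.of_isIso (pullbackSpecIso _ _ _).inv

/-- the chart of the fibre lying over `XInf` is integral -/
theorem glue_isIntegral_inf
    (hinf : IsDomain (↥(chartAlgInf N ℓ) ⊗[↥(GaloisRep.ratLocalizedAt ℓ)] K)) :
    IsIntegral ↑(pullback (ιInf N ℓ ≫ igusaTo N ℓ)
      (Spec.map (CommRingCat.ofHom (algebraMap ↥(GaloisRep.ratLocalizedAt ℓ) K)))) := by
  rw [ιInf_igusaTo]
  exact IsIntegral.of_isIso (pullbackSpecIso _ _ _).inv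

omit [Fact ℓ.Prime] in
/-- the fibre of the middle chart is nonempty -/
theorem glue_nonempty_mid
    (hmid : Nontrivial (↥(chartAlgMid N ℓ) ⊗[↥(GaloisRep.ratLocalizedAt ℓ)] K)) :
    Nonempty ↑(pullback
      (Spec.map (CommRingCat.ofHom (algebraMap ↥(GaloisRep.ratLocalizedAt ℓ) ↥(chartAlgMid N ℓ))))
      (Spec.map (CommRingCat.ofHom (algebraMap ↥(GaloisRep.ratLocalizedAt ℓ) K)))) := by
  have h : Nonempty ↑(Spec (CommRingCat.of
      (↥(chartAlgMid N ℓ) ⊗[↥(GaloisRep.ratLocalizedAt ℓ)] K))) := inferInstance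
  exact h.map (pullbackSpecIso _ _ _).inv

theorem glue_fFin_toBase :
    fFin N ℓ ≫ ιFin N ℓ ≫ igusaTo N ℓ =
      Spec.map (CommRingCat.ofHom
        (algebraMap ↥(GaloisRep.ratLocalizedAt ℓ) ↥(chartAlgMid N ℓ))) := by
  rw [ιFin_igusaTo, ← Spec.map_comp, ← CommRingCat.ofHom_comp]
  rfl

theorem glue_fInf_toBase :
    fInf N ℓ ≫ ιInf N ℓ ≫ igusaTo N ℓ =
      Spec.map (CommRingCat.ofHom
        (algebraMap ↥(GaloisRep.ratLocalizedAt ℓ) ↥(chartAlgMid N ℓ))) := by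
  rw [ιInf_igusaTo, ← Spec.map_comp, ← CommRingCat.ofHom_comp]
  rfl

set_option maxHeartbeats 4000000 in
set_option synthInstance.maxHeartbeats 400000 in
theorem isIntegral_pullback_of_isDomain (N : ℕ) [NeZero N] (ℓ : ℕ) [Fact ℓ.Prime]
    (K : Type) [Field K] [Algebra ↥(GaloisRep.ratLocalizedAt ℓ) K]
    (hfin : IsDomain (↥(chartAlgFin N ℓ) ⊗[↥(GaloisRep.ratLocalizedAt ℓ)] K))
    (hinf : IsDomain (↥(chartAlgInf N ℓ) ⊗[↥(GaloisRep.ratLocalizedAt ℓ)] K))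
    (hmid : Nontrivial (↥(chartAlgMid N ℓ) ⊗[↥(GaloisRep.ratLocalizedAt ℓ)] K)) :
    IsIntegral ↑(pullback (igusaTo N ℓ)
      (Spec.map (CommRingCat.ofHom (algebraMap ↥(GaloisRep.ratLocalizedAt ℓ) K)))) := by
  let g := Spec.map (CommRingCat.ofHom (algebraMap ↥(GaloisRep.ratLocalizedAt ℓ) K))
  let 𝒱 := Scheme.Pullback.openCoverOfLeft (glue_cover N ℓ) (igusaTo N ℓ) g
  have hI : ∀ b : 𝒱.I₀, IsIntegral (𝒱.X b) := by
    intro b
    cases b
    · exact glue_isIntegral_inf N ℓ K hinf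
    · exact glue_isIntegral_fin N ℓ K hfin
  obtain ⟨w⟩ := glue_nonempty_mid N ℓ K hmid
  let h₁ : pullback (Spec.map (CommRingCat.ofHom
      (algebraMap ↥(GaloisRep.ratLocalizedAt ℓ) ↥(chartAlgMid N ℓ)))) g ⟶ 𝒱.X true :=
    pullback.map _ _ _ _ (fFin N ℓ) (𝟙 _) (𝟙 _)
      (by rw [Category.comp_id]; exact (glue_fFin_toBase N ℓ).symm) (by simp)
  let h₂ : pullback (Spec.map (CommRingCat.ofHom
      (algebraMap ↥(GaloisRep.ratLocalizedAt ℓ) ↥(chartAlgMid N ℓ)))) g ⟶ 𝒱.X false :=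
    pullback.map _ _ _ _ (fInf N ℓ) (𝟙 _) (𝟙 _)
      (by rw [Category.comp_id]; exact (glue_fInf_toBase N ℓ).symm) (by simp)
  have hcomp : h₁ ≫ 𝒱.f true = h₂ ≫ 𝒱.f false :=
    glue_map_map_eq (Spec.map (CommRingCat.ofHom
      (algebraMap ↥(GaloisRep.ratLocalizedAt ℓ) ↥(chartAlgMid N ℓ)))) g (igusaTo N ℓ)
      (ιFin N ℓ) (ιInf N ℓ) (fFin N ℓ) (fInf N ℓ)
      (by rw [Category.comp_id]; exact (glue_fFin_toBase N ℓ).symm)
      (by rw [Category.comp_id]; exact (glue_fInf_toBase N ℓ).symm)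
      (by rw [Category.comp_id, Category.id_comp]) (Category.comp_id _) (Category.comp_id _)
      (glue_condition N ℓ)
  refine glue_isIntegral_of_openCover 𝒱 true false ?_ ?_
  · intro x
    obtain ⟨b, y, rfl⟩ := 𝒱.exists_eq x
    cases b
    · exact Or.inr ⟨y, rfl⟩
    · exact Or.inl ⟨y, rfl⟩
  · refine ⟨(h₁ ≫ 𝒱.f true) w, ⟨h₁ w, ?_⟩, ⟨h₂ w, ?_⟩⟩
    · rfl
    · rw [hcomp]; rfl

end Fermat.Agent.S28L
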