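import Fermat.Agent.S28L.P4Base

/-!
# S28, package (4), part D: the normality step

Over an integrally closed domain `A` with a prime element `p` and `s` not divisible by `p`:
if `s * y` and `p * y` are integral over `A` then so is `y` (minimal polynomial argument).
Applied to `A = ℤ_(ℓ)[g] ≅ ℤ_(ℓ)[X]`, `p = ℓ`, `s = Q(g)` with `Q ≢ 0 mod ℓ`.
-/

set_option autoImplicit false

noncomputable section

namespace Fermat.Agent.S28L

open ModularCurve ModularCurve.IgusaScheme HahnSeries Polynomial

/-- descent of an element of the fraction field: if `c * p ^ e` and `c * s ^ e` both come from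
`A`, with `p` prime not dividing `s`, then `c` comes from `A` -/
theorem normal_mem_range_of_mul_pow {A K : Type*} [CommRing A] [IsDomain A] [Field K]
    [Algebra A K] [FaithfulSMul A K] (p s : A) (hp : Prime p) (hps : ¬ p ∣ s) (e : ℕ) (c : K)
    (h1 : c * algebraMap A K p ^ e ∈ Set.range (algebraMap A K))
    (h2 : c * algebraMap A K s ^ e ∈ Set.range (algebraMap A K)) :
    c ∈ Set.range (algebraMap A K) := by
  have hinj : Function.Injective (algebraMap A K) := FaithfulSMul.algebraMap_injective A K
  obtain ⟨a, ha⟩ := h1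
  obtain ⟨b, hb⟩ := h2
  have hpK : algebraMap A K p ^ e ≠ 0 :=
    pow_ne_zero e (fun h => hp.ne_zero (hinj (by rw [h, map_zero])))
  have hps' : ¬ p ∣ s ^ e := fun h => hps (hp.dvd_of_dvd_pow h)
  have hab : a * s ^ e = b * p ^ e := by
    apply hinj
    rw [map_mul, map_mul, map_pow, map_pow, ha, hb]
    ring
  have hdvd : p ^ e ∣ a := by
    apply hp.pow_dvd_of_dvd_mul_right e hps'
    rw [hab]
    exact dvd_mul_left _ _
  obtain ⟨a', rfl⟩ := hdvd
  refine ⟨a', ?_⟩
  apply mul_right_cancel₀ hpK
  rw [← ha, map_mul, map_pow]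
  ring

/-- the generic normality lemma -/
theorem isIntegral_of_isIntegral_mul {A F : Type*} [CommRing A] [IsDomain A]
    [IsIntegrallyClosed A] [Field F] [Algebra A F] [FaithfulSMul A F] (p s : A) (hp : Prime p)
    (hps : ¬ p ∣ s) (y : F) (h1 : IsIntegral A (algebraMap A F s * y))
    (h2 : IsIntegral A (algebraMap A F p * y)) : IsIntegral A y := by
  classical
  let _ : Algebra (FractionRing A) F := FractionRing.liftAlgebra A F
  have hinjK : Function.Injective (algebraMap A (FractionRing A)) :=
    FaithfulSMul.algebraMap_injective A (FractionRing A)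
  have hs0 : s ≠ 0 := fun h => hps (h ▸ dvd_zero p)
  have hpK : algebraMap A (FractionRing A) p ≠ 0 :=
    fun h => hp.ne_zero (hinjK (by rw [h, map_zero]))
  have hsK : algebraMap A (FractionRing A) s ≠ 0 := fun h => hs0 (hinjK (by rw [h, map_zero]))
  -- `y` is integral over the fraction field
  have hyK : IsIntegral (FractionRing A) y := by
    have h3 : IsIntegral (FractionRing A) (algebraMap A F p * y) := h2.tower_top
    have h4 : algebraMap A F p = algebraMap (FractionRing A) F (algebraMap A (FractionRing A) p) :=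
      IsScalarTower.algebraMap_apply A (FractionRing A) F p
    have h5 : y = algebraMap (FractionRing A) F (algebraMap A (FractionRing A) p)⁻¹ *
        (algebraMap A F p * y) := by
      rw [h4, ← mul_assoc, ← map_mul, inv_mul_cancel₀ hpK, map_one, one_mul]
    rw [h5]
    exact isIntegral_algebraMap.mul h3
  -- the coefficients of its minimal polynomial, scaled by powers of `a`, lie in `A`
  -- whenever `a * y` is integral over `A`
  have key : ∀ a : A, algebraMap A (FractionRing A) a ≠ 0 → IsIntegral A (algebraMap A F a * y) →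
      ∀ i, (minpoly (FractionRing A) y).coeff i *
        algebraMap A (FractionRing A) a ^ ((minpoly (FractionRing A) y).natDegree - i) ∈
          Set.range (algebraMap A (FractionRing A)) := by
    intro a ha hint i
    have h6 : minpoly (FractionRing A) (algebraMap A (FractionRing A) a • y) =
        (minpoly (FractionRing A) y).scaleRoots (algebraMap A (FractionRing A) a) :=
      IsIntegrallyClosed.minpoly_smul ha hyK
    have h7 : algebraMap A (FractionRing A) a • y = algebraMap A F a * y := by
      rw [Algebra.smul_def, ← IsScalarTower.algebraMap_apply]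
    have h8 : minpoly (FractionRing A) (algebraMap A F a * y) =
        (minpoly A (algebraMap A F a * y)).map (algebraMap A (FractionRing A)) :=
      minpoly.isIntegrallyClosed_eq_field_fractions' (FractionRing A) hint
    rw [h7, h8] at h6
    have h9 := congrArg (fun q => q.coeff i) h6
    simp only [coeff_map, coeff_scaleRoots] at h9
    exact ⟨_, h9⟩
  have hcoeff : ∀ i, (minpoly (FractionRing A) y).coeff i ∈
      Set.range (algebraMap A (FractionRing A)) := fun i =>
    normal_mem_range_of_mul_pow p s hp hps _ _ (key p hpK h2 i) (key s hsK h1 i)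
  have hlifts : minpoly (FractionRing A) y ∈ Polynomial.lifts (algebraMap A (FractionRing A)) :=
    (Polynomial.lifts_iff_coeff_lifts _).mpr hcoeff
  obtain ⟨q, hq, -, hqmonic⟩ :=
    Polynomial.lifts_and_natDegree_eq_and_monic hlifts (minpoly.monic hyK)
  refine ⟨q, hqmonic, ?_⟩
  have h10 : eval₂ (algebraMap A F) y q =
      eval₂ (algebraMap (FractionRing A) F) y (q.map (algebraMap A (FractionRing A))) := by
    rw [eval₂_map, ← IsScalarTower.algebraMap_eq]
  rw [h10, hq]
  exact minpoly.aeval (FractionRing A) y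

/-- the normality lemma for `R[g]` with `g` transcendental over an integrally closed domain `R`,
`π` a prime element of `R` and `P` a polynomial not divisible by `π` -/
theorem normal_isIntegral_adjoin_of_mul {R F : Type*} [CommRing R] [IsDomain R]
    [IsIntegrallyClosed R] [Field F] [Algebra R F] (g : F) (hg : Transcendental R g)
    (π : R) (hπ : Prime π) (P : R[X]) (hP : ¬ Polynomial.C π ∣ P) (y : F)
    (h1 : IsIntegral (Algebra.adjoin R {g}) (aeval g P * y))
    (h2 : IsIntegral (Algebra.adjoin R {g}) (algebraMap R F π * y)) :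
    IsIntegral (Algebra.adjoin R {g}) y := by
  let e : R[X] ≃ₐ[R] Algebra.adjoin R {g} := Polynomial.algEquivOfTranscendental R g hg
  have hcoe : ∀ f : R[X], ((e f : Algebra.adjoin R {g}) : F) = aeval g f := fun f => by
    rw [show e f = aeval (⟨g, Algebra.self_mem_adjoin_singleton R g⟩ : Algebra.adjoin R {g}) f
      from rfl, ← Subalgebra.aeval_coe]
  have : IsIntegrallyClosed (Algebra.adjoin R {g}) :=
    IsIntegrallyClosed.of_equiv e.toRingEquiv
  have : FaithfulSMul (Algebra.adjoin R {g}) F :=
    (faithfulSMul_iff_algebraMap_injective _ _).mpr Subtype.val_injective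
  have hprime : Prime (e (Polynomial.C π)) :=
    (MulEquiv.prime_iff e.toMulEquiv).mpr (Polynomial.prime_C_iff.mpr hπ)
  have hndvd : ¬ e (Polynomial.C π) ∣ e P := fun h => hP ((map_dvd_iff e).mp h)
  refine isIntegral_of_isIntegral_mul (e (Polynomial.C π)) (e P) hprime hndvd y ?_ ?_
  · have : algebraMap (Algebra.adjoin R {g}) F (e P) = aeval g P := hcoe P
    rw [this]
    exact h1
  · have : algebraMap (Algebra.adjoin R {g}) F (e (Polynomial.C π)) = algebraMap R F π := by
      rw [show algebraMap (Algebra.adjoin R {g}) F (e (Polynomial.C π)) =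
        ((e (Polynomial.C π) : Algebra.adjoin R {g}) : F) from rfl, hcoe, Polynomial.aeval_C]
    rw [this]
    exact h2

variable (ℓ : ℕ) [Fact ℓ.Prime] (N : ℕ) [NeZero N]

/-- an integer polynomial which is nonzero mod `ℓ` is not divisible by `ℓ` over `ℤ_(ℓ)` -/
theorem normal_not_C_dvd_map (Q : ℤ[X]) (hQ : Q.map (Int.castRingHom (ZMod ℓ)) ≠ 0) :
    ¬ Polynomial.C ((ℓ : ℕ) : Ol ℓ) ∣ Q.map (Int.castRingHom (Ol ℓ)) := by
  intro h
  apply hQ
  ext i
  rw [Polynomial.coeff_map, Polynomial.coeff_zero]
  obtain ⟨z, hz⟩ := (Polynomial.C_dvd_iff_dvd_coeff _ _).mp h i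
  rw [Polynomial.coeff_map] at hz
  have h0 : resO ℓ (Int.castRingHom (Ol ℓ) (Q.coeff i)) = 0 :=
    (resO_eq_zero_iff ℓ _).mpr ⟨z, hz⟩
  rw [eq_intCast, map_intCast] at h0
  rw [eq_intCast]
  exact h0

/-- the normality step for the chart algebras -/
theorem mem_chartAlg_of_mul_mem
    (g : ↥(modularFunctionFieldFull N)) (hgO : Transcendental (Ol ℓ) g)
    (y : ↥(modularFunctionFieldFull N)) (Q : ℤ[X]) (hQ : Q.map (Int.castRingHom (ZMod ℓ)) ≠ 0)
    (h1 : aeval g Q * y ∈ chartAlg N ℓ {g})
    (h2 : (ℓ : ↥(modularFunctionFieldFull N)) * y ∈ chartAlg N ℓ {g}) :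
    y ∈ chartAlg N ℓ {g} := by
  rw [mem_chartAlg_iff] at h1 h2 ⊢
  refine normal_isIntegral_adjoin_of_mul g hgO ((ℓ : ℕ) : Ol ℓ) (prime_natCast_Ol ℓ)
    (Q.map (Int.castRingHom (Ol ℓ))) (normal_not_C_dvd_map ℓ Q hQ) y ?_ ?_
  · have h3 : aeval g (Q.map (Int.castRingHom (Ol ℓ))) = aeval g Q :=
      aeval_map_algebraMap (Ol ℓ) g Q
    rw [h3]
    exact h1
  · rw [map_natCast]
    exact h2

end Fermat.Agent.S28L
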