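import Mathlib
import Fermat.Prelude.Def_ModularCurve_LaurentCoeff

/-!
# S28, package (4), part E: tensoring with a field of characteristic `ℓ`

If `φ : B → 𝔽_ℓ((q))` is a ring hom over `π : O → 𝔽_ℓ` with kernel `ℓ B`, then for every field `K`
of characteristic `ℓ` (with `O`-algebra structure through `π`), `B ⊗_O K` embeds into `K((q))`,
hence is a domain.
-/

set_option autoImplicit false

noncomputable section

namespace Fermat.Agent.S28L

open scoped TensorProduct

/-- The comparison map `B ⊗[O] K → K((q))`, `b ⊗ κ ↦ (φ b with coefficients in K) * κ`. -/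
theorem p4tensor_exists_hom {O B : Type} [CommRing O] [CommRing B] [Algebra O B]
    (ℓ : ℕ) [Fact ℓ.Prime] (π : O →+* ZMod ℓ)
    (φ : B →+* LaurentSeries (ZMod ℓ))
    (hφ : ∀ c : O, φ (algebraMap O B c) = algebraMap (ZMod ℓ) (LaurentSeries (ZMod ℓ)) (π c))
    (K : Type) [Field K] [CharP K ℓ] [Algebra O K]
    (hK : ∀ c : O, algebraMap O K c = ZMod.castHom (dvd_refl ℓ) K (π c)) :
    ∃ Φ : B ⊗[O] K →+* LaurentSeries K, ∀ (b : B) (κ : K),
      Φ (b ⊗ₜ[O] κ) = ModularCurve.coeffMap (ZMod.castHom (dvd_refl ℓ) K) (φ b) *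
        HahnSeries.single 0 κ := by
  let _ : Algebra O (LaurentSeries K) :=
    ((HahnSeries.C : K →+* LaurentSeries K).comp (algebraMap O K)).toAlgebra
  have hf : ∀ c : O, ((ModularCurve.coeffMap (ZMod.castHom (dvd_refl ℓ) K)).comp φ)
      (algebraMap O B c) = algebraMap O (LaurentSeries K) c := by
    intro c
    change ModularCurve.coeffMap (ZMod.castHom (dvd_refl ℓ) K) (φ (algebraMap O B c)) =
      HahnSeries.single 0 (algebraMap O K c)
    rw [hφ, ModularCurve.algebraMap_laurentSeries_eq_single, ModularCurve.coeffMap_single, hK]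
  let f : B →ₐ[O] LaurentSeries K :=
    { (ModularCurve.coeffMap (ZMod.castHom (dvd_refl ℓ) K)).comp φ with
      commutes' := hf }
  let g : K →ₐ[O] LaurentSeries K :=
    { (HahnSeries.C : K →+* LaurentSeries K) with
      commutes' := fun _ => rfl }
  exact ⟨(Algebra.TensorProduct.productMap f g).toRingHom, fun _ _ => rfl⟩

/-- A basis of `K` over `𝔽_ℓ`, in elementary terms. -/
theorem p4tensor_exists_basis (ℓ : ℕ) [Fact ℓ.Prime] (K : Type) [Field K] [CharP K ℓ] :
    ∃ (ι : Type) (e : ι → K),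
      (∀ κ : K, ∃ (s : Finset ι) (r : ι → ZMod ℓ),
        κ = ∑ i ∈ s, ZMod.castHom (dvd_refl ℓ) K (r i) * e i) ∧
      (∀ (s : Finset ι) (r : ι → ZMod ℓ),
        ∑ i ∈ s, ZMod.castHom (dvd_refl ℓ) K (r i) * e i = 0 → ∀ i ∈ s, r i = 0) := by
  let _ : Algebra (ZMod ℓ) K := (ZMod.castHom (dvd_refl ℓ) K).toAlgebra
  have hsmul : ∀ (c : ZMod ℓ) (x : K), c • x = ZMod.castHom (dvd_refl ℓ) K c * x :=
    fun _ _ => rfl
  refine ⟨_, Module.Basis.ofVectorSpace (ZMod ℓ) K,
    fun κ => ⟨((Module.Basis.ofVectorSpace (ZMod ℓ) K).repr κ).support,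
      (Module.Basis.ofVectorSpace (ZMod ℓ) K).repr κ, ?_⟩, fun s r h => ?_⟩
  · have h := (Module.Basis.ofVectorSpace (ZMod ℓ) K).linearCombination_repr κ
    rw [Finsupp.linearCombination_apply, Finsupp.sum] at h
    simp only [hsmul] at h
    exact h.symm
  · refine linearIndependent_iff'.mp (Module.Basis.ofVectorSpace (ZMod ℓ) K).linearIndependent
      s r ?_
    simp only [hsmul]
    exact h

/-- Every element of `B ⊗[O] K` is a finite sum `∑ bᵢ ⊗ eᵢ` when the `eᵢ` span `K` over `𝔽_ℓ`. -/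
theorem p4tensor_exists_repr {O B : Type} [CommRing O] [CommRing B] [Algebra O B]
    (ℓ : ℕ) [Fact ℓ.Prime] (π : O →+* ZMod ℓ) (hπ : Function.Surjective π)
    (K : Type) [Field K] [CharP K ℓ] [Algebra O K]
    (hK : ∀ c : O, algebraMap O K c = ZMod.castHom (dvd_refl ℓ) K (π c))
    {ι : Type} (e : ι → K)
    (he : ∀ κ : K, ∃ (s : Finset ι) (r : ι → ZMod ℓ),
        κ = ∑ i ∈ s, ZMod.castHom (dvd_refl ℓ) K (r i) * e i)
    (t : B ⊗[O] K) :
    ∃ c : ι →₀ B, t = c.sum fun i b => b ⊗ₜ[O] e i := by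
  classical
  induction t using TensorProduct.induction_on with
  | zero => exact ⟨0, by simp⟩
  | tmul b κ =>
    obtain ⟨s, r, rfl⟩ := he κ
    choose o ho using hπ
    refine ⟨∑ i ∈ s, Finsupp.single i (o (r i) • b), ?_⟩
    rw [TensorProduct.tmul_sum, ← Finsupp.sum_finsetSum_index (h := fun i b => b ⊗ₜ[O] e i)
      (fun i => TensorProduct.zero_tmul _ _) (fun i b₁ b₂ => TensorProduct.add_tmul _ _ _)]
    refine Finset.sum_congr rfl fun i _ => ?_
    have h1 : (Finsupp.single i (o (r i) • b)).sum (fun i b => b ⊗ₜ[O] e i) =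
        (o (r i) • b) ⊗ₜ[O] e i :=
      Finsupp.sum_single_index (TensorProduct.zero_tmul _ _)
    rw [h1, TensorProduct.smul_tmul, Algebra.smul_def, hK, ho]
  | add x y hx hy =>
    obtain ⟨cx, rfl⟩ := hx
    obtain ⟨cy, rfl⟩ := hy
    exact ⟨cx + cy, (Finsupp.sum_add_index' (h := fun i b => b ⊗ₜ[O] e i)
      (fun i => TensorProduct.zero_tmul _ _) (fun i b₁ b₂ => TensorProduct.add_tmul _ _ _)).symm⟩

/-- A pure tensor whose first factor is divisible by `ℓ` vanishes. -/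
theorem p4tensor_tmul_eq_zero {O B : Type} [CommRing O] [CommRing B] [Algebra O B]
    (ℓ : ℕ) (K : Type) [Field K] [CharP K ℓ] [Algebra O K] (b' : B) (κ : K) :
    ((ℓ : B) * b') ⊗ₜ[O] κ = 0 := by
  have h1 : (ℓ : B) * b' = (ℓ : O) • b' := by
    rw [Algebra.smul_def, map_natCast]
  have h2 : (ℓ : O) • κ = 0 := by
    rw [Algebra.smul_def, map_natCast, CharP.cast_eq_zero K ℓ, zero_mul]
  rw [h1, TensorProduct.smul_tmul, h2, TensorProduct.tmul_zero]

/-- The comparison map is injective when the kernel of the reduction is `ℓ B`. -/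
theorem p4tensor_injective {O B : Type} [CommRing O] [CommRing B] [Algebra O B]
    (ℓ : ℕ) [Fact ℓ.Prime] (π : O →+* ZMod ℓ) (hπ : Function.Surjective π)
    (φ : B →+* LaurentSeries (ZMod ℓ))
    (hker : ∀ b : B, φ b = 0 → ∃ b' : B, b = (ℓ : B) * b')
    (K : Type) [Field K] [CharP K ℓ] [Algebra O K]
    (hK : ∀ c : O, algebraMap O K c = ZMod.castHom (dvd_refl ℓ) K (π c))
    (Φ : B ⊗[O] K →+* LaurentSeries K)
    (hΦ : ∀ (b : B) (κ : K),
      Φ (b ⊗ₜ[O] κ) = ModularCurve.coeffMap (ZMod.castHom (dvd_refl ℓ) K) (φ b) *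
        HahnSeries.single 0 κ) :
    Function.Injective Φ := by
  classical
  obtain ⟨ι, e, hspan, hind⟩ := p4tensor_exists_basis ℓ K
  rw [injective_iff_map_eq_zero]
  intro t ht
  obtain ⟨c, rfl⟩ := p4tensor_exists_repr ℓ π hπ K hK e hspan t
  rw [Finsupp.sum] at ht ⊢
  rw [map_sum] at ht
  refine Finset.sum_eq_zero fun i hi => ?_
  have hφi : φ (c i) = 0 := by
    ext n
    have hn : (∑ j ∈ c.support, Φ (c j ⊗ₜ[O] e j)).coeff n = 0 := by
      rw [ht]
      rfl
    rw [HahnSeries.coeff_sum] at hn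
    simp only [hΦ, HahnSeries.coeff_mul_single_zero, ModularCurve.coeffMap_coeff] at hn
    exact hind c.support (fun j => (φ (c j)).coeff n) hn i hi
  obtain ⟨b', hb'⟩ := hker (c i) hφi
  rw [hb']
  exact p4tensor_tmul_eq_zero ℓ K b' (e i)

/-- nontriviality only needs the reduction map -/
theorem nontrivial_tensor_of_red {O B : Type} [CommRing O] [CommRing B] [Algebra O B]
    (ℓ : ℕ) [Fact ℓ.Prime] (π : O →+* ZMod ℓ)
    (φ : B →+* LaurentSeries (ZMod ℓ))
    (hφ : ∀ c : O, φ (algebraMap O B c) = algebraMap (ZMod ℓ) (LaurentSeries (ZMod ℓ)) (π c))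
    (K : Type) [Field K] [CharP K ℓ] [Algebra O K]
    (hK : ∀ c : O, algebraMap O K c = ZMod.castHom (dvd_refl ℓ) K (π c)) :
    Nontrivial (B ⊗[O] K) := by
  obtain ⟨Φ, -⟩ := p4tensor_exists_hom ℓ π φ hφ K hK
  exact Φ.domain_nontrivial

/-- the tensor product is a domain when the kernel of the reduction is `ℓ B` -/
theorem isDomain_tensor_of_red {O B : Type} [CommRing O] [CommRing B] [Algebra O B]
    (ℓ : ℕ) [Fact ℓ.Prime] (π : O →+* ZMod ℓ) (hπ : Function.Surjective π)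
    (φ : B →+* LaurentSeries (ZMod ℓ))
    (hφ : ∀ c : O, φ (algebraMap O B c) = algebraMap (ZMod ℓ) (LaurentSeries (ZMod ℓ)) (π c))
    (hker : ∀ b : B, φ b = 0 → ∃ b' : B, b = (ℓ : B) * b')
    (K : Type) [Field K] [CharP K ℓ] [Algebra O K]
    (hK : ∀ c : O, algebraMap O K c = ZMod.castHom (dvd_refl ℓ) K (π c)) :
    IsDomain (B ⊗[O] K) := by
  obtain ⟨Φ, hΦ⟩ := p4tensor_exists_hom ℓ π φ hφ K hK
  exact Function.Injective.isDomain Φ (p4tensor_injective ℓ π hπ φ hker K hK Φ hΦ)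

end Fermat.Agent.S28L
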