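import Fermat.Agent.S28L.P4Basis
import Fermat.Agent.S28L.P4Normal
import Fermat.Agent.S28L.P4Tensor
import Fermat.Agent.S28L.P4Descent

/-!
# S28, package (4): the chart algebras tensored with a field of characteristic `ℓ` are domains

Input: the two degree bounds (`hU` in characteristic `0`, `hL` in characteristic `ℓ`).
-/

set_option autoImplicit false

noncomputable section

namespace Fermat.Agent.S28L

open ModularCurve ModularCurve.IgusaScheme HahnSeries Polynomial
open scoped TensorProduct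

variable (ℓ : ℕ) [Fact ℓ.Prime] (N : ℕ) [NeZero N]

/-! ### The two generators `j` and `1/j` -/

theorem gaussRed_jq_ne_zero : gaussRed ℓ ⟨jq, jq_mem_gaussRing ℓ⟩ ≠ 0 := by
  rw [gaussRed_jq]
  exact jqModC_ne_zero_of_nontrivial (ZMod ℓ)

theorem jq_inv_mem_gaussRing : jq⁻¹ ∈ gaussRing ℓ :=
  inv_mem_gaussRing ℓ ⟨jq, jq_mem_gaussRing ℓ⟩ (gaussRed_jq_ne_zero ℓ)

theorem gaussRed_jq_inv :
    gaussRed ℓ ⟨jq⁻¹, jq_inv_mem_gaussRing ℓ⟩ = (jqModC (ZMod ℓ))⁻¹ := by
  refine eq_inv_of_mul_eq_one_left ?_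
  rw [← gaussRed_jq ℓ, ← map_mul]
  have : (⟨jq⁻¹, jq_inv_mem_gaussRing ℓ⟩ : gaussRing ℓ) * ⟨jq, jq_mem_gaussRing ℓ⟩ = 1 :=
    Subtype.ext (inv_mul_cancel₀ jq_ne_zero)
  rw [this, map_one]

theorem adjoin_inv_eq {K L : Type*} [Field K] [Field L] [Algebra K L] (x : L) :
    IntermediateField.adjoin K {x⁻¹} = IntermediateField.adjoin K {x} := by
  apply le_antisymm
  · rw [IntermediateField.adjoin_simple_le_iff]
    exact inv_mem (IntermediateField.mem_adjoin_simple_self K x)
  · rw [IntermediateField.adjoin_simple_le_iff]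
    have := inv_mem (IntermediateField.mem_adjoin_simple_self K x⁻¹)
    rwa [inv_inv] at this

theorem transcendental_inv {K L : Type*} [Field K] [Field L] [Algebra K L] {x : L}
    (hx : Transcendental K x) : Transcendental K x⁻¹ := by
  intro h
  apply hx
  have := h.inv
  rwa [inv_inv] at this

/-- ring homs out of `ℤ_(ℓ)` are unique -/
theorem ringHom_Ol_ext {R : Type*} [CommSemiring R] (f g : Ol ℓ →+* R) : f = g :=
  IsLocalization.ringHom_ext (olSubmonoid ℓ) (RingHom.ext_int _ _)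

/-- the structure map `ℤ_(ℓ) → F → ℚ((q))` is the inclusion of constants -/
theorem coe_algebraMap_Ol (c : Ol ℓ) :
    ((algebraMap (Ol ℓ) ↥(modularFunctionFieldFull N) c : ↥(modularFunctionFieldFull N)) :
      LaurentSeries ℚ) = algebraMap ℚ (LaurentSeries ℚ) (c : ℚ) :=
  DFunLike.congr_fun (ringHom_Ol_ext ℓ
    (((modularFunctionFieldFull N).val : ↥(modularFunctionFieldFull N) →+* LaurentSeries ℚ).comp
      (algebraMap (Ol ℓ) ↥(modularFunctionFieldFull N)))
    ((algebraMap ℚ (LaurentSeries ℚ)).comp (GaloisRep.ratLocalizedAt ℓ).subtype)) c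

/-- transcendence over `ℚ` in `ℚ((q))` gives transcendence over `ℤ_(ℓ)` in `F` -/
theorem transcendental_Ol_of_coe (g : ↥(modularFunctionFieldFull N))
    (hg : Transcendental ℚ (g : LaurentSeries ℚ)) : Transcendental (Ol ℓ) g := by
  rw [transcendental_iff]
  intro P hP
  have h1 : Polynomial.eval₂
      ((algebraMap ℚ (LaurentSeries ℚ)).comp (GaloisRep.ratLocalizedAt ℓ).subtype)
      (g : LaurentSeries ℚ) P = 0 := by
    have h := Polynomial.hom_eval₂ P (algebraMap (Ol ℓ) ↥(modularFunctionFieldFull N))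
      ((modularFunctionFieldFull N).val : ↥(modularFunctionFieldFull N) →+* LaurentSeries ℚ) g
    rw [ringHom_Ol_ext ℓ
      (((modularFunctionFieldFull N).val : ↥(modularFunctionFieldFull N) →+* LaurentSeries ℚ).comp
        (algebraMap (Ol ℓ) ↥(modularFunctionFieldFull N)))
      ((algebraMap ℚ (LaurentSeries ℚ)).comp (GaloisRep.ratLocalizedAt ℓ).subtype)] at h
    have h' : (((aeval g P : ↥(modularFunctionFieldFull N)) : LaurentSeries ℚ)) =
        Polynomial.eval₂
          ((algebraMap ℚ (LaurentSeries ℚ)).comp (GaloisRep.ratLocalizedAt ℓ).subtype)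
          (g : LaurentSeries ℚ) P := by
      rw [Polynomial.aeval_def]
      exact h
    rw [← h', hP]
    rfl
  rw [← Polynomial.eval₂_map, ← Polynomial.aeval_def] at h1
  have h2 := (transcendental_iff.1 hg) _ h1
  exact Polynomial.map_injective _ Subtype.val_injective (by rw [h2, Polynomial.map_zero])

theorem transcendental_jq_rat : Transcendental ℚ jq := transcendental_jqModC ℚ

/-- the chart algebras lie in the Gauss ring -/
theorem chartAlg_le_gaussRing (S : Set ↥(modularFunctionFieldFull N))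
    (hS : S ⊆ {jFull N, (jFull N)⁻¹}) (x : ↥(modularFunctionFieldFull N))
    (hx : x ∈ chartAlg N ℓ S) : (x : LaurentSeries ℚ) ∈ gaussRing ℓ := by
  have hadj : ∀ a ∈ Algebra.adjoin (Ol ℓ) S, (a : LaurentSeries ℚ) ∈ gaussRing ℓ := by
    intro a ha
    induction ha using Algebra.adjoin_induction with
    | mem s hs =>
      rcases hS hs with rfl | rfl
      · exact jq_mem_gaussRing ℓ
      · exact jq_inv_mem_gaussRing ℓ
    | algebraMap c =>
      rw [coe_algebraMap_Ol]
      exact algebraMap_mem_gaussRing ℓ c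
    | add a b _ _ ha hb => exact add_mem ha hb
    | mul a b _ _ ha hb => exact mul_mem ha hb
  refine mem_gaussRing_of_isIntegral ℓ _ (modularFunctionFieldFull_le_gaussField ℓ N x.2) ?_
  rw [mem_chartAlg_iff] at hx
  let φ : ↥(Algebra.adjoin (Ol ℓ) S) →+* gaussRing ℓ :=
    { toFun := fun a => ⟨((a : ↥(modularFunctionFieldFull N)) : LaurentSeries ℚ), hadj a a.2⟩
      map_one' := rfl
      map_mul' := fun _ _ => rfl
      map_zero' := rfl
      map_add' := fun _ _ => rfl }
  exact hx.map_of_comp_eq φ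
    ((modularFunctionFieldFull N).val : ↥(modularFunctionFieldFull N) →+* LaurentSeries ℚ)
    (by ext; rfl)

/-- the reduction map on a chart algebra -/
def chartRed (S : Set ↥(modularFunctionFieldFull N)) (hS : S ⊆ {jFull N, (jFull N)⁻¹}) :
    ↥(chartAlg N ℓ S) →+* LaurentSeries (ZMod ℓ) :=
  (gaussRed ℓ).comp
    { toFun := fun x => ⟨((x : ↥(modularFunctionFieldFull N)) : LaurentSeries ℚ),
        chartAlg_le_gaussRing ℓ N S hS x x.2⟩
      map_one' := rfl
      map_mul' := fun _ _ => rfl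
      map_zero' := rfl
      map_add' := fun _ _ => rfl }

theorem chartRed_apply (S : Set ↥(modularFunctionFieldFull N))
    (hS : S ⊆ {jFull N, (jFull N)⁻¹}) (x : ↥(chartAlg N ℓ S)) :
    chartRed ℓ N S hS x = gaussRed ℓ ⟨((x : ↥(modularFunctionFieldFull N)) : LaurentSeries ℚ),
        chartAlg_le_gaussRing ℓ N S hS x x.2⟩ := rfl

theorem chartRed_algebraMap (S : Set ↥(modularFunctionFieldFull N))
    (hS : S ⊆ {jFull N, (jFull N)⁻¹}) (c : Ol ℓ) :
    chartRed ℓ N S hS (algebraMap (Ol ℓ) ↥(chartAlg N ℓ S) c)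
      = algebraMap (ZMod ℓ) (LaurentSeries (ZMod ℓ)) (resO ℓ c) := by
  rw [chartRed_apply, ← gaussRed_algebraMap ℓ c]
  congr 1
  exact Subtype.ext (coe_algebraMap_Ol ℓ N c)

/-- the kernel of the reduction on a one-generator chart is generated by `ℓ` (abstract form) -/
theorem chartRed_eq_zero_aux (m : ℕ)
    (hU : IntermediateField.relrank (IntermediateField.adjoin ℚ {jq}) (modularFunctionFieldFull N)
      ≤ (m : Cardinal))
    (hL : (m : Cardinal) ≤ IntermediateField.relrank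
      (IntermediateField.adjoin (ZMod ℓ) {jqModC (ZMod ℓ)}) (modularFunctionFieldFullC (ZMod ℓ) N))
    (g : ↥(modularFunctionFieldFull N)) (hg : (g : LaurentSeries ℚ) ∈ gaussRing ℓ)
    (hgadj : IntermediateField.adjoin ℚ {(g : LaurentSeries ℚ)} = IntermediateField.adjoin ℚ {jq})
    (hgbar : IntermediateField.adjoin (ZMod ℓ) {gaussRed ℓ ⟨g, hg⟩}
      = IntermediateField.adjoin (ZMod ℓ) {jqModC (ZMod ℓ)})
    (hgt : Transcendental (ZMod ℓ) (gaussRed ℓ ⟨g, hg⟩))
    (hgO : Transcendental (Ol ℓ) g)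
    (b : ↥(modularFunctionFieldFull N)) (hb : b ∈ chartAlg N ℓ {g})
    (hbV : (b : LaurentSeries ℚ) ∈ gaussRing ℓ)
    (hred : gaussRed ℓ ⟨(b : LaurentSeries ℚ), hbV⟩ = 0) :
    ∃ b' ∈ chartAlg N ℓ {g}, b = (ℓ : ↥(modularFunctionFieldFull N)) * b' := by
  obtain ⟨v, hv⟩ := (gaussRed_eq_zero_iff ℓ _).1 hred
  have hv' : (b : LaurentSeries ℚ) = (ℓ : LaurentSeries ℚ) * (v : LaurentSeries ℚ) := by
    have := congrArg (Subtype.val : gaussRing ℓ → LaurentSeries ℚ) hv
    rwa [Subring.coe_mul, Subring.coe_natCast] at this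
  have hℓ := natCast_ne_zero_laurent ℓ
  have hℓF : ((ℓ : ℕ) : ↥(modularFunctionFieldFull N)) ≠ 0 := by
    intro h
    apply hℓ
    have := congrArg (Subtype.val : ↥(modularFunctionFieldFull N) → LaurentSeries ℚ) h
    simpa using this
  set y : ↥(modularFunctionFieldFull N) := ((ℓ : ℕ) : ↥(modularFunctionFieldFull N))⁻¹ * b with hy
  have hby : b = (ℓ : ↥(modularFunctionFieldFull N)) * y := by
    rw [hy, ← mul_assoc, mul_inv_cancel₀ hℓF, one_mul]
  have hyV : (y : LaurentSeries ℚ) ∈ gaussRing ℓ := by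
    have : (y : LaurentSeries ℚ) = (v : LaurentSeries ℚ) := by
      apply mul_left_cancel₀ hℓ
      rw [← hv']
      have := congrArg (Subtype.val : ↥(modularFunctionFieldFull N) → LaurentSeries ℚ) hby
      simpa using this.symm
    rw [this]
    exact v.2
  obtain ⟨Q, hQ, hQy⟩ := exists_aeval_mul_mem_chartAlg m hU hL g hg hgadj hgbar hgt y hyV
  refine ⟨y, mem_chartAlg_of_mul_mem ℓ N g hgO y Q hQ hQy ?_, hby⟩
  rw [← hby]
  exact hb

/-- the kernel of the reduction on the charts `{j}` and `{1/j}` is generated by `ℓ` -/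
theorem chartRed_eq_zero (m : ℕ)
    (hU : IntermediateField.relrank (IntermediateField.adjoin ℚ {jq}) (modularFunctionFieldFull N)
      ≤ (m : Cardinal))
    (hL : (m : Cardinal) ≤ IntermediateField.relrank
      (IntermediateField.adjoin (ZMod ℓ) {jqModC (ZMod ℓ)}) (modularFunctionFieldFullC (ZMod ℓ) N))
    (g : ↥(modularFunctionFieldFull N)) (hg : g = jFull N ∨ g = (jFull N)⁻¹)
    (hS : ({g} : Set ↥(modularFunctionFieldFull N)) ⊆ {jFull N, (jFull N)⁻¹})
    (b : ↥(chartAlg N ℓ {g})) (hb : chartRed ℓ N {g} hS b = 0) :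
    ∃ b' : ↥(chartAlg N ℓ {g}), b = (ℓ : ↥(chartAlg N ℓ {g})) * b' := by
  have hbV := chartAlg_le_gaussRing ℓ N {g} hS b b.2
  have key : ∃ b' ∈ chartAlg N ℓ {g},
      (b : ↥(modularFunctionFieldFull N)) = (ℓ : ↥(modularFunctionFieldFull N)) * b' := by
    rcases hg with rfl | rfl
    · refine chartRed_eq_zero_aux ℓ N m hU hL (jFull N) (jq_mem_gaussRing ℓ) rfl ?_ ?_ ?_
        b b.2 hbV hb
      · show IntermediateField.adjoin (ZMod ℓ) {gaussRed ℓ ⟨jq, jq_mem_gaussRing ℓ⟩} = _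
        rw [gaussRed_jq]
      · show Transcendental (ZMod ℓ) (gaussRed ℓ ⟨jq, jq_mem_gaussRing ℓ⟩)
        rw [gaussRed_jq]
        exact transcendental_jqModC (ZMod ℓ)
      · exact transcendental_Ol_of_coe ℓ N (jFull N) transcendental_jq_rat
    · have hcoe : (((jFull N)⁻¹ : ↥(modularFunctionFieldFull N)) : LaurentSeries ℚ) = jq⁻¹ := rfl
      refine chartRed_eq_zero_aux ℓ N m hU hL (jFull N)⁻¹ (jq_inv_mem_gaussRing ℓ) ?_ ?_ ?_ ?_
        b b.2 hbV hb
      · rw [hcoe, adjoin_inv_eq]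
      · show IntermediateField.adjoin (ZMod ℓ) {gaussRed ℓ ⟨jq⁻¹, jq_inv_mem_gaussRing ℓ⟩} = _
        rw [gaussRed_jq_inv, adjoin_inv_eq]
      · show Transcendental (ZMod ℓ) (gaussRed ℓ ⟨jq⁻¹, jq_inv_mem_gaussRing ℓ⟩)
        rw [gaussRed_jq_inv]
        exact transcendental_inv (transcendental_jqModC (ZMod ℓ))
      · refine transcendental_Ol_of_coe ℓ N (jFull N)⁻¹ ?_
        rw [hcoe]
        exact transcendental_inv transcendental_jq_rat
  obtain ⟨b', hb', hbb'⟩ := key
  exact ⟨⟨b', hb'⟩, Subtype.ext (by simpa using hbb')⟩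

end Fermat.Agent.S28L

namespace Fermat.Agent.S28L

open ModularCurve ModularCurve.IgusaScheme
open scoped TensorProduct

/-- **Package (4).**  From the two degree bounds (`hU` in characteristic `0`, `hL` over any one
field of characteristic `ℓ`), the two chart algebras of the Igusa scheme tensored with any field
of characteristic `ℓ` are domains, and the overlap algebra tensored with it is nontrivial. -/
theorem isDomain_chartAlg_tensor (N : ℕ) [NeZero N] (ℓ : ℕ) [Fact ℓ.Prime] (m : ℕ)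
    (hU : IntermediateField.relrank (IntermediateField.adjoin ℚ {jq}) (modularFunctionFieldFull N)
      ≤ (m : Cardinal))
    (k : Type) [Field k] [CharP k ℓ]
    (hL : (m : Cardinal) ≤ IntermediateField.relrank
      (IntermediateField.adjoin k {jqModC k}) (modularFunctionFieldFullC k N))
    (K : Type) [Field K] [CharP K ℓ] [Algebra ↥(GaloisRep.ratLocalizedAt ℓ) K] :
    IsDomain (↥(chartAlgFin N ℓ) ⊗[↥(GaloisRep.ratLocalizedAt ℓ)] K) ∧
    IsDomain (↥(chartAlgInf N ℓ) ⊗[↥(GaloisRep.ratLocalizedAt ℓ)] K) ∧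
    Nontrivial (↥(chartAlgMid N ℓ) ⊗[↥(GaloisRep.ratLocalizedAt ℓ)] K) := by
  have hL' := relrank_fullC_descent ℓ k N m hL
  have hSfin : ({jFull N} : Set ↥(modularFunctionFieldFull N)) ⊆ {jFull N, (jFull N)⁻¹} :=
    sFin_subset N
  have hSinf : ({(jFull N)⁻¹} : Set ↥(modularFunctionFieldFull N)) ⊆ {jFull N, (jFull N)⁻¹} :=
    sInf_subset N
  refine ⟨?_, ?_, ?_⟩
  · exact isDomain_tensor_of_red ℓ (resO ℓ) (resO_surjective ℓ)
      (chartRed ℓ N {jFull N} hSfin) (chartRed_algebraMap ℓ N _ hSfin)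
      (fun b hb => chartRed_eq_zero ℓ N m hU hL' (jFull N) (Or.inl rfl) hSfin b hb)
      K (algebraMap_Ol_eq ℓ K)
  · exact isDomain_tensor_of_red ℓ (resO ℓ) (resO_surjective ℓ)
      (chartRed ℓ N {(jFull N)⁻¹} hSinf) (chartRed_algebraMap ℓ N _ hSinf)
      (fun b hb => chartRed_eq_zero ℓ N m hU hL' (jFull N)⁻¹ (Or.inr rfl) hSinf b hb)
      K (algebraMap_Ol_eq ℓ K)
  · exact nontrivial_tensor_of_red ℓ (resO ℓ)
      (chartRed ℓ N {jFull N, (jFull N)⁻¹} (le_refl _)) (chartRed_algebraMap ℓ N _ (le_refl _))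
      K (algebraMap_Ol_eq ℓ K)

end Fermat.Agent.S28L
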