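import Mathlib
import Fermat.Prelude.Def_ModularCurve_IgusaScheme
import Fermat.Prelude.Def_ModularCurve_X0ModL

/-!
# S28, package (4), part A1: `ℤ_(ℓ)`, its reduction to `𝔽_ℓ`, and the coefficientwise maps on
Laurent series
-/

set_option autoImplicit false

noncomputable section

namespace Fermat.Agent.S28L

open ModularCurve HahnSeries

/-- `ℤ_(ℓ)` -/
abbrev Ol (ℓ : ℕ) : Type := ↥(GaloisRep.ratLocalizedAt ℓ)

/-! ### `Ol ℓ` as a localization of `ℤ` (valid for every natural number `ℓ`) -/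

theorem mem_ratLocalizedAt_iff (ℓ : ℕ) (q : ℚ) :
    q ∈ GaloisRep.ratLocalizedAt ℓ ↔ q.den.Coprime ℓ := Iff.rfl

/-- the multiplicative set of nonzero integers prime to `ℓ` -/
def olSubmonoid (ℓ : ℕ) : Submonoid ℤ where
  carrier := {n : ℤ | n ≠ 0 ∧ n.natAbs.Coprime ℓ}
  one_mem' := ⟨one_ne_zero, by simp⟩
  mul_mem' := fun {a b} ha hb =>
    ⟨mul_ne_zero ha.1 hb.1, by rw [Int.natAbs_mul]; exact Nat.Coprime.mul_left ha.2 hb.2⟩

theorem mem_olSubmonoid_iff (ℓ : ℕ) (n : ℤ) :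
    n ∈ olSubmonoid ℓ ↔ n ≠ 0 ∧ n.natAbs.Coprime ℓ := Iff.rfl

theorem olSubmonoid_le_nonZeroDivisors (ℓ : ℕ) : olSubmonoid ℓ ≤ nonZeroDivisors ℤ :=
  fun _ hn => mem_nonZeroDivisors_of_ne_zero hn.1

/-- a nonzero integer prime to `ℓ` is invertible in `Ol ℓ` -/
theorem isUnit_intCast_Ol_of_mem (ℓ : ℕ) {n : ℤ} (hn : n ∈ olSubmonoid ℓ) :
    IsUnit ((n : ℤ) : Ol ℓ) := by
  have hn0 : n ≠ 0 := hn.1
  have hmem : ((n : ℚ))⁻¹ ∈ GaloisRep.ratLocalizedAt ℓ := by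
    rw [mem_ratLocalizedAt_iff, Rat.inv_intCast_den, if_neg hn0]
    exact hn.2
  refine IsUnit.of_mul_eq_one ⟨(n : ℚ)⁻¹, hmem⟩ ?_
  apply Subtype.ext
  have hn0' : (n : ℚ) ≠ 0 := Int.cast_ne_zero.mpr hn0
  simp [hn0']

/-- the denominator of an element of `Ol ℓ` is prime to `ℓ` -/
theorem den_mem_olSubmonoid (ℓ : ℕ) (x : Ol ℓ) : (((x : ℚ).den : ℕ) : ℤ) ∈ olSubmonoid ℓ :=
  ⟨Int.natCast_ne_zero.mpr (x : ℚ).den_nz, by rw [Int.natAbs_natCast]; exact x.2⟩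

/-- `x * den x = num x` in `Ol ℓ` -/
theorem mul_den_eq_num_Ol (ℓ : ℕ) (x : Ol ℓ) :
    x * ((((x : ℚ).den : ℕ) : ℤ) : Ol ℓ) = (((x : ℚ).num : ℤ) : Ol ℓ) := by
  apply Subtype.ext
  simp [Rat.mul_den_eq_num]

/-- `Ol ℓ` is the localization of `ℤ` at the nonzero integers prime to `ℓ` -/
instance isLocalization_olSubmonoid (ℓ : ℕ) : IsLocalization (olSubmonoid ℓ) (Ol ℓ) := by
  rw [isLocalization_iff]
  refine ⟨?_, ?_, ?_⟩
  · rintro ⟨y, hy⟩
    simpa using isUnit_intCast_Ol_of_mem ℓ hy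
  · intro z
    refine ⟨((z : ℚ).num, ⟨(((z : ℚ).den : ℕ) : ℤ), den_mem_olSubmonoid ℓ z⟩), ?_⟩
    simpa using mul_den_eq_num_Ol ℓ z
  · intro x y h
    refine ⟨1, ?_⟩
    have h' : (x : ℚ) = (y : ℚ) := by simpa using congrArg Subtype.val h
    have h'' : x = y := by exact_mod_cast h'
    rw [h'']

variable (ℓ : ℕ) [Fact ℓ.Prime]

/-! ### Part A1: the base ring and the coefficientwise maps -/

theorem mem_olSubmonoid_iff_not_dvd (n : ℤ) : n ∈ olSubmonoid ℓ ↔ ¬ (ℓ : ℤ) ∣ n := by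
  have hp : ℓ.Prime := Fact.out
  rw [mem_olSubmonoid_iff, Nat.coprime_comm, hp.coprime_iff_not_dvd, Int.natCast_dvd]
  constructor
  · exact fun h => h.2
  · intro h
    refine ⟨?_, h⟩
    rintro rfl
    exact h (dvd_zero _)

instance isPrime_span_natCast : (Ideal.span {(ℓ : ℤ)}).IsPrime :=
  (Ideal.span_singleton_prime (Int.natCast_ne_zero.mpr (Fact.out : ℓ.Prime).ne_zero)).mpr
    (Nat.prime_iff_prime_int.mp Fact.out)

theorem olSubmonoid_eq_primeCompl : olSubmonoid ℓ = (Ideal.span {(ℓ : ℤ)}).primeCompl := by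
  ext n
  rw [mem_olSubmonoid_iff_not_dvd, Ideal.mem_primeCompl_iff, Ideal.mem_span_singleton]

/-- `ℤ_(ℓ)` is the localization of `ℤ` at the prime `(ℓ)` -/
instance isLocalization_Ol : IsLocalization.AtPrime (Ol ℓ) (Ideal.span {(ℓ : ℤ)}) := by
  rw [IsLocalization.AtPrime, ← olSubmonoid_eq_primeCompl]
  infer_instance

/-- reduction `ℤ_(ℓ) → 𝔽_ℓ` -/
def resO (ℓ : ℕ) [Fact ℓ.Prime] : Ol ℓ →+* ZMod ℓ :=
  IsLocalization.lift (M := olSubmonoid ℓ) (g := Int.castRingHom (ZMod ℓ))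
    (fun y => by
      have hy := (mem_olSubmonoid_iff_not_dvd ℓ _).mp y.2
      rw [isUnit_iff_ne_zero]
      intro h
      exact hy ((ZMod.intCast_zmod_eq_zero_iff_dvd _ _).mp h))

theorem natCast_Ol_ne_zero : ((ℓ : ℕ) : Ol ℓ) ≠ 0 := by
  intro h
  have h' : ((ℓ : ℕ) : ℚ) = 0 := by simpa using congrArg Subtype.val h
  exact (Fact.out : ℓ.Prime).ne_zero (by exact_mod_cast h')

theorem resO_eq_zero_iff (x : Ol ℓ) : resO ℓ x = 0 ↔ ∃ y : Ol ℓ, x = (ℓ : Ol ℓ) * y := by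
  constructor
  · intro h
    have hxd := mul_den_eq_num_Ol ℓ x
    have h1 : resO ℓ (((x : ℚ).num : ℤ) : Ol ℓ) = 0 := by rw [← hxd, map_mul, h, zero_mul]
    rw [map_intCast, ZMod.intCast_zmod_eq_zero_iff_dvd] at h1
    obtain ⟨k, hk⟩ := h1
    obtain ⟨u, hu⟩ := isUnit_intCast_Ol_of_mem ℓ (den_mem_olSubmonoid ℓ x)
    refine ⟨(k : Ol ℓ) * ↑u⁻¹, ?_⟩
    calc x = (x * (u : Ol ℓ)) * ↑u⁻¹ := by rw [mul_assoc, Units.mul_inv, mul_one]
      _ = (((x : ℚ).num : ℤ) : Ol ℓ) * ↑u⁻¹ := by rw [hu, hxd]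
      _ = (ℓ : Ol ℓ) * ((k : Ol ℓ) * ↑u⁻¹) := by rw [hk]; push_cast; ring
  · rintro ⟨y, rfl⟩
    rw [map_mul, map_natCast, ZMod.natCast_self, zero_mul]

theorem resO_surjective : Function.Surjective (resO ℓ) := by
  intro z
  obtain ⟨n, rfl⟩ := ZMod.intCast_surjective z
  exact ⟨(n : Ol ℓ), map_intCast _ n⟩

/-- `ℤ_(ℓ)` is integrally closed -/
instance isIntegrallyClosed_Ol : IsIntegrallyClosed (Ol ℓ) :=
  isIntegrallyClosed_of_isLocalization (Ol ℓ) (olSubmonoid ℓ) (olSubmonoid_le_nonZeroDivisors ℓ)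

/-- divisibility by `ℓ` in `ℤ_(ℓ)` is detected by the reduction -/
theorem natCast_dvd_iff_resO (x : Ol ℓ) : ((ℓ : ℕ) : Ol ℓ) ∣ x ↔ resO ℓ x = 0 :=
  (resO_eq_zero_iff ℓ x).symm

/-- `ℓ` is a prime element of `ℤ_(ℓ)` -/
theorem prime_natCast_Ol : Prime ((ℓ : ℕ) : Ol ℓ) := by
  refine ⟨natCast_Ol_ne_zero ℓ, ?_, ?_⟩
  · intro hu
    have h1 : IsUnit (resO ℓ ((ℓ : ℕ) : Ol ℓ)) := hu.map (resO ℓ)
    rw [map_natCast, ZMod.natCast_self] at h1
    exact not_isUnit_zero h1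
  · intro a b hab
    rw [natCast_dvd_iff_resO] at hab ⊢
    rw [natCast_dvd_iff_resO]
    rw [map_mul] at hab
    exact mul_eq_zero.mp hab

/-- the structure map of any `ℤ_(ℓ)`-algebra of characteristic `ℓ` factors through the reduction -/
theorem algebraMap_Ol_eq (K : Type*) [Field K] [CharP K ℓ] [Algebra (Ol ℓ) K] (c : Ol ℓ) :
    algebraMap (Ol ℓ) K c = ZMod.castHom (dvd_refl ℓ) K (resO ℓ c) := by
  have h : algebraMap (Ol ℓ) K = (ZMod.castHom (dvd_refl ℓ) K).comp (resO ℓ) :=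
    IsLocalization.ringHom_ext (olSubmonoid ℓ) (RingHom.ext_int _ _)
  rw [h]
  rfl

/-- coefficientwise inclusion `ℤ_(ℓ)((q)) → ℚ((q))` -/
def iotaL : LaurentSeries (Ol ℓ) →+* LaurentSeries ℚ :=
  coeffMap (GaloisRep.ratLocalizedAt ℓ).subtype

/-- coefficientwise reduction `ℤ_(ℓ)((q)) → 𝔽_ℓ((q))` -/
def redL : LaurentSeries (Ol ℓ) →+* LaurentSeries (ZMod ℓ) :=
  coeffMap (resO ℓ)

set_option linter.unusedSectionVars false in
theorem iotaL_injective : Function.Injective (iotaL ℓ) := by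
  intro a b h
  refine HahnSeries.ext (funext fun n => Subtype.ext ?_)
  have h1 := congrArg (fun x : LaurentSeries ℚ => x.coeff n) h
  simp only [iotaL, coeffMap_coeff] at h1
  exact h1

/-- coefficients of a product with a natural number -/
theorem coeff_natCast_mul {R : Type*} [CommRing R] (k : ℕ) (a : LaurentSeries R) (n : ℤ) :
    ((k : LaurentSeries R) * a).coeff n = (k : R) * a.coeff n := by
  rw [← nsmul_eq_mul, ← nsmul_eq_mul, HahnSeries.coeff_nsmul]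
  rfl

open Classical in
/-- a (non-additive) choice of quotient by `ℓ`, sending `0` to `0` -/
def divL : ZeroHom (Ol ℓ) (Ol ℓ) where
  toFun x := if h : ∃ y : Ol ℓ, x = (ℓ : Ol ℓ) * y then h.choose else 0
  map_zero' := by
    have h : ∃ y : Ol ℓ, (0 : Ol ℓ) = (ℓ : Ol ℓ) * y := ⟨0, by rw [mul_zero]⟩
    rw [dif_pos h]
    have h1 := h.choose_spec
    rcases mul_eq_zero.mp h1.symm with h2 | h2
    · exact absurd h2 (natCast_Ol_ne_zero ℓ)
    · exact h2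

open Classical in
theorem natCast_mul_divL {x : Ol ℓ} (h : resO ℓ x = 0) : (ℓ : Ol ℓ) * divL ℓ x = x := by
  have h' : ∃ y : Ol ℓ, x = (ℓ : Ol ℓ) * y := (resO_eq_zero_iff ℓ x).mp h
  show (ℓ : Ol ℓ) * (if h : ∃ y : Ol ℓ, x = (ℓ : Ol ℓ) * y then h.choose else 0) = x
  rw [dif_pos h']
  exact h'.choose_spec.symm

theorem redL_natCast : redL ℓ (ℓ : LaurentSeries (Ol ℓ)) = 0 := by
  ext n
  rw [map_natCast, ← nsmul_one, HahnSeries.coeff_nsmul]
  simp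

theorem redL_eq_zero_iff (a : LaurentSeries (Ol ℓ)) :
    redL ℓ a = 0 ↔ ∃ a' : LaurentSeries (Ol ℓ), a = (ℓ : LaurentSeries (Ol ℓ)) * a' := by
  constructor
  · intro h
    refine ⟨a.map (divL ℓ), HahnSeries.ext (funext fun n => ?_)⟩
    rw [coeff_natCast_mul, HahnSeries.map_coeff]
    have h1 : resO ℓ (a.coeff n) = 0 := by
      have h2 := congrArg (fun x : LaurentSeries (ZMod ℓ) => x.coeff n) h
      simpa [redL] using h2
    exact (natCast_mul_divL ℓ h1).symm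
  · rintro ⟨a', rfl⟩
    rw [map_mul, redL_natCast, zero_mul]

theorem exists_pow_mul_redL_ne_zero_aux (m : ℕ) :
    ∀ (a : LaurentSeries (Ol ℓ)) (n : ℤ) (c : Ol ℓ), a.coeff n = (ℓ : Ol ℓ) ^ m * c →
      ¬ ((ℓ : ℕ) : Ol ℓ) ∣ c →
      ∃ (e : ℕ) (a' : LaurentSeries (Ol ℓ)),
        a = (ℓ : LaurentSeries (Ol ℓ)) ^ e * a' ∧ redL ℓ a' ≠ 0 := by
  induction m with
  | zero =>
    intro a n c hc hdvd
    by_cases h : redL ℓ a = 0
    · exfalso
      obtain ⟨a₁, rfl⟩ := (redL_eq_zero_iff ℓ a).mp h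
      rw [coeff_natCast_mul, pow_zero, one_mul] at hc
      exact hdvd ⟨_, hc.symm⟩
    · exact ⟨0, a, by rw [pow_zero, one_mul], h⟩
  | succ m ih =>
    intro a n c hc hdvd
    by_cases h : redL ℓ a = 0
    · obtain ⟨a₁, rfl⟩ := (redL_eq_zero_iff ℓ a).mp h
      rw [coeff_natCast_mul, pow_succ', mul_assoc] at hc
      have hc' := mul_left_cancel₀ (natCast_Ol_ne_zero ℓ) hc
      obtain ⟨e, a', rfl, ha'⟩ := ih a₁ n c hc' hdvd
      exact ⟨e + 1, a', by rw [pow_succ', mul_assoc], ha'⟩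
    · exact ⟨0, a, by rw [pow_zero, one_mul], h⟩

theorem exists_pow_mul_redL_ne_zero (a : LaurentSeries (Ol ℓ)) (ha : a ≠ 0) :
    ∃ (e : ℕ) (a' : LaurentSeries (Ol ℓ)),
      a = (ℓ : LaurentSeries (Ol ℓ)) ^ e * a' ∧ redL ℓ a' ≠ 0 := by
  obtain ⟨n, hn⟩ : ∃ n : ℤ, a.coeff n ≠ 0 := by
    by_contra hcon
    exact ha (HahnSeries.ext (funext fun n => not_not.mp fun hn => hcon ⟨n, hn⟩))
  have hnoeth : IsNoetherianRing (Ol ℓ) :=
    IsLocalization.isNoetherianRing (olSubmonoid ℓ) (Ol ℓ) inferInstance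
  obtain ⟨m, c, hdvd, hc⟩ := WfDvdMonoid.max_power_factor hn (prime_natCast_Ol ℓ).irreducible
  exact exists_pow_mul_redL_ne_zero_aux ℓ m a n c hc hdvd

end Fermat.Agent.S28L
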