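import Fermat.Agent.S28L.P4Base

/-!
# S28, package (4), part A: the Gauss valuation ring inside `ℚ((q))`

`ℤ_(ℓ)((q))` localized at the prime `(ℓ)`, viewed as a subring `gaussRing ℓ` of `ℚ((q))`, with its
reduction map `gaussRed ℓ` to `𝔽_ℓ((q))`; its fraction field `gaussField ℓ`; every nonzero element
of the fraction field is `ℓ ^ k` times a unit; the Gauss ring is integrally closed in its fraction
field; the modular function field lies in the fraction field.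
-/

set_option autoImplicit false

noncomputable section

namespace Fermat.Agent.S28L

open ModularCurve HahnSeries

variable (ℓ : ℕ) [Fact ℓ.Prime]

/-! ### Part A2: the Gauss ring, its reduction and its fraction field -/

instance ker_redL_isPrime : (RingHom.ker (redL ℓ)).IsPrime := RingHom.ker_isPrime _

/-- the localization of `ℤ_(ℓ)((q))` at the prime `(ℓ) = ker (redL ℓ)` -/
def GaussLoc (ℓ : ℕ) [Fact ℓ.Prime] : Type := Localization.AtPrime (RingHom.ker (redL ℓ))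

instance : CommRing (GaussLoc ℓ) :=
  inferInstanceAs (CommRing (Localization.AtPrime (RingHom.ker (redL ℓ))))

instance : Algebra (LaurentSeries (Ol ℓ)) (GaussLoc ℓ) :=
  inferInstanceAs (Algebra (LaurentSeries (Ol ℓ)) (Localization.AtPrime (RingHom.ker (redL ℓ))))

instance : IsLocalization.AtPrime (GaussLoc ℓ) (RingHom.ker (redL ℓ)) :=
  inferInstanceAs (IsLocalization.AtPrime (Localization.AtPrime (RingHom.ker (redL ℓ)))
    (RingHom.ker (redL ℓ)))

/-- the embedding of the localization into `ℚ((q))` -/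
def iotaV : GaussLoc ℓ →+* LaurentSeries ℚ :=
  IsLocalization.lift (M := (RingHom.ker (redL ℓ)).primeCompl) (g := iotaL ℓ) (fun y => by
    refine IsUnit.mk0 _ fun h => y.2 ?_
    have h0 : (y : LaurentSeries (Ol ℓ)) = 0 := iotaL_injective ℓ (by rw [h, map_zero])
    rw [h0]; exact zero_mem _)

/-- the reduction of the localization to `𝔽_ℓ((q))` -/
def redV : GaussLoc ℓ →+* LaurentSeries (ZMod ℓ) :=
  IsLocalization.lift (M := (RingHom.ker (redL ℓ)).primeCompl) (g := redL ℓ) (fun y =>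
    IsUnit.mk0 _ fun h => y.2 ((RingHom.mem_ker).2 h))

/-- the structure map `ℤ_(ℓ)((q)) → GaussLoc ℓ` is injective -/
theorem gauss_algebraMap_injective :
    Function.Injective (algebraMap (LaurentSeries (Ol ℓ)) (GaussLoc ℓ)) :=
  IsLocalization.injective (GaussLoc ℓ)
    (Ideal.primeCompl_le_nonZeroDivisors (RingHom.ker (redL ℓ)))

theorem iotaV_algebraMap (a : LaurentSeries (Ol ℓ)) :
    iotaV ℓ (algebraMap (LaurentSeries (Ol ℓ)) (GaussLoc ℓ) a) = iotaL ℓ a :=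
  IsLocalization.lift_eq _ a

theorem redV_algebraMap (a : LaurentSeries (Ol ℓ)) :
    redV ℓ (algebraMap (LaurentSeries (Ol ℓ)) (GaussLoc ℓ) a) = redL ℓ a :=
  IsLocalization.lift_eq _ a

/-- `redV (a / s) = 0` iff `redL a = 0` -/
theorem redV_mk'_eq_zero_iff (a : LaurentSeries (Ol ℓ))
    (s : (RingHom.ker (redL ℓ)).primeCompl) :
    redV ℓ (IsLocalization.mk' (GaussLoc ℓ) a s) = 0 ↔ redL ℓ a = 0 := by
  unfold redV
  rw [IsLocalization.lift_mk'_spec, mul_zero]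

theorem iotaV_injective : Function.Injective (iotaV ℓ) := by
  unfold iotaV
  rw [IsLocalization.lift_injective_iff]
  intro x y
  rw [(gauss_algebraMap_injective ℓ).eq_iff, (iotaL_injective ℓ).eq_iff]

/-- The Gauss valuation ring: the localization of `ℤ_(ℓ)((q))` at the prime `(ℓ)`, realised as a
subring of `ℚ((q))`. -/
def gaussRing : Subring (LaurentSeries ℚ) := (iotaV ℓ).range

/-- the Gauss ring is the isomorphic image of the localization -/
def gaussEquiv : GaussLoc ℓ ≃+* gaussRing ℓ :=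
  RingEquiv.ofBijective (iotaV ℓ).rangeRestrict
    ⟨fun x y h => iotaV_injective ℓ (congrArg Subtype.val h), (iotaV ℓ).rangeRestrict_surjective⟩

/-- the reduction map of the Gauss ring to `𝔽_ℓ((q))` -/
def gaussRed : gaussRing ℓ →+* LaurentSeries (ZMod ℓ) :=
  (redV ℓ).comp (gaussEquiv ℓ).symm.toRingHom

theorem coe_gaussEquiv (v : GaussLoc ℓ) :
    ((gaussEquiv ℓ v : gaussRing ℓ) : LaurentSeries ℚ) = iotaV ℓ v := rfl

theorem gaussRed_gaussEquiv (v : GaussLoc ℓ) : gaussRed ℓ (gaussEquiv ℓ v) = redV ℓ v := by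
  show redV ℓ ((gaussEquiv ℓ).symm (gaussEquiv ℓ v)) = redV ℓ v
  rw [RingEquiv.symm_apply_apply]

/-- an element of the Gauss ring which comes from `ℤ_(ℓ)((q))` reduces coefficientwise -/
theorem gaussRed_eq_redL_of_coe_eq (x : gaussRing ℓ) (a : LaurentSeries (Ol ℓ))
    (h : (x : LaurentSeries ℚ) = iotaL ℓ a) : gaussRed ℓ x = redL ℓ a := by
  have hx : x = gaussEquiv ℓ (algebraMap (LaurentSeries (Ol ℓ)) (GaussLoc ℓ) a) := by
    apply Subtype.ext
    rw [coe_gaussEquiv, iotaV_algebraMap, h]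
  rw [hx, gaussRed_gaussEquiv, redV_algebraMap]

theorem iotaL_mem_gaussRing (a : LaurentSeries (Ol ℓ)) : iotaL ℓ a ∈ gaussRing ℓ :=
  ⟨algebraMap (LaurentSeries (Ol ℓ)) (GaussLoc ℓ) a, iotaV_algebraMap ℓ a⟩

theorem gaussRed_iotaL (a : LaurentSeries (Ol ℓ)) :
    gaussRed ℓ ⟨iotaL ℓ a, iotaL_mem_gaussRing ℓ a⟩ = redL ℓ a :=
  gaussRed_eq_redL_of_coe_eq ℓ _ a rfl

theorem gauss_redL_natCast_self : redL ℓ (ℓ : LaurentSeries (Ol ℓ)) = 0 :=
  (redL_eq_zero_iff ℓ _).2 ⟨1, (mul_one _).symm⟩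

theorem gaussRed_natCast_self : gaussRed ℓ (ℓ : gaussRing ℓ) = 0 := by
  rw [map_natCast, ← map_natCast (redL ℓ) ℓ, gauss_redL_natCast_self]

/-- the kernel of the reduction is generated by `ℓ` -/
theorem gaussRed_eq_zero_iff (x : gaussRing ℓ) :
    gaussRed ℓ x = 0 ↔ ∃ y : gaussRing ℓ, x = (ℓ : gaussRing ℓ) * y := by
  constructor
  · intro h
    obtain ⟨v, rfl⟩ := (gaussEquiv ℓ).surjective x
    rw [gaussRed_gaussEquiv] at h
    obtain ⟨a, s, rfl⟩ := IsLocalization.exists_mk'_eq (RingHom.ker (redL ℓ)).primeCompl v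
    rw [redV_mk'_eq_zero_iff, redL_eq_zero_iff] at h
    obtain ⟨a', rfl⟩ := h
    refine ⟨gaussEquiv ℓ (IsLocalization.mk' (GaussLoc ℓ) a' s), ?_⟩
    rw [← map_natCast (gaussEquiv ℓ) ℓ, ← map_mul,
      ← map_natCast (algebraMap (LaurentSeries (Ol ℓ)) (GaussLoc ℓ)) ℓ,
      IsLocalization.mul_mk'_eq_mk'_of_mul]
  · rintro ⟨y, rfl⟩
    rw [map_mul, gaussRed_natCast_self, zero_mul]

/-- elements with nonzero reduction are units -/
theorem inv_mem_gaussRing (x : gaussRing ℓ) (hx : gaussRed ℓ x ≠ 0) :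
    (x : LaurentSeries ℚ)⁻¹ ∈ gaussRing ℓ := by
  obtain ⟨v, rfl⟩ := (gaussEquiv ℓ).surjective x
  rw [gaussRed_gaussEquiv] at hx
  obtain ⟨a, s, rfl⟩ := IsLocalization.exists_mk'_eq (RingHom.ker (redL ℓ)).primeCompl v
  have ha : a ∈ (RingHom.ker (redL ℓ)).primeCompl := fun h =>
    hx ((redV_mk'_eq_zero_iff ℓ a s).2 (RingHom.mem_ker.1 h))
  have h1 : IsLocalization.mk' (GaussLoc ℓ) a s *
      IsLocalization.mk' (GaussLoc ℓ) (s : LaurentSeries (Ol ℓ)) ⟨a, ha⟩ = 1 :=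
    IsLocalization.mk'_mul_mk'_eq_one' a s ha
  have h2 := congrArg (iotaV ℓ) h1
  rw [map_mul, map_one] at h2
  rw [coe_gaussEquiv, inv_eq_of_mul_eq_one_right h2]
  exact ⟨_, rfl⟩

/-- the fraction field of the Gauss ring inside `ℚ((q))` -/
def gaussField : Subfield (LaurentSeries ℚ) := Subfield.closure (gaussRing ℓ : Set (LaurentSeries ℚ))

theorem gaussRing_le_gaussField : gaussRing ℓ ≤ (gaussField ℓ).toSubring :=
  fun _ hx => Subfield.subset_closure hx

/-- every nonzero element of the Gauss ring is a power of `ℓ` times an element with nonzero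
reduction -/
theorem exists_pow_mul_gaussRed_ne_zero (y : gaussRing ℓ) (hy : y ≠ 0) :
    ∃ (e : ℕ) (u : gaussRing ℓ), gaussRed ℓ u ≠ 0 ∧ y = (ℓ : gaussRing ℓ) ^ e * u := by
  obtain ⟨v, rfl⟩ := (gaussEquiv ℓ).surjective y
  obtain ⟨a, s, rfl⟩ := IsLocalization.exists_mk'_eq (RingHom.ker (redL ℓ)).primeCompl v
  have ha : a ≠ 0 := by
    rintro rfl
    apply hy
    rw [IsLocalization.mk'_zero, map_zero]
  obtain ⟨e, a', rfl, ha'⟩ := exists_pow_mul_redL_ne_zero ℓ a ha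
  refine ⟨e, gaussEquiv ℓ (IsLocalization.mk' (GaussLoc ℓ) a' s), ?_, ?_⟩
  · rw [gaussRed_gaussEquiv, Ne, redV_mk'_eq_zero_iff]
    exact ha'
  · rw [← map_natCast (gaussEquiv ℓ) ℓ, ← map_pow, ← map_mul,
      ← map_natCast (algebraMap (LaurentSeries (Ol ℓ)) (GaussLoc ℓ)) ℓ, ← map_pow,
      IsLocalization.mul_mk'_eq_mk'_of_mul]

omit [Fact ℓ.Prime] in
theorem gauss_natCast_laurentSeries_ne_zero (hℓ : ℓ ≠ 0) : (ℓ : LaurentSeries ℚ) ≠ 0 := by
  rw [← map_natCast (algebraMap ℚ (LaurentSeries ℚ)) ℓ]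
  exact (map_ne_zero (algebraMap ℚ (LaurentSeries ℚ))).2 (Nat.cast_ne_zero.2 hℓ)

/-- every nonzero element of the fraction field is `ℓ ^ k` times a unit of the Gauss ring -/
theorem exists_zpow_mul_unit (x : LaurentSeries ℚ) (hx : x ∈ gaussField ℓ) (hx0 : x ≠ 0) :
    ∃ (k : ℤ) (u : gaussRing ℓ), gaussRed ℓ u ≠ 0 ∧
      x = (ℓ : LaurentSeries ℚ) ^ k * (u : LaurentSeries ℚ) := by
  unfold gaussField at hx
  rw [Subfield.mem_closure_iff, Subring.closure_eq] at hx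
  obtain ⟨y, hy, z, hz, rfl⟩ := hx
  have hy0 : y ≠ 0 := fun h => hx0 (by rw [h, zero_div])
  have hz0 : z ≠ 0 := fun h => hx0 (by rw [h, div_zero])
  obtain ⟨e₁, u₁, hu₁, h₁⟩ := exists_pow_mul_gaussRed_ne_zero ℓ ⟨y, hy⟩
    (fun h => hy0 (congrArg Subtype.val h))
  obtain ⟨e₂, u₂, hu₂, h₂⟩ := exists_pow_mul_gaussRed_ne_zero ℓ ⟨z, hz⟩
    (fun h => hz0 (congrArg Subtype.val h))
  have h₁' : y = (ℓ : LaurentSeries ℚ) ^ e₁ * (u₁ : LaurentSeries ℚ) := congrArg Subtype.val h₁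
  have h₂' : z = (ℓ : LaurentSeries ℚ) ^ e₂ * (u₂ : LaurentSeries ℚ) := congrArg Subtype.val h₂
  have hinv := inv_mem_gaussRing ℓ u₂ hu₂
  have hℓ : (ℓ : LaurentSeries ℚ) ≠ 0 :=
    gauss_natCast_laurentSeries_ne_zero ℓ (Fact.out : ℓ.Prime).ne_zero
  have hu₂0 : (u₂ : LaurentSeries ℚ) ≠ 0 := by
    intro h
    apply hu₂
    have h0 : u₂ = 0 := Subtype.ext h
    rw [h0, map_zero]
  refine ⟨(e₁ : ℤ) - e₂, u₁ * ⟨_, hinv⟩, ?_, ?_⟩
  · rw [map_mul]
    refine mul_ne_zero hu₁ ?_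
    intro h
    have h3 : gaussRed ℓ (⟨_, hinv⟩ * u₂) = 1 := by
      have h4 : (⟨_, hinv⟩ * u₂ : gaussRing ℓ) = 1 := Subtype.ext (inv_mul_cancel₀ hu₂0)
      rw [h4, map_one]
    rw [map_mul, h, zero_mul] at h3
    exact zero_ne_one h3
  · rw [h₁', h₂', zpow_sub₀ hℓ, zpow_natCast, zpow_natCast]
    show _ = _ * ((u₁ : LaurentSeries ℚ) * (u₂ : LaurentSeries ℚ)⁻¹)
    field_simp

/-- if `x` is integral over a subring `R` of a field and has an inverse `t` in `R`, then `t` is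
a unit of `R` -/
theorem gauss_exists_mul_eq_one_of_isIntegral {K : Type*} [Field K] (R : Subring K) (x : K)
    (hint : IsIntegral R x) (t : R) (hxt : x * (t : K) = 1) : ∃ w : R, t * w = 1 := by
  obtain ⟨p, hp, hpx⟩ := hint
  have hx0 : x ≠ 0 := left_ne_zero_of_mul_eq_one hxt
  let _ : Invertible x := ⟨(t : K), by rw [mul_comm]; exact hxt, hxt⟩
  have h1 := Polynomial.eval₂_reverse_mul_pow (algebraMap R K) x p
  rw [hpx] at h1
  have h2 : Polynomial.eval₂ (algebraMap R K) (algebraMap R K t) p.reverse = 0 :=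
    (mul_eq_zero.1 h1).resolve_right (pow_ne_zero _ hx0)
  rw [Polynomial.eval₂_at_apply] at h2
  have h3 : Polynomial.eval t p.reverse = 0 := Subtype.ext h2
  rw [← Polynomial.divX_mul_X_add p.reverse, Polynomial.coeff_zero_reverse, hp.leadingCoeff,
    Polynomial.eval_add, Polynomial.eval_mul, Polynomial.eval_X, Polynomial.eval_C] at h3
  refine ⟨-Polynomial.eval t p.reverse.divX, ?_⟩
  linear_combination -h3

/-- the Gauss ring is integrally closed in its fraction field -/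
theorem mem_gaussRing_of_isIntegral (x : LaurentSeries ℚ) (hx : x ∈ gaussField ℓ)
    (hint : IsIntegral (gaussRing ℓ) x) : x ∈ gaussRing ℓ := by
  by_cases hx0 : x = 0
  · rw [hx0]
    exact zero_mem _
  obtain ⟨k, u, hu, hxu⟩ := exists_zpow_mul_unit ℓ x hx hx0
  have hℓmem : (ℓ : LaurentSeries ℚ) ∈ gaussRing ℓ := natCast_mem _ ℓ
  rcases le_or_gt 0 k with hk | hk
  · lift k to ℕ using hk
    rw [hxu, zpow_natCast]
    exact mul_mem (pow_mem hℓmem k) u.2
  · exfalso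
    obtain ⟨n, hn⟩ : ∃ n : ℕ, k = -((n : ℤ) + 1) := ⟨(-k - 1).toNat, by omega⟩
    have hinv := inv_mem_gaussRing ℓ u hu
    have hℓ : (ℓ : LaurentSeries ℚ) ≠ 0 :=
      gauss_natCast_laurentSeries_ne_zero ℓ (Fact.out : ℓ.Prime).ne_zero
    have hu0 : (u : LaurentSeries ℚ) ≠ 0 := by
      intro h
      apply hu
      have h0 : u = 0 := Subtype.ext h
      rw [h0, map_zero]
    have hxt : x * (((ℓ : gaussRing ℓ) ^ (n + 1) * ⟨_, hinv⟩ : gaussRing ℓ) : LaurentSeries ℚ)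
        = 1 := by
      show x * ((ℓ : LaurentSeries ℚ) ^ (n + 1) * (u : LaurentSeries ℚ)⁻¹) = 1
      rw [hxu, hn, zpow_neg, ← Nat.cast_add_one, zpow_natCast]
      field_simp
    obtain ⟨w, hw⟩ := gauss_exists_mul_eq_one_of_isIntegral (gaussRing ℓ) x hint _ hxt
    have h5 := congrArg (gaussRed ℓ) hw
    rw [map_mul, map_mul, map_pow, gaussRed_natCast_self, zero_pow (Nat.succ_ne_zero n), zero_mul,
      zero_mul, map_one] at h5
    exact zero_ne_one h5

/-! ### Part A3: constants and the modular functions -/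

omit [Fact ℓ.Prime] in
theorem gauss_algebraMap_eq_iotaL_single (c : Ol ℓ) :
    algebraMap ℚ (LaurentSeries ℚ) (c : ℚ) = iotaL ℓ (HahnSeries.single 0 c) := by
  rw [algebraMap_laurentSeries_eq_single, iotaL, coeffMap_single]
  rfl

theorem algebraMap_mem_gaussRing (c : Ol ℓ) :
    algebraMap ℚ (LaurentSeries ℚ) (c : ℚ) ∈ gaussRing ℓ := by
  rw [gauss_algebraMap_eq_iotaL_single]
  exact iotaL_mem_gaussRing ℓ _

theorem gaussRed_algebraMap (c : Ol ℓ) :
    gaussRed ℓ ⟨algebraMap ℚ (LaurentSeries ℚ) (c : ℚ), algebraMap_mem_gaussRing ℓ c⟩ =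
      algebraMap (ZMod ℓ) (LaurentSeries (ZMod ℓ)) (resO ℓ c) := by
  rw [gaussRed_eq_redL_of_coe_eq ℓ _ _ (gauss_algebraMap_eq_iotaL_single ℓ c), redL,
    coeffMap_single, algebraMap_laurentSeries_eq_single]

omit [Fact ℓ.Prime] in
theorem gauss_jqNModC_eq_iotaL (d : ℕ) [NeZero d] : jqNModC ℚ d = iotaL ℓ (jqNModC (Ol ℓ) d) :=
  (coeffMap_jqNModC (GaloisRep.ratLocalizedAt ℓ).subtype d).symm

theorem jqNModC_mem_gaussRing (d : ℕ) [NeZero d] : jqNModC ℚ d ∈ gaussRing ℓ := by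
  rw [gauss_jqNModC_eq_iotaL ℓ d]
  exact iotaL_mem_gaussRing ℓ _

theorem gaussRed_jqNModC (d : ℕ) [NeZero d] :
    gaussRed ℓ ⟨jqNModC ℚ d, jqNModC_mem_gaussRing ℓ d⟩ = jqNModC (ZMod ℓ) d := by
  rw [gaussRed_eq_redL_of_coe_eq ℓ _ _ (gauss_jqNModC_eq_iotaL ℓ d), redL, coeffMap_jqNModC]

omit [Fact ℓ.Prime] in
theorem gauss_jq_eq_iotaL : jq = iotaL ℓ (jqModC (Ol ℓ)) :=
  (coeffMap_jqModC (GaloisRep.ratLocalizedAt ℓ).subtype).symm

theorem jq_mem_gaussRing : jq ∈ gaussRing ℓ := by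
  rw [gauss_jq_eq_iotaL ℓ]
  exact iotaL_mem_gaussRing ℓ _

theorem gaussRed_jq : gaussRed ℓ ⟨jq, jq_mem_gaussRing ℓ⟩ = jqModC (ZMod ℓ) := by
  rw [gaussRed_eq_redL_of_coe_eq ℓ _ _ (gauss_jq_eq_iotaL ℓ), redL, coeffMap_jqModC]

theorem modularFunctionFieldFull_le_gaussField (N : ℕ) [NeZero N] :
    (modularFunctionFieldFull N).toSubfield ≤ gaussField ℓ := by
  have h : (modularFunctionFieldFull N).toSubfield =
      Subfield.closure (Set.range (algebraMap ℚ (LaurentSeries ℚ)) ∪ divisorExpansions N) := rfl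
  rw [h, Subfield.closure_le]
  rintro x (⟨r, rfl⟩ | ⟨d, hd, -, rfl⟩)
  · rw [eq_ratCast (algebraMap ℚ (LaurentSeries ℚ)) r]
    exact SubfieldClass.ratCast_mem (gaussField ℓ) r
  · exact gaussRing_le_gaussField ℓ (jqNModC_mem_gaussRing ℓ d)

end Fermat.Agent.S28L
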